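import Mathlib
import Fermat.Agent.CFT.S14.Inertia_helper5
import Fermat.Agent.Tate.LogValExists
import Fermat.Agent.Tate.Inertia

/-!
# S13 common infrastructure: the value group of the inertia field (helper5)

For a valuation subring `A` of `ℚ̄` over a prime `ℓ`, an element `y ≠ 0` of `ℚ̄` fixed by the inertia
subgroup `A.inertiaSubgroupIn ℚ` has valuation an integral power of the valuation of `ℓ`:
`exists_zpow_valuation_eq_of_fixed`, `exists_zpow_mul_mem_units_of_fixed`,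
`LogVal.exists_int_of_fixed`.

Route: (1) Hilbert theory in a finite Galois extension `L/ℚ`: the ramification index of a prime `P`
over the inertia field equals its ramification index over `ℚ`
(`ramificationIdx_inertiaField_eq`), hence the statement for the `P`-adic valuation
(`exists_zpow_valuation_eq_of_inertia_fixed`); (2) every element of the inertia group of the prime
of `L` below `A` lifts to `A.inertiaSubgroupIn ℚ` (`exists_lift_mem_inertiaSubgroupIn_of`).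
-/

set_option autoImplicit false
set_option linter.style.haveILetI false
set_option linter.unusedSectionVars false

open IntermediateField
open scoped NumberField Pointwise
open IsDedekindDomain

namespace Fermat.Agent.EC

open Fermat.Agent.CFT.S14

section NF

variable {L : Type*} [Field L] [NumberField L] [IsGalois ℚ L]

/-- Hilbert theory: the ramification index of `P` over the inertia field equals the
ramification index over `ℚ`. -/
theorem ramificationIdx_inertiaField_eq (P : Ideal (𝓞 L)) [P.IsPrime] (hP0 : P ≠ ⊥) :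
    P.ramificationIdx (𝓞 (FixedPoints.intermediateField (P.inertia (L ≃ₐ[ℚ] L)) :
      IntermediateField ℚ L)) = P.ramificationIdx ℤ := by
  set G := L ≃ₐ[ℚ] L
  set I : Subgroup G := P.inertia G
  set E : IntermediateField ℚ L := FixedPoints.intermediateField I
  have hP : P.IsMaximal := Ring.DimensionLEOne.maximalOfPrime hP0 inferInstance
  have h1 : IsGaloisGroup G ℤ (𝓞 L) := IsGaloisGroup.of_isFractionRing G ℤ (𝓞 L) ℚ L
  have h2 : IsGaloisGroup I E L := IsGaloisGroup.subgroup G ℚ L I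
  have h3 : IsGaloisGroup I (𝓞 E) (𝓞 L) := IsGaloisGroup.of_isFractionRing I (𝓞 E) (𝓞 L) E L
  rw [← Ideal.ramificationIdxIn_eq_ramificationIdx (P.under ℤ) P G,
    ← Ideal.card_inertia_eq_ramificationIdxIn (G := G) (P.under ℤ) P,
    ← Ideal.ramificationIdxIn_eq_ramificationIdx (P.under (𝓞 E)) P I,
    ← Ideal.card_inertia_eq_ramificationIdxIn (G := I) (P.under (𝓞 E)) P]
  have htop : P.inertia I = ⊤ := by
    rw [eq_top_iff]
    intro σ _
    exact σ.2
  rw [htop]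
  exact Nat.card_congr Subgroup.topEquiv.toEquiv

/-- **Value group of the inertia field** (number field level): an element fixed by the inertia
group of `w` has `w`-adic valuation an integral power of the valuation of the residue
characteristic. -/
theorem exists_zpow_valuation_eq_of_inertia_fixed (w : HeightOneSpectrum (𝓞 L)) {ℓ : ℕ}
    (hℓp : ℓ.Prime) (hℓ : (ℓ : 𝓞 L) ∈ w.asIdeal) (y : L) (hy : y ≠ 0)
    (hfix : ∀ σ : L ≃ₐ[ℚ] L, (∀ x : 𝓞 L, σ • x - x ∈ w.asIdeal) → σ y = y) :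
    ∃ m : ℤ, w.valuation L y = (w.valuation L (ℓ : L)) ^ m := by
  set P := w.asIdeal with hPdef
  set G := L ≃ₐ[ℚ] L
  set I : Subgroup G := P.inertia G with hI
  set E : IntermediateField ℚ L := FixedPoints.intermediateField I with hE
  have hyE : y ∈ E := fun σ => hfix σ σ.2
  have hP0 : P ≠ ⊥ := w.ne_bot
  let u : HeightOneSpectrum (𝓞 E) := ⟨P.under (𝓞 E), inferInstance, Ideal.under_ne_bot (𝓞 E) hP0⟩
  let v : HeightOneSpectrum ℤ := ⟨P.under ℤ, inferInstance, Ideal.under_ne_bot ℤ hP0⟩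
  have hwu : w.asIdeal.LiesOver u.asIdeal := ⟨rfl⟩
  have hwv : w.asIdeal.LiesOver v.asIdeal := ⟨rfl⟩
  have e1 := HeightOneSpectrum.valuation_liesOver L u w (⟨y, hyE⟩ : E)
  have e2 := HeightOneSpectrum.valuation_liesOver L v w (ℓ : ℚ)
  rw [Ideal.ramificationIdx'_eq_ramificationIdx u.asIdeal w.asIdeal u.ne_bot] at e1
  rw [Ideal.ramificationIdx'_eq_ramificationIdx v.asIdeal w.asIdeal v.ne_bot] at e2
  have hee : w.asIdeal.ramificationIdx (𝓞 E) = w.asIdeal.ramificationIdx ℤ :=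
    ramificationIdx_inertiaField_eq P hP0
  rw [hee] at e1
  set e := w.asIdeal.ramificationIdx ℤ with he
  -- the valuation of `ℓ` at `v`
  have hvℓ : v.valuation ℚ (ℓ : ℚ) = WithZero.exp (-1 : ℤ) := by
    have hspan : v.asIdeal = Ideal.span {(ℓ : ℤ)} := by
      have hmax : (Ideal.span {(ℓ : ℤ)}).IsMaximal :=
        PrincipalIdealRing.isMaximal_of_irreducible
          (Nat.prime_iff_prime_int.mp hℓp).irreducible
      symm
      apply hmax.eq_of_le v.isPrime.ne_top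
      rw [Ideal.span_singleton_le_iff_mem]
      show (algebraMap ℤ (𝓞 L) (ℓ : ℤ)) ∈ P
      simpa using hℓ
    have h1 := v.intValuation_singleton (r := (ℓ : ℤ)) (by exact_mod_cast hℓp.ne_zero) hspan
    have h2 := v.valuation_of_algebraMap (K := ℚ) (ℓ : ℤ)
    rw [h1] at h2
    simpa using h2
  rw [hvℓ] at e2
  have hy0 : (⟨y, hyE⟩ : E) ≠ 0 := fun h => hy (congrArg Subtype.val h)
  have hu0 : u.valuation E ⟨y, hyE⟩ ≠ 0 := (Valuation.ne_zero_iff _).mpr hy0
  obtain ⟨k, hk⟩ : ∃ k : ℤ, u.valuation E ⟨y, hyE⟩ = WithZero.exp k :=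
    ⟨WithZero.log (u.valuation E ⟨y, hyE⟩), (WithZero.exp_log hu0).symm⟩
  rw [hk] at e1
  refine ⟨-k, ?_⟩
  have e1' : w.valuation L y = WithZero.exp k ^ e := e1.symm
  have e2' : w.valuation L (ℓ : L) = WithZero.exp (-1 : ℤ) ^ e := by
    rw [e2]; simp
  rw [e1', e2', ← WithZero.exp_nsmul, ← WithZero.exp_nsmul, ← WithZero.exp_zsmul]
  congr 1
  simp
  ring

end NF

section PrimeOfValuationSubring

/-- The prime of `𝓞 ℚ̄` cut out by a valuation subring of `ℚ̄`. -/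
def primeQbar (A : ValuationSubring Qbar) : Ideal (𝓞 Qbar) where
  carrier := {b | A.valuation (b : Qbar) < 1}
  add_mem' {a b} ha hb := by
    show A.valuation (((a + b : 𝓞 Qbar)) : Qbar) < 1
    push_cast
    exact lt_of_le_of_lt (A.valuation.map_add _ _) (max_lt ha hb)
  zero_mem' := by
    show A.valuation ((0 : 𝓞 Qbar) : Qbar) < 1
    simp
  smul_mem' c b hb := by
    show A.valuation ((c * b : 𝓞 Qbar) : Qbar) < 1
    push_cast
    rw [map_mul, mul_comm]
    exact mul_lt_one_of_lt_of_le hb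
      (Fermat.Agent.S54.valuation_le_one_of_isIntegral A
        (NumberField.RingOfIntegers.isIntegral_coe c))

theorem mem_primeQbar (A : ValuationSubring Qbar) (b : 𝓞 Qbar) :
    b ∈ primeQbar A ↔ A.valuation (b : Qbar) < 1 := Iff.rfl

theorem valuation_coe_le_one (A : ValuationSubring Qbar) (b : 𝓞 Qbar) :
    A.valuation (b : Qbar) ≤ 1 :=
  Fermat.Agent.S54.valuation_le_one_of_isIntegral A (NumberField.RingOfIntegers.isIntegral_coe b)

theorem valuation_coe_eq_one_of_not_mem {A : ValuationSubring Qbar} {b : 𝓞 Qbar}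
    (hb : b ∉ primeQbar A) : A.valuation (b : Qbar) = 1 :=
  le_antisymm (valuation_coe_le_one A b) (not_lt.mp hb)

instance primeQbar_isPrime (A : ValuationSubring Qbar) : (primeQbar A).IsPrime := by
  refine ⟨?_, ?_⟩
  · rw [Ne, Ideal.eq_top_iff_one, mem_primeQbar]
    simp
  · intro a b hab
    rw [mem_primeQbar] at hab
    by_contra h
    push Not at h
    have ha := valuation_coe_eq_one_of_not_mem h.1
    have hb := valuation_coe_eq_one_of_not_mem h.2
    have : A.valuation ((a * b : 𝓞 Qbar) : Qbar) = 1 := by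
      push_cast
      rw [map_mul, ha, hb, one_mul]
    rw [this] at hab
    exact lt_irrefl _ hab

variable {A : ValuationSubring Qbar} {ℓ : ℕ}

theorem natCast_mem_primeQbar (hA : A.LiesOverPrime ℓ) : (ℓ : 𝓞 Qbar) ∈ primeQbar A := by
  rw [mem_primeQbar]
  have := (A.mem_nonunits_iff).mp hA
  simpa using this

/-- `A` is the localisation of `𝓞 ℚ̄` at `primeQbar A`. -/
theorem mem_iff_exists_fraction (hℓ : ℓ.Prime) (hA : A.LiesOverPrime ℓ) (x : Qbar) :
    x ∈ A ↔ ∃ b s : 𝓞 Qbar, s ∉ primeQbar A ∧ x * (s : Qbar) = (b : Qbar) := by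
  constructor
  · intro hx
    have hxalg : IsAlgebraic ℤ x :=
      (IsFractionRing.isAlgebraic_iff ℤ ℚ Qbar).mpr (Algebra.IsAlgebraic.isAlgebraic x)
    obtain ⟨s, hs, hsv, hsx⟩ := Fermat.Agent.S54.exists_fraction A hℓ hA hxalg hx
    refine ⟨⟨s * x, hsx⟩, ⟨s, hs⟩, ?_, mul_comm _ _⟩
    rw [mem_primeQbar]
    show ¬ A.valuation s < 1
    rw [hsv]; exact lt_irrefl _
  · rintro ⟨b, s, hs, hxs⟩
    rw [← A.valuation_le_one_iff]
    have h1 : A.valuation (x * (s : Qbar)) ≤ 1 := hxs ▸ valuation_coe_le_one A b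
    rwa [map_mul, valuation_coe_eq_one_of_not_mem hs, mul_one] at h1

theorem mem_nonunits_iff_exists_fraction (hℓ : ℓ.Prime) (hA : A.LiesOverPrime ℓ) (x : Qbar) :
    x ∈ A.nonunits ↔
      ∃ b s : 𝓞 Qbar, b ∈ primeQbar A ∧ s ∉ primeQbar A ∧ x * (s : Qbar) = (b : Qbar) := by
  constructor
  · intro hx
    have hxA : x ∈ A := by
      rw [← A.valuation_le_one_iff]
      exact le_of_lt ((A.mem_nonunits_iff).mp hx)
    obtain ⟨b, s, hs, hxs⟩ := (mem_iff_exists_fraction hℓ hA x).mp hxA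
    refine ⟨b, s, ?_, hs, hxs⟩
    rw [mem_primeQbar, ← hxs, map_mul, valuation_coe_eq_one_of_not_mem hs, mul_one]
    exact (A.mem_nonunits_iff).mp hx
  · rintro ⟨b, s, hb, hs, hxs⟩
    rw [A.mem_nonunits_iff]
    have h1 : A.valuation (x * (s : Qbar)) < 1 := hxs ▸ (mem_primeQbar A b).mp hb
    rwa [map_mul, valuation_coe_eq_one_of_not_mem hs, mul_one] at h1

/-- An element of `G_ℚ` acting trivially on `𝓞 ℚ̄ / primeQbar A` lies in the inertia subgroup
of `A`. -/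
theorem mem_inertiaSubgroupIn_of_forall_sub_mem_primeQbar (hℓ : ℓ.Prime) (hA : A.LiesOverPrime ℓ)
    (σ : GQ) (hσ : ∀ b : 𝓞 Qbar, σ • b - b ∈ primeQbar A) : σ ∈ A.inertiaSubgroupIn ℚ :=
  mem_inertiaSubgroupIn_of_forall_sub_mem (mem_iff_exists_fraction hℓ hA)
    (mem_nonunits_iff_exists_fraction hℓ hA) σ hσ

end PrimeOfValuationSubring

section Lifting

variable {K₀ : IntermediateField ℚ Qbar} {N : Subgroup GQ} (hNK : N ≤ K₀.fixingSubgroup)
variable [hNo : Fact (IsOpen (N : Set GQ))] [N.Normal]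

/-- **Lifting inertia, with a prescribed prime of `𝓞 ℚ̄`**: if `Q` is a prime of `𝓞 ℚ̄` above the
prime `𝔔` of `L`, every element of the inertia group of `𝔔` in `Gal(L/K₀)` is the restriction of
an element of `G_ℚ` fixing `K₀` and acting trivially on `𝓞 ℚ̄ / Q`. -/
theorem exists_lift_forall_sub_mem (𝔔 : Ideal (𝓞 (LK hNK))) [𝔔.IsPrime]
    (Q : Ideal (𝓞 Qbar)) [Q.IsPrime] [Q.LiesOver 𝔔]
    (s : (LK hNK) ≃ₐ[K₀] (LK hNK)) (hs : ∀ x : 𝓞 (LK hNK), s • x - x ∈ 𝔔) :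
    ∃ (σ : GQ) (hσ : σ ∈ K₀.fixingSubgroup),
      (∀ b : 𝓞 Qbar, σ • b - b ∈ Q) ∧ resLK hNK σ hσ = s := by
  classical
  -- `s` and `s⁻¹` preserve `𝔔`
  have hs𝔔 : ∀ x : 𝓞 (LK hNK), s • x ∈ 𝔔 ↔ x ∈ 𝔔 := by
    intro x
    constructor
    · intro h; have := 𝔔.sub_mem h (hs x); simpa using this
    · intro h; have := 𝔔.add_mem (hs x) h; simpa using this
  -- a first lift
  obtain ⟨σ₀, hσ₀K, hσ₀s⟩ := resLK_surjective hNK s
  -- `σ₀ • Q` lies over `𝔔` as well
  have hunder : (σ₀ • Q).under (𝓞 (LK hNK)) = Q.under (𝓞 (LK hNK)) := by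
    ext x
    rw [Ideal.under_def, Ideal.under_def, Ideal.mem_comap, Ideal.mem_comap,
      Ideal.mem_pointwise_smul_iff_inv_smul_mem,
      coe_algebraMap_smul_resLK hNK σ₀⁻¹ (inv_mem hσ₀K) x]
    have e : resLK hNK σ₀⁻¹ (inv_mem hσ₀K) = s⁻¹ := by
      rw [eq_inv_iff_mul_eq_one, ← hσ₀s, ← resLK_mul, resLK_eq_one_iff]
      simp
    rw [e]
    show s⁻¹ • x ∈ Q.under (𝓞 (LK hNK)) ↔ x ∈ Q.under (𝓞 (LK hNK))
    rw [← Ideal.over_def Q 𝔔]
    rw [← hs𝔔 (s⁻¹ • x), smul_inv_smul]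
  obtain ⟨n, hn⟩ := exists_smul_eq_of_under_eq hNK (σ₀ • Q) Q hunder
  set σ₁ : GQ := (n : GQ) * σ₀ with hσ₁
  have hσ₁Q : σ₁ • Q = Q := by rw [hσ₁, mul_smul]; exact hn.symm
  have hnK : (n : GQ) ∈ K₀.fixingSubgroup := hNK n.2
  have hσ₁K : σ₁ ∈ K₀.fixingSubgroup := mul_mem hnK hσ₀K
  have hσ₁s : resLK hNK σ₁ hσ₁K = s := by
    rw [resLK_mul hNK _ _ hnK hσ₀K, hσ₀s, (resLK_eq_one_iff hNK _ hnK).mpr n.2, one_mul]
  -- the automorphism of `𝓞 ℚ̄ / Q` over `𝓞 L / 𝔔` induced by `σ₁`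
  let r : (𝓞 Qbar ⧸ Q) ≃+* (𝓞 Qbar ⧸ Q) :=
    Ideal.quotientEquiv Q Q (MulSemiringAction.toRingEquiv GQ (𝓞 Qbar) σ₁) (by
      conv_lhs => rw [← hσ₁Q]
      rfl)
  have hr : ∀ b : 𝓞 Qbar, r (Ideal.Quotient.mk Q b) = Ideal.Quotient.mk Q (σ₁ • b) := fun b => rfl
  let abar : (𝓞 Qbar ⧸ Q) ≃ₐ[𝓞 (LK hNK) ⧸ 𝔔] (𝓞 Qbar ⧸ Q) :=
    AlgEquiv.ofRingEquiv (f := r) (by
      intro x
      obtain ⟨x, rfl⟩ := Ideal.Quotient.mk_surjective x
      show r (Ideal.Quotient.mk Q (algebraMap _ _ x)) = Ideal.Quotient.mk Q (algebraMap _ _ x)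
      rw [hr, coe_algebraMap_smul_resLK hNK σ₁ hσ₁K x, hσ₁s, Ideal.Quotient.eq, ← map_sub]
      show s • x - x ∈ Q.under (𝓞 (LK hNK))
      rw [← Ideal.over_def Q 𝔔]
      exact hs x)
  obtain ⟨⟨n', hn'Q⟩, hn'⟩ := stabilizerHom_surjective_N hNK 𝔔 Q abar
  set σ : GQ := ((n' : GQ))⁻¹ * σ₁ with hσdef
  have hn'K : ((n' : GQ))⁻¹ ∈ K₀.fixingSubgroup := inv_mem (hNK n'.2)
  have hσK : σ ∈ K₀.fixingSubgroup := mul_mem hn'K hσ₁K
  have hσs : resLK hNK σ hσK = s := by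
    rw [resLK_mul hNK _ _ hn'K hσ₁K, hσ₁s,
      (resLK_eq_one_iff hNK _ hn'K).mpr (inv_mem n'.2), one_mul]
  -- `σ` acts trivially on `𝓞 ℚ̄ / Q`
  have hσtriv : ∀ b : 𝓞 Qbar, σ • b - b ∈ Q := by
    intro b
    rw [← Ideal.Quotient.eq]
    have h1 : Ideal.Quotient.stabilizerHom Q 𝔔 ↥N ⟨n', hn'Q⟩ (Ideal.Quotient.mk Q (σ • b)) =
        abar (Ideal.Quotient.mk Q b) := by
      rw [Ideal.Quotient.stabilizerHom_apply]
      show Ideal.Quotient.mk Q ((n' : GQ) • σ • b) = r (Ideal.Quotient.mk Q b)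
      rw [hr, hσdef, mul_smul, smul_inv_smul]
    rw [hn'] at h1
    exact abar.injective h1
  exact ⟨σ, hσK, hσtriv, hσs⟩

variable {A : ValuationSubring Qbar} {ℓ : ℕ}

/-- The prime of `𝓞 L` below a valuation subring of `ℚ̄`. -/
noncomputable abbrev primeLK (A : ValuationSubring Qbar) : Ideal (𝓞 (LK hNK)) :=
  (primeQbar A).under (𝓞 (LK hNK))

theorem mem_primeLK (x : 𝓞 (LK hNK)) :
    x ∈ primeLK hNK A ↔ A.valuation (((x : LK hNK) : Qbar)) < 1 := Iff.rfl

/-- **Lifting inertia to a prescribed valuation subring**: every element of the inertia group of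
the prime of `L` below `A` is the restriction of an element of `A.inertiaSubgroupIn ℚ`
fixing `K₀`. -/
theorem exists_lift_mem_inertiaSubgroupIn_of (hℓ : ℓ.Prime) (hA : A.LiesOverPrime ℓ)
    (s : (LK hNK) ≃ₐ[K₀] (LK hNK)) (hs : ∀ x : 𝓞 (LK hNK), s • x - x ∈ primeLK hNK A) :
    ∃ (σ : GQ) (hσ : σ ∈ K₀.fixingSubgroup),
      σ ∈ A.inertiaSubgroupIn ℚ ∧ resLK hNK σ hσ = s := by
  haveI : (primeQbar A).LiesOver (primeLK hNK A) := ⟨rfl⟩
  obtain ⟨σ, hσK, hσ, hσs⟩ := exists_lift_forall_sub_mem hNK (primeLK hNK A) (primeQbar A) s hs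
  exact ⟨σ, hσK, mem_inertiaSubgroupIn_of_forall_sub_mem_primeQbar hℓ hA σ hσ, hσs⟩

end Lifting

section Main

variable {N : Subgroup GQ} [hNo : Fact (IsOpen (N : Set GQ))] [N.Normal]
variable {A : ValuationSubring Qbar} {ℓ : ℕ}

theorem le_fixingSubgroup_bot (N : Subgroup GQ) :
    N ≤ (⊥ : IntermediateField ℚ Qbar).fixingSubgroup := by
  rw [IntermediateField.fixingSubgroup_bot]; exact le_top

theorem mem_fixingSubgroup_bot (σ : GQ) : σ ∈ (⊥ : IntermediateField ℚ Qbar).fixingSubgroup := by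
  rw [IntermediateField.fixingSubgroup_bot]; exact Subgroup.mem_top σ

instance instIsGaloisRatLK : IsGalois ℚ (LK (le_fixingSubgroup_bot N)) := ⟨⟩

/-- A `ℚ`-automorphism of `L`, as an automorphism over `⊥`. -/
noncomputable def toBotAlgEquiv (s : (LK (le_fixingSubgroup_bot N)) ≃ₐ[ℚ] (LK (le_fixingSubgroup_bot N))) :
    (LK (le_fixingSubgroup_bot N)) ≃ₐ[(⊥ : IntermediateField ℚ Qbar)] (LK (le_fixingSubgroup_bot N)) :=
  AlgEquiv.ofRingEquiv (f := s.toRingEquiv) (by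
    intro x
    obtain ⟨q, hq⟩ := IntermediateField.mem_bot.mp x.2
    have hx : algebraMap (⊥ : IntermediateField ℚ Qbar) (LK (le_fixingSubgroup_bot N)) x =
        algebraMap ℚ (LK (le_fixingSubgroup_bot N)) q := by
      apply Subtype.ext
      exact hq.symm
    rw [hx]
    exact s.commutes q)

theorem toBotAlgEquiv_apply
    (s : (LK (le_fixingSubgroup_bot N)) ≃ₐ[ℚ] (LK (le_fixingSubgroup_bot N)))
    (x : LK (le_fixingSubgroup_bot N)) : toBotAlgEquiv s x = s x := rfl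

/-- Integral elements of `L` are in `A`. -/
theorem valuation_coe_LK_le_one (A : ValuationSubring Qbar) (x : 𝓞 (LK (le_fixingSubgroup_bot N))) :
    A.valuation (((x : LK (le_fixingSubgroup_bot N)) : Qbar)) ≤ 1 :=
  valuation_coe_le_one A (algebraMap (𝓞 (LK (le_fixingSubgroup_bot N))) (𝓞 Qbar) x)

/-- The prime of `L` below `A`, as a height one prime. -/
noncomputable def placeLK (N : Subgroup GQ) [Fact (IsOpen (N : Set GQ))] [N.Normal]
    (hℓ : ℓ.Prime) (hA : A.LiesOverPrime ℓ) :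
    HeightOneSpectrum (𝓞 (LK (le_fixingSubgroup_bot N))) :=
  ⟨primeLK (le_fixingSubgroup_bot N) A, inferInstance, by
    intro h0
    have h1 : (ℓ : 𝓞 (LK (le_fixingSubgroup_bot N))) ∈ primeLK (le_fixingSubgroup_bot N) A := by
      rw [mem_primeLK]
      have := (A.mem_nonunits_iff).mp hA
      simpa using this
    rw [h0, Ideal.mem_bot] at h1
    exact hℓ.ne_zero (by exact_mod_cast h1)⟩

theorem placeLK_asIdeal (hℓ : ℓ.Prime) (hA : A.LiesOverPrime ℓ) :
    (placeLK N hℓ hA).asIdeal = primeLK (le_fixingSubgroup_bot N) A := rfl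

/-- Elements of `L` which are integral at the prime below `A` lie in `A`. -/
theorem valuation_le_one_of_placeLK (hℓ : ℓ.Prime) (hA : A.LiesOverPrime ℓ)
    (x : LK (le_fixingSubgroup_bot N))
    (hx : (placeLK N hℓ hA).valuation (LK (le_fixingSubgroup_bot N)) x ≤ 1) :
    A.valuation (x : Qbar) ≤ 1 := by
  obtain ⟨n, d, hnd⟩ :=
    HeightOneSpectrum.exists_primeCompl_mul_eq_of_integer (placeLK N hℓ hA) x hx
  have hd : A.valuation ((((d : 𝓞 (LK (le_fixingSubgroup_bot N))) :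
      LK (le_fixingSubgroup_bot N)) : Qbar)) = 1 := by
    refine le_antisymm (valuation_coe_LK_le_one A _) (not_lt.mp ?_)
    intro h
    exact d.2 ((mem_primeLK (le_fixingSubgroup_bot N) _).mpr h)
  have h1 : (x : Qbar) * (((d : 𝓞 (LK (le_fixingSubgroup_bot N))) :
      LK (le_fixingSubgroup_bot N)) : Qbar) = ((n : LK (le_fixingSubgroup_bot N)) : Qbar) :=
    congrArg Subtype.val hnd
  have h2 : A.valuation ((x : Qbar) * (((d : 𝓞 (LK (le_fixingSubgroup_bot N))) :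
      LK (le_fixingSubgroup_bot N)) : Qbar)) ≤ 1 := h1 ▸ valuation_coe_LK_le_one A n
  rwa [map_mul, hd, mul_one] at h2

/-- **Value group of the inertia field**, finite level. -/
theorem exists_zpow_valuation_eq_of_fixed_LK (hℓ : ℓ.Prime) (hA : A.LiesOverPrime ℓ)
    (y : LK (le_fixingSubgroup_bot N)) (hy : y ≠ 0)
    (hfix : ∀ σ ∈ A.inertiaSubgroupIn ℚ, σ (y : Qbar) = (y : Qbar)) :
    ∃ m : ℤ, A.valuation (y : Qbar) = A.valuation ((ℓ : Qbar)) ^ m := by
  set w := placeLK N hℓ hA with hw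
  have hℓw : (ℓ : 𝓞 (LK (le_fixingSubgroup_bot N))) ∈ w.asIdeal := by
    rw [hw, placeLK_asIdeal, mem_primeLK]
    have := (A.mem_nonunits_iff).mp hA
    simpa using this
  obtain ⟨m, hm⟩ := exists_zpow_valuation_eq_of_inertia_fixed w hℓ hℓw y hy (by
    intro s hs
    obtain ⟨σ, hσK, hσA, hσs⟩ := exists_lift_mem_inertiaSubgroupIn_of (le_fixingSubgroup_bot N)
      hℓ hA (toBotAlgEquiv s) (fun x => hs x)
    have h1 := hfix σ hσA
    have h2 := coe_resLK (le_fixingSubgroup_bot N) σ hσK y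
    rw [hσs, toBotAlgEquiv_apply, h1] at h2
    exact Subtype.ext h2)
  refine ⟨m, ?_⟩
  have hℓ0 : ((ℓ : LK (le_fixingSubgroup_bot N))) ≠ 0 := by exact_mod_cast hℓ.ne_zero
  have hℓ0' : (ℓ : Qbar) ≠ 0 := by exact_mod_cast hℓ.ne_zero
  have hx : w.valuation (LK (le_fixingSubgroup_bot N)) (y / (ℓ : LK (le_fixingSubgroup_bot N)) ^ m) = 1 := by
    rw [map_div₀, map_zpow₀, hm]
    exact div_self (zpow_ne_zero m ((Valuation.ne_zero_iff _).mpr hℓ0))
  have hx' : w.valuation (LK (le_fixingSubgroup_bot N))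
      ((y / (ℓ : LK (le_fixingSubgroup_bot N)) ^ m)⁻¹) = 1 := by
    rw [map_inv₀, hx, inv_one]
  have h1 := valuation_le_one_of_placeLK hℓ hA _ hx.le
  have h2 := valuation_le_one_of_placeLK hℓ hA _ hx'.le
  have hcoe : (((y / (ℓ : LK (le_fixingSubgroup_bot N)) ^ m : LK (le_fixingSubgroup_bot N))) : Qbar) =
      (y : Qbar) / (ℓ : Qbar) ^ m := by
    push_cast; rfl
  have hcoe' : ((((y / (ℓ : LK (le_fixingSubgroup_bot N)) ^ m)⁻¹ : LK (le_fixingSubgroup_bot N))) : Qbar) =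
      ((y : Qbar) / (ℓ : Qbar) ^ m)⁻¹ := by
    push_cast; rfl
  rw [hcoe] at h1
  rw [hcoe', map_inv₀] at h2
  have h3 : A.valuation ((y : Qbar) / (ℓ : Qbar) ^ m) = 1 := by
    refine le_antisymm h1 ?_
    have hne : A.valuation ((y : Qbar) / (ℓ : Qbar) ^ m) ≠ 0 := by
      rw [Valuation.ne_zero_iff]
      exact div_ne_zero (fun h => hy (Subtype.ext h)) (zpow_ne_zero m hℓ0')
    exact (inv_le_one₀ (zero_lt_iff.mpr hne)).mp h2
  rw [map_div₀, map_zpow₀] at h3
  exact (div_eq_one_iff_eq (zpow_ne_zero m ((Valuation.ne_zero_iff _).mpr hℓ0'))).mp h3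

end Main

/-- **Value group of the inertia field**: an element of `ℚ̄ˣ` fixed by the inertia subgroup of a
valuation subring `A` over `ℓ` has valuation an integral power of the valuation of `ℓ`. -/
theorem exists_zpow_valuation_eq_of_fixed {A : ValuationSubring Qbar} {ℓ : ℕ} (hℓ : ℓ.Prime)
    (hA : A.LiesOverPrime ℓ) (y : Qbar) (hy : y ≠ 0)
    (hfix : ∀ σ ∈ A.inertiaSubgroupIn ℚ, σ y = y) :
    ∃ m : ℤ, A.valuation y = A.valuation ((ℓ : Qbar)) ^ m := by
  set F : IntermediateField ℚ Qbar := IntermediateField.normalClosure ℚ ℚ⟮y⟯ Qbar with hF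
  haveI : FiniteDimensional ℚ ℚ⟮y⟯ :=
    IntermediateField.adjoin.finiteDimensional (Algebra.IsIntegral.isIntegral y)
  haveI : FiniteDimensional ℚ F := normalClosure.is_finiteDimensional ℚ ℚ⟮y⟯ Qbar
  haveI : IsGalois ℚ F := IsGalois.normalClosure ℚ ℚ⟮y⟯ Qbar
  set N : Subgroup GQ := F.fixingSubgroup with hN
  haveI : N.Normal := (InfiniteGalois.normal_iff_isGalois F).mpr inferInstance
  haveI : Fact (IsOpen (N : Set GQ)) := ⟨F.fixingSubgroup_isOpen⟩
  have hyF : y ∈ F := IntermediateField.le_normalClosure ℚ⟮y⟯ (IntermediateField.mem_adjoin_simple_self ℚ y)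
  have hyL : y ∈ LK (le_fixingSubgroup_bot N) := by
    rw [mem_LK]
    intro σ hσ
    exact (IntermediateField.mem_fixingSubgroup_iff F σ).mp hσ y hyF
  exact exists_zpow_valuation_eq_of_fixed_LK (N := N) hℓ hA ⟨y, hyL⟩
    (fun h => hy (congrArg Subtype.val h)) hfix

/-- Unit form: `y / ℓ ^ m` is a unit of `A`. -/
theorem exists_zpow_div_mem_units_of_fixed {A : ValuationSubring Qbar} {ℓ : ℕ} (hℓ : ℓ.Prime)
    (hA : A.LiesOverPrime ℓ) (y : Qbar) (hy : y ≠ 0)
    (hfix : ∀ σ ∈ A.inertiaSubgroupIn ℚ, σ y = y) :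
    ∃ m : ℤ, y / (ℓ : Qbar) ^ m ∈ A ∧ (y / (ℓ : Qbar) ^ m)⁻¹ ∈ A := by
  obtain ⟨m, hm⟩ := exists_zpow_valuation_eq_of_fixed hℓ hA y hy hfix
  have hℓ0 : (ℓ : Qbar) ≠ 0 := by exact_mod_cast hℓ.ne_zero
  have h1 : A.valuation (y / (ℓ : Qbar) ^ m) = 1 := by
    rw [map_div₀, map_zpow₀, hm]
    exact div_self (zpow_ne_zero m ((Valuation.ne_zero_iff _).mpr hℓ0))
  refine ⟨m, (A.valuation_le_one_iff _).mp h1.le, (A.valuation_le_one_iff _).mp ?_⟩
  rw [map_inv₀, h1, inv_one]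

/-- `LogVal` form: the normalised logarithmic valuation of an inertia-fixed element is an
integer. -/
theorem logVal_eq_intCast_of_fixed {A : ValuationSubring Qbar} (L : Fermat.Agent.Tate.LogVal A)
    {ℓ : ℕ} (hℓ : ℓ.Prime) (hA : A.LiesOverPrime ℓ) (hL : L.w (ℓ : Qbar) = 1)
    (y : Qbar) (hy : y ≠ 0) (hfix : ∀ σ ∈ A.inertiaSubgroupIn ℚ, σ y = y) :
    ∃ m : ℤ, L.w y = m := by
  obtain ⟨m, h1, h2⟩ := exists_zpow_div_mem_units_of_fixed hℓ hA y hy hfix
  have hℓ0 : (ℓ : Qbar) ≠ 0 := by exact_mod_cast hℓ.ne_zero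
  have hne : y / (ℓ : Qbar) ^ m ≠ 0 := div_ne_zero hy (zpow_ne_zero m hℓ0)
  have h3 : L.w (y / (ℓ : Qbar) ^ m) = 0 := (L.eq_zero_iff hne).mpr ⟨h1, h2⟩
  rw [L.map_div hy (zpow_ne_zero m hℓ0), L.map_zpow hℓ0, hL, mul_one] at h3
  exact ⟨m, by linarith⟩

/-- The decomposition group of `A` preserves the valuation of `A`. -/
theorem valuation_map_eq_of_mem_decompositionSubgroup {A : ValuationSubring Qbar} {ℓ : ℕ}
    (hℓ : ℓ.Prime) (hA : A.LiesOverPrime ℓ) {σ : GQ} (hσ : σ ∈ A.decompositionSubgroup ℚ)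
    (x : Qbar) : A.valuation (σ x) = A.valuation x := by
  rcases eq_or_ne x 0 with rfl | hx
  · simp
  have hmem : ∀ a ∈ A, σ a ∈ A := fun a ha =>
    Fermat.Agent.Tate.decomposition_map_mem (K := ℚ) ⟨σ, hσ⟩ ha
  obtain ⟨b, hb, a, hab⟩ := Fermat.Agent.Tate.exists_val_pow_eq A hℓ hA hx
  have hℓ0 : (ℓ : Qbar) ≠ 0 := by exact_mod_cast hℓ.ne_zero
  have hvℓ : A.valuation ((ℓ : Qbar) ^ a) ≠ 0 :=
    (Valuation.ne_zero_iff _).mpr (zpow_ne_zero a hℓ0)
  set u := x ^ b / (ℓ : Qbar) ^ a with hu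
  have hu1 : A.valuation u = 1 := by
    rw [hu, map_div₀, map_pow, hab, map_zpow₀]
    exact div_self (by rwa [map_zpow₀] at hvℓ)
  have huA : u ∈ A := (A.valuation_le_one_iff _).mp hu1.le
  have huA' : u⁻¹ ∈ A := (A.valuation_le_one_iff _).mp (by rw [map_inv₀, hu1, inv_one])
  have h1 : A.valuation (σ u) ≤ 1 := (A.valuation_le_one_iff _).mpr (hmem u huA)
  have h2 : A.valuation (σ u⁻¹) ≤ 1 := (A.valuation_le_one_iff _).mpr (hmem _ huA')
  have hu0 : u ≠ 0 := div_ne_zero (pow_ne_zero b hx) (zpow_ne_zero a hℓ0)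
  have hσu0 : A.valuation (σ u) ≠ 0 :=
    (Valuation.ne_zero_iff _).mpr ((map_ne_zero σ).mpr hu0)
  have hσu1 : A.valuation (σ u) = 1 := by
    refine le_antisymm h1 ?_
    rw [map_inv₀ σ, map_inv₀] at h2
    exact (inv_le_one₀ (zero_lt_iff.mpr hσu0)).mp h2
  have hσu : σ u = (σ x) ^ b / (ℓ : Qbar) ^ a := by
    rw [hu, map_div₀, map_pow, map_zpow₀, map_natCast]
  rw [hσu, map_div₀, map_pow, map_zpow₀] at hσu1
  have h3 : A.valuation (σ x) ^ b = A.valuation (ℓ : Qbar) ^ a :=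
    (div_eq_one_iff_eq (by rwa [map_zpow₀] at hvℓ)).mp hσu1
  exact (pow_left_inj₀ zero_le' zero_le' hb.ne').mp (h3.trans hab.symm)

/-- `LogVal` form of the invariance of the valuation under the decomposition group. -/
theorem logVal_map_eq_of_mem_decompositionSubgroup {A : ValuationSubring Qbar}
    (L : Fermat.Agent.Tate.LogVal A) {ℓ : ℕ} (hℓ : ℓ.Prime) (hA : A.LiesOverPrime ℓ) {σ : GQ}
    (hσ : σ ∈ A.decompositionSubgroup ℚ) {x : Qbar} (hx : x ≠ 0) : L.w (σ x) = L.w x := by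
  have hσx : σ x ≠ 0 := (map_ne_zero σ).mpr hx
  have h := valuation_map_eq_of_mem_decompositionSubgroup hℓ hA hσ x
  have hne : σ x / x ≠ 0 := div_ne_zero hσx hx
  have h1 : A.valuation (σ x / x) = 1 := by
    rw [map_div₀, h]
    exact div_self ((Valuation.ne_zero_iff _).mpr hx)
  have h2 : L.w (σ x / x) = 0 :=
    (L.eq_zero_iff hne).mpr ⟨(A.valuation_le_one_iff _).mp h1.le,
      (A.valuation_le_one_iff _).mp (by rw [map_inv₀, h1, inv_one])⟩
  rw [L.map_div hσx hx] at h2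
  linarith

/-- Inertia subgroups are contained in decomposition subgroups. -/
theorem inertiaSubgroupIn_le_decompositionSubgroup' (A : ValuationSubring Qbar) :
    A.inertiaSubgroupIn ℚ ≤ A.decompositionSubgroup ℚ := by
  rintro σ ⟨τ, -, rfl⟩
  exact τ.2

end Fermat.Agent.EC
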