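import Mathlib
import Fermat.Agent.EC.InertiaField_helper5
import Fermat.Prelude.Def_FLTPrelim_GaloisRep

/-!
# S13 common infrastructure: conjugacy of the valuation subrings of `ℚ̄` over a prime (helper5)

* `mem_inertiaSubgroupIn_iff_primeQbar`: `σ ∈ A.inertiaSubgroupIn ℚ ↔ ∀ b : 𝓞 ℚ̄, σ • b - b ∈ primeQbar A`;
* `exists_smul_eq_of_liesOverPrime`: two valuation subrings of `ℚ̄` over the same prime `ℓ` are
  conjugate under `G_ℚ`;
* `conj_mem_inertiaSubgroupIn`, `conj_mem_decompositionSubgroup`: inertia / decomposition subgroups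
  of `τ • A` are the `τ`-conjugates of those of `A`;
* `forall_inertia_smul_eq_of_one`, `forall_inertia_sub_mem_of_one`: for a Galois stable `N`, "inertia
  acts trivially on `N`" (resp. on `V/N`) for ONE valuation subring over `ℓ` implies the same for
  ALL valuation subrings over `ℓ`.
-/

set_option autoImplicit false
set_option linter.style.haveILetI false

open scoped NumberField Pointwise

namespace Fermat.Agent.EC

open Fermat.Agent.CFT.S14

variable {A : ValuationSubring Qbar} {ℓ : ℕ}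

/-- Concrete description of the inertia subgroup of a valuation subring of `ℚ̄` over a prime. -/
theorem mem_inertiaSubgroupIn_iff_primeQbar (hℓ : ℓ.Prime) (hA : A.LiesOverPrime ℓ) (σ : GQ) :
    σ ∈ A.inertiaSubgroupIn ℚ ↔ ∀ b : 𝓞 Qbar, σ • b - b ∈ primeQbar A := by
  constructor
  · intro hσ b
    have hbA : (b : Qbar) ∈ A :=
      (A.valuation_le_one_iff _).mp (valuation_coe_le_one A b)
    have h := (Fermat.Agent.Tate.inertia_map_mem_and_sub_mem hσ hbA).2
    rw [mem_primeQbar]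
    have := (A.mem_nonunits_iff).mp h
    have hc : (((σ • b - b : 𝓞 Qbar)) : Qbar) = σ (b : Qbar) - (b : Qbar) := by
      push_cast
      rfl
    rw [hc]
    exact this
  · exact mem_inertiaSubgroupIn_of_forall_sub_mem_primeQbar hℓ hA σ

instance instIsInvariantIntGQ : Algebra.IsInvariant ℤ (𝓞 Qbar) GQ where
  isInvariant b hb := by
    have hfix : ∀ g : GQ, g (b : Qbar) = (b : Qbar) := fun g =>
      congrArg (fun y : 𝓞 Qbar => (y : Qbar)) (hb g)
    obtain ⟨q, hq⟩ :=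
      (InfiniteGalois.mem_range_algebraMap_iff_fixed (k := ℚ) (K := Qbar) (b : Qbar)).mpr hfix
    have hqint : IsIntegral ℤ q := by
      have : IsIntegral ℤ (algebraMap ℚ Qbar q) := hq ▸ NumberField.RingOfIntegers.isIntegral_coe b
      exact (isIntegral_algebraMap_iff (algebraMap ℚ Qbar).injective).mp this
    obtain ⟨n, hn⟩ := IsIntegrallyClosed.isIntegral_iff.mp hqint
    refine ⟨n, NumberField.RingOfIntegers.ext ?_⟩
    show ((algebraMap ℤ (𝓞 Qbar) n : 𝓞 Qbar) : Qbar) = b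
    rw [← hq, ← hn]
    simp

theorem mem_smul_primeQbar_iff (τ : GQ) (A : ValuationSubring Qbar) (b : 𝓞 Qbar) :
    b ∈ τ • primeQbar A ↔ A.valuation (τ⁻¹ (b : Qbar)) < 1 := by
  rw [Ideal.mem_pointwise_smul_iff_inv_smul_mem, mem_primeQbar]
  rfl

theorem primeQbar_smul (τ : GQ) (A : ValuationSubring Qbar) :
    primeQbar (τ • A) = τ • primeQbar A := by
  ext b
  rw [mem_smul_primeQbar_iff, mem_primeQbar, ← ValuationSubring.mem_nonunits_iff,
    ← ValuationSubring.mem_nonunits_iff]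
  -- nonunits of `τ • A`
  have key : ∀ (τ : GQ) (A : ValuationSubring Qbar) (x : Qbar),
      x ∈ A.nonunits → τ x ∈ (τ • A).nonunits := by
    intro τ A x hx
    rw [ValuationSubring.mem_nonunits_iff_exists_mem_maximalIdeal] at hx ⊢
    obtain ⟨hxA, hxm⟩ := hx
    have hτx : τ x ∈ τ • A := ValuationSubring.smul_mem_pointwise_smul τ x A hxA
    refine ⟨hτx, ?_⟩
    rw [IsLocalRing.mem_maximalIdeal, mem_nonunits_iff] at hxm ⊢
    intro hu
    apply hxm
    obtain ⟨⟨y, hy⟩, hy1⟩ := isUnit_iff_exists_inv.mp hu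
    have hy1' : τ x * y = 1 := congrArg Subtype.val hy1
    have hyA : τ⁻¹ y ∈ A := by
      have := ValuationSubring.mem_pointwise_smul_iff_inv_smul_mem.mp hy
      simpa [AlgEquiv.smul_def] using this
    refine isUnit_iff_exists_inv.mpr ⟨⟨τ⁻¹ y, hyA⟩, Subtype.ext ?_⟩
    show x * τ⁻¹ y = 1
    have h2 : τ⁻¹ (τ x * y) = 1 := by rw [hy1', map_one]
    rw [map_mul] at h2
    have h3 : τ⁻¹ (τ x) = x := by
      show (τ⁻¹ * τ) x = x
      rw [inv_mul_cancel]; rfl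
    rwa [h3] at h2
  constructor
  · intro h
    have := key τ⁻¹ (τ • A) _ h
    rwa [inv_smul_smul] at this
  · intro h
    have := key τ A _ h
    have h3 : τ (τ⁻¹ (b : Qbar)) = (b : Qbar) := by
      show (τ * τ⁻¹) (b : Qbar) = b
      rw [mul_inv_cancel]; rfl
    rwa [h3] at this

theorem liesOverPrime_smul (τ : GQ) (hA : A.LiesOverPrime ℓ) : (τ • A).LiesOverPrime ℓ := by
  have h1 : (ℓ : 𝓞 Qbar) ∈ primeQbar (τ • A) := by
    rw [primeQbar_smul, mem_smul_primeQbar_iff]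
    have : τ⁻¹ ((ℓ : 𝓞 Qbar) : Qbar) = (ℓ : Qbar) := by simp
    rw [this]
    exact (A.mem_nonunits_iff).mp hA
  rw [ValuationSubring.LiesOverPrime, ValuationSubring.mem_nonunits_iff]
  have := (mem_primeQbar _ _).mp h1
  simpa using this

/-- A valuation subring of `ℚ̄` over a prime is determined by its prime of `𝓞 ℚ̄`. -/
theorem eq_of_primeQbar_eq {A A' : ValuationSubring Qbar} (hℓ : ℓ.Prime) (hA : A.LiesOverPrime ℓ)
    (hA' : A'.LiesOverPrime ℓ) (h : primeQbar A = primeQbar A') : A = A' := by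
  ext x
  rw [mem_iff_exists_fraction hℓ hA, mem_iff_exists_fraction hℓ hA', h]

/-- **Conjugacy**: any two valuation subrings of `ℚ̄` over the same prime are conjugate
under `G_ℚ`. -/
theorem exists_smul_eq_of_liesOverPrime {A A' : ValuationSubring Qbar} (hℓ : ℓ.Prime)
    (hA : A.LiesOverPrime ℓ) (hA' : A'.LiesOverPrime ℓ) : ∃ τ : GQ, A' = τ • A := by
  letI : TopologicalSpace (𝓞 Qbar) := ⊥
  haveI : DiscreteTopology (𝓞 Qbar) := ⟨rfl⟩
  haveI : ContinuousSMul GQ (𝓞 Qbar) := continuousSMul_GQ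
  have hunder : ∀ {B : ValuationSubring Qbar}, B.LiesOverPrime ℓ →
      (primeQbar B).under ℤ = Ideal.span {(ℓ : ℤ)} := by
    intro B hB
    have hmax : (Ideal.span {(ℓ : ℤ)}).IsMaximal :=
      PrincipalIdealRing.isMaximal_of_irreducible (Nat.prime_iff_prime_int.mp hℓ).irreducible
    symm
    apply hmax.eq_of_le (Ideal.IsPrime.ne_top inferInstance)
    rw [Ideal.span_singleton_le_iff_mem]
    show (algebraMap ℤ (𝓞 Qbar) (ℓ : ℤ)) ∈ primeQbar B
    have := natCast_mem_primeQbar hB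
    simpa using this
  obtain ⟨τ, hτ⟩ := Algebra.IsInvariant.exists_smul_of_under_eq_of_profinite (A := ℤ) (G := GQ)
    (primeQbar A) (primeQbar A') ((hunder hA).trans (hunder hA').symm)
  refine ⟨τ, eq_of_primeQbar_eq hℓ hA' (liesOverPrime_smul τ hA) ?_⟩
  rw [primeQbar_smul, hτ]

/-- Decomposition subgroups of conjugate valuation subrings are conjugate. -/
theorem conj_mem_decompositionSubgroup (τ σ : GQ) :
    τ * σ * τ⁻¹ ∈ (τ • A).decompositionSubgroup ℚ ↔ σ ∈ A.decompositionSubgroup ℚ := by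
  rw [MulAction.mem_stabilizer_iff, MulAction.mem_stabilizer_iff, mul_smul, mul_smul,
    inv_smul_smul, smul_left_cancel_iff]

/-- Inertia subgroups of conjugate valuation subrings are conjugate. -/
theorem conj_mem_inertiaSubgroupIn (hℓ : ℓ.Prime) (hA : A.LiesOverPrime ℓ) (τ σ : GQ) :
    τ * σ * τ⁻¹ ∈ (τ • A).inertiaSubgroupIn ℚ ↔ σ ∈ A.inertiaSubgroupIn ℚ := by
  rw [mem_inertiaSubgroupIn_iff_primeQbar hℓ (liesOverPrime_smul τ hA), mem_inertiaSubgroupIn_iff_primeQbar hℓ hA,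
    primeQbar_smul]
  constructor
  · intro h b
    have h1 := h (τ • b)
    rw [Ideal.mem_pointwise_smul_iff_inv_smul_mem] at h1
    have h2 : τ⁻¹ • ((τ * σ * τ⁻¹) • τ • b - τ • b) = σ • b - b := by
      rw [smul_sub, inv_smul_smul, mul_smul, mul_smul, inv_smul_smul, inv_smul_smul]
    rwa [h2] at h1
  · intro h b
    rw [Ideal.mem_pointwise_smul_iff_inv_smul_mem]
    have h2 : τ⁻¹ • ((τ * σ * τ⁻¹) • b - b) = σ • (τ⁻¹ • b) - τ⁻¹ • b := by
      rw [smul_sub, mul_smul, mul_smul, inv_smul_smul]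
    rw [h2]
    exact h _

/-- **(CONJ)**, in the form consumed by the S13 assembly: the inertia subgroups of two valuation
subrings of `ℚ̄` over the same prime are conjugate. -/
theorem exists_conj_inertia {ℓ : ℕ} (hℓ : ℓ.Prime) (A A' : ValuationSubring Qbar)
    (hA : A.LiesOverPrime ℓ) (hA' : A'.LiesOverPrime ℓ) :
    ∃ τ : GQ, ∀ σ ∈ A'.inertiaSubgroupIn ℚ, τ⁻¹ * σ * τ ∈ A.inertiaSubgroupIn ℚ := by
  obtain ⟨τ, rfl⟩ := exists_smul_eq_of_liesOverPrime hℓ hA hA'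
  refine ⟨τ, fun σ hσ => ?_⟩
  rw [← conj_mem_inertiaSubgroupIn hℓ hA τ]
  have : τ * (τ⁻¹ * σ * τ) * τ⁻¹ = σ := by group
  rw [this]
  exact hσ

/-- The same for decomposition subgroups. -/
theorem exists_conj_decomposition {ℓ : ℕ} (hℓ : ℓ.Prime) (A A' : ValuationSubring Qbar)
    (hA : A.LiesOverPrime ℓ) (hA' : A'.LiesOverPrime ℓ) :
    ∃ τ : GQ, (∀ σ ∈ A'.decompositionSubgroup ℚ, τ⁻¹ * σ * τ ∈ A.decompositionSubgroup ℚ) ∧
      ∀ σ ∈ A'.inertiaSubgroupIn ℚ, τ⁻¹ * σ * τ ∈ A.inertiaSubgroupIn ℚ := by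
  obtain ⟨τ, rfl⟩ := exists_smul_eq_of_liesOverPrime hℓ hA hA'
  refine ⟨τ, fun σ hσ => ?_, fun σ hσ => ?_⟩
  · rw [← conj_mem_decompositionSubgroup (A := A) τ]
    have : τ * (τ⁻¹ * σ * τ) * τ⁻¹ = σ := by group
    rw [this]
    exact hσ
  · rw [← conj_mem_inertiaSubgroupIn hℓ hA τ]
    have : τ * (τ⁻¹ * σ * τ) * τ⁻¹ = σ := by group
    rw [this]
    exact hσ

section Transfer

open WeierstrassCurve WeierstrassCurve.Affine WeierstrassCurve.Affine.Point

variable {W' : Affine ℚ} {n : ℕ}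
variable (N : Submodule (ZMod n) (Submodule.torsionBy ℤ (W'⁄Qbar).Point n))

/-- If the inertia subgroup of ONE valuation subring over `ℓ` acts trivially on the Galois stable
submodule `N`, so do the inertia subgroups of ALL valuation subrings over `ℓ`. -/
theorem forall_inertia_smul_eq_of_one (hN : IsGaloisStable ℚ N) (hℓ : ℓ.Prime)
    {A₀ : ValuationSubring Qbar} (hA₀ : A₀.LiesOverPrime ℓ)
    (h : ∀ σ ∈ A₀.inertiaSubgroupIn ℚ, ∀ x ∈ N, σ • x = x)
    (A : ValuationSubring Qbar) (hA : A.LiesOverPrime ℓ) :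
    ∀ σ ∈ A.inertiaSubgroupIn ℚ, ∀ x ∈ N, σ • x = x := by
  obtain ⟨τ, rfl⟩ := exists_smul_eq_of_liesOverPrime hℓ hA₀ hA
  intro σ hσ x hx
  set σ₀ : GQ := τ⁻¹ * σ * τ with hσ₀
  have hσeq : σ = τ * σ₀ * τ⁻¹ := by rw [hσ₀]; group
  have hσ₀mem : σ₀ ∈ A₀.inertiaSubgroupIn ℚ := by
    rw [← conj_mem_inertiaSubgroupIn hℓ hA₀ τ σ₀, ← hσeq]; exact hσ
  rw [hσeq, mul_smul, mul_smul, h σ₀ hσ₀mem _ (hN τ⁻¹ x hx), smul_inv_smul]

/-- If the inertia subgroup of ONE valuation subring over `ℓ` acts trivially on `V/N` (`N` Galois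
stable), so do the inertia subgroups of ALL valuation subrings over `ℓ`. -/
theorem forall_inertia_sub_mem_of_one (hN : IsGaloisStable ℚ N) (hℓ : ℓ.Prime)
    {A₀ : ValuationSubring Qbar} (hA₀ : A₀.LiesOverPrime ℓ)
    (h : ∀ σ ∈ A₀.inertiaSubgroupIn ℚ,
      ∀ x : Submodule.torsionBy ℤ (W'⁄Qbar).Point n, σ • x - x ∈ N)
    (A : ValuationSubring Qbar) (hA : A.LiesOverPrime ℓ) :
    ∀ σ ∈ A.inertiaSubgroupIn ℚ,
      ∀ x : Submodule.torsionBy ℤ (W'⁄Qbar).Point n, σ • x - x ∈ N := by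
  obtain ⟨τ, rfl⟩ := exists_smul_eq_of_liesOverPrime hℓ hA₀ hA
  intro σ hσ x
  set σ₀ : GQ := τ⁻¹ * σ * τ with hσ₀
  have hσeq : σ = τ * σ₀ * τ⁻¹ := by rw [hσ₀]; group
  have hσ₀mem : σ₀ ∈ A₀.inertiaSubgroupIn ℚ := by
    rw [← conj_mem_inertiaSubgroupIn hℓ hA₀ τ σ₀, ← hσeq]; exact hσ
  have h1 : σ • x - x = τ • (σ₀ • (τ⁻¹ • x) - τ⁻¹ • x) := by
    rw [hσeq, mul_smul, mul_smul, smul_sub, smul_inv_smul]
  rw [h1]
  exact hN τ _ (h σ₀ hσ₀mem _)

end Transfer

end Fermat.Agent.EC
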