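import Mathlib

set_option autoImplicit false
set_option linter.unusedSectionVars false

/-!
# Sum and product of `x(P+Q)`, `x(P-Q)` on a Weierstrass curve; the symmetric biquadratic form

For affine points `P = (x₁,y₁)`, `Q = (x₂,y₂)` with `x₁ ≠ x₂` on a Weierstrass curve over a field,
`(x(P+Q) - c)(x(P-Q) - c)(x₁-x₂)² = symQ x₁ x₂ c`, where `symQ` is totally symmetric, and
`(x(2P) - c) ψ₂(P)² = symQ x₁ x₁ c`.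
-/

namespace Fermat.Agent.EC

open WeierstrassCurve WeierstrassCurve.Affine

variable {F : Type*} [Field F] [DecidableEq F] (W : Affine F)

/-- the symmetric biquadratic form -/
def symQ (u v c : F) : F :=
  (u * v + u * c + v * c) ^ 2 - 4 * (u + v + c) * (u * v * c) - W.b₂ * (u * v * c)
    - W.b₄ * (u * v + u * c + v * c) - W.b₆ * (u + v + c) - W.b₈

/-- the sum form `S` -/
def symS (u v : F) : F :=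
  2 * (u + v) * (u * v) + W.b₂ * (u * v) + W.b₄ * (u + v) + W.b₆

/-- the product form `T` -/
def symT (u v : F) : F :=
  (u * v) ^ 2 - W.b₄ * (u * v) - W.b₆ * (u + v) - W.b₈

theorem symQ_comm12 (u v c : F) : symQ W u v c = symQ W v u c := by
  unfold symQ; ring

theorem symQ_comm23 (u v c : F) : symQ W u v c = symQ W u c v := by
  unfold symQ; ring

theorem symQ_comm13 (u v c : F) : symQ W u v c = symQ W c v u := by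
  unfold symQ; ring

theorem symQ_eq (u v c : F) : symQ W u v c = symT W u v - c * symS W u v + c ^ 2 * (u - v) ^ 2 := by
  unfold symQ symT symS; ring

theorem symQ_self (x : F) : symQ W x x x = -(W.Ψ₃.eval x) := by
  unfold symQ WeierstrassCurve.Ψ₃
  simp only [Polynomial.eval_add, Polynomial.eval_mul, Polynomial.eval_pow, Polynomial.eval_X,
    Polynomial.eval_C, Polynomial.eval_ofNat]
  ring

variable {W}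

theorem addX_mul_sq {x₁ x₂ : F} (y₁ y₂ : F) (hx : x₁ ≠ x₂) :
    W.addX x₁ x₂ (W.slope x₁ x₂ y₁ y₂) * (x₁ - x₂) ^ 2 =
      (y₁ - y₂) ^ 2 + W.a₁ * (y₁ - y₂) * (x₁ - x₂) - (W.a₂ + x₁ + x₂) * (x₁ - x₂) ^ 2 := by
  have hd : x₁ - x₂ ≠ 0 := sub_ne_zero.mpr hx
  rw [slope_of_X_ne hx]
  simp only [addX]
  field_simp
  ring

theorem addX_sum {x₁ x₂ y₁ y₂ : F} (h₁ : W.Equation x₁ y₁) (h₂ : W.Equation x₂ y₂)
    (hx : x₁ ≠ x₂) :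
    (W.addX x₁ x₂ (W.slope x₁ x₂ y₁ y₂) + W.addX x₁ x₂ (W.slope x₁ x₂ y₁ (W.negY x₂ y₂)))
      * (x₁ - x₂) ^ 2 = symS W x₁ x₂ := by
  rw [add_mul, addX_mul_sq y₁ y₂ hx, addX_mul_sq y₁ (W.negY x₂ y₂) hx]
  rw [equation_iff] at h₁ h₂
  simp only [symS, negY, b₂, b₄, b₆]
  linear_combination 2 * h₁ + 2 * h₂

theorem addX_prod {x₁ x₂ y₁ y₂ : F} (h₁ : W.Equation x₁ y₁) (h₂ : W.Equation x₂ y₂)
    (hx : x₁ ≠ x₂) :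
    (W.addX x₁ x₂ (W.slope x₁ x₂ y₁ y₂) * W.addX x₁ x₂ (W.slope x₁ x₂ y₁ (W.negY x₂ y₂)))
      * (x₁ - x₂) ^ 2 = symT W x₁ x₂ := by
  have hd : (x₁ - x₂) ^ 2 ≠ 0 := pow_ne_zero 2 (sub_ne_zero.mpr hx)
  have e1 := addX_mul_sq (W := W) y₁ y₂ hx
  have e2 := addX_mul_sq (W := W) y₁ (W.negY x₂ y₂) hx
  have key : ((y₁ - y₂) ^ 2 + W.a₁ * (y₁ - y₂) * (x₁ - x₂) - (W.a₂ + x₁ + x₂) * (x₁ - x₂) ^ 2) *
      ((y₁ - W.negY x₂ y₂) ^ 2 + W.a₁ * (y₁ - W.negY x₂ y₂) * (x₁ - x₂)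
        - (W.a₂ + x₁ + x₂) * (x₁ - x₂) ^ 2) = symT W x₁ x₂ * (x₁ - x₂) ^ 2 := by
    rw [equation_iff] at h₁ h₂
    simp only [symT, negY, b₄, b₆, b₈]
    linear_combination (W.a₁^2 * x₁ * x₂ - W.a₁^2 * x₂^2 + W.a₁ * W.a₃ * x₁ - W.a₁ * W.a₃ * x₂
      + W.a₁ * x₁ * y₁ - 2 * W.a₁ * x₂ * y₂ - W.a₂ * x₁^2 + 4 * W.a₂ * x₁ * x₂ - 2 * W.a₂ * x₂^2
      + W.a₃ * y₁ - 2 * W.a₃ * y₂ + W.a₄ * x₁ + W.a₆ - x₁^3 + 2 * x₁^2 * x₂ + 2 * x₁ * x₂^2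
      - 2 * x₂^3 + y₁^2 - 2 * y₂^2) * h₁ +
      (-W.a₁^2 * x₁^2 + W.a₁^2 * x₁ * x₂ - W.a₁ * W.a₃ * x₁ + W.a₁ * W.a₃ * x₂ + W.a₁ * x₂ * y₂
      - 4 * W.a₂ * x₁^2 + 4 * W.a₂ * x₁ * x₂ - W.a₂ * x₂^2 + W.a₃ * y₂ - 2 * W.a₄ * x₁ + W.a₄ * x₂
      - W.a₆ - 4 * x₁^3 + 2 * x₁^2 * x₂ + 2 * x₁ * x₂^2 - x₂^3 + y₂^2) * h₂
  rw [← e1, ← e2] at key
  apply mul_right_cancel₀ hd
  linear_combination key

/-- the key identity: `(x(P+Q) - c)(x(P-Q) - c)(x₁-x₂)² = symQ x₁ x₂ c` -/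
theorem addX_symQ {x₁ x₂ y₁ y₂ : F} (h₁ : W.Equation x₁ y₁) (h₂ : W.Equation x₂ y₂)
    (hx : x₁ ≠ x₂) (c : F) :
    (W.addX x₁ x₂ (W.slope x₁ x₂ y₁ y₂) - c) *
      (W.addX x₁ x₂ (W.slope x₁ x₂ y₁ (W.negY x₂ y₂)) - c) * (x₁ - x₂) ^ 2 = symQ W x₁ x₂ c := by
  rw [symQ_eq]
  linear_combination addX_prod h₁ h₂ hx - c * addX_sum h₁ h₂ hx

theorem addX_self_mul_sq {x₁ y₁ : F} (hy : y₁ ≠ W.negY x₁ y₁) :
    W.addX x₁ x₁ (W.slope x₁ x₁ y₁ y₁) * (y₁ - W.negY x₁ y₁) ^ 2 =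
      (3 * x₁ ^ 2 + 2 * W.a₂ * x₁ + W.a₄ - W.a₁ * y₁) ^ 2 +
        W.a₁ * (3 * x₁ ^ 2 + 2 * W.a₂ * x₁ + W.a₄ - W.a₁ * y₁) * (y₁ - W.negY x₁ y₁) -
        (W.a₂ + x₁ + x₁) * (y₁ - W.negY x₁ y₁) ^ 2 := by
  have hd : y₁ - W.negY x₁ y₁ ≠ 0 := sub_ne_zero.mpr hy
  rw [slope_of_Y_ne rfl hy]
  simp only [addX]
  field_simp
  ring

/-- duplication: `(x(2P) - c) ψ₂(P)² = symQ x₁ x₁ c` -/
theorem addX_self_symQ {x₁ y₁ : F} (h₁ : W.Equation x₁ y₁) (hy : y₁ ≠ W.negY x₁ y₁) (c : F) :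
    (W.addX x₁ x₁ (W.slope x₁ x₁ y₁ y₁) - c) * (y₁ - W.negY x₁ y₁) ^ 2 = symQ W x₁ x₁ c := by
  rw [sub_mul, addX_self_mul_sq hy]
  rw [equation_iff] at h₁
  simp only [symQ, negY, b₂, b₄, b₆, b₈]
  linear_combination (-W.a₁^2 - 4 * W.a₂ - 8 * x₁ - 4 * c) * h₁

end Fermat.Agent.EC
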