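import Mathlib
import Fermat.Agent.EC.Tors_helper6_AddSub

set_option autoImplicit false
set_option linter.unusedSectionVars false

/-!
# Point-level versions of the symmetric biquadratic identities
-/

namespace Fermat.Agent.EC

open WeierstrassCurve WeierstrassCurve.Affine

variable {F : Type*} [Field F] [DecidableEq F] {W : Affine F}

/-- `x`-coordinate of a point (`0` at infinity) -/
def xOf : W.Point → F
  | .zero => 0
  | .some x _ _ => x

/-- the value `ψ₂(P) = 2y + a₁x + a₃` (`0` at infinity) -/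
def psi2Of : W.Point → F
  | .zero => 0
  | .some x y _ => y - W.negY x y

@[simp] theorem xOf_zero : xOf (0 : W.Point) = 0 := rfl

@[simp] theorem xOf_some {x y : F} (h : W.Nonsingular x y) : xOf (Point.some x y h) = x := rfl

@[simp] theorem psi2Of_zero : psi2Of (0 : W.Point) = 0 := rfl

@[simp] theorem psi2Of_some {x y : F} (h : W.Nonsingular x y) :
    psi2Of (Point.some x y h) = y - W.negY x y := rfl

theorem xOf_neg (P : W.Point) : xOf (-P) = xOf P := by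
  cases P <;> rfl

theorem xOf_eq_iff {P Q : W.Point} (hP : P ≠ 0) (hQ : Q ≠ 0) :
    xOf P = xOf Q ↔ P = Q ∨ P = -Q := by
  rcases P with _ | ⟨x₁, y₁, h₁⟩
  · exact absurd rfl hP
  rcases Q with _ | ⟨x₂, y₂, h₂⟩
  · exact absurd rfl hQ
  exact Point.X_eq_iff

theorem psi2Of_eq_zero_iff {P : W.Point} (hP : P ≠ 0) : psi2Of P = 0 ↔ P + P = 0 := by
  rcases P with _ | ⟨x, y, h⟩
  · exact absurd rfl hP
  rw [psi2Of_some, sub_eq_zero]
  constructor
  · intro hy
    exact Point.add_self_of_Y_eq hy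
  · intro h2
    by_contra hy
    rw [Point.add_self_of_Y_ne hy] at h2
    exact Point.some_ne_zero _ h2

theorem psi2Of_sq {x y : F} (h : W.Nonsingular x y) :
    psi2Of (Point.some x y h) ^ 2 = W.Ψ₂Sq.eval x := by
  have h1 := (equation_iff ..).mp h.1
  rw [psi2Of_some]
  simp only [WeierstrassCurve.Ψ₂Sq, negY, b₂, b₄, b₆, Polynomial.eval_add, Polynomial.eval_mul,
    Polynomial.eval_pow, Polynomial.eval_X, Polynomial.eval_C]
  linear_combination 4 * h1

/-- `(x(P+Q) - c)(x(P-Q) - c)(x(P)-x(Q))² = symQ x(P) x(Q) c` -/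
theorem symQ_add_sub {P Q : W.Point} (hP : P ≠ 0) (hQ : Q ≠ 0) (hx : xOf P ≠ xOf Q) (c : F) :
    (xOf (P + Q) - c) * (xOf (P - Q) - c) * (xOf P - xOf Q) ^ 2 = symQ W (xOf P) (xOf Q) c := by
  rcases P with _ | ⟨x₁, y₁, h₁⟩
  · exact absurd rfl hP
  rcases Q with _ | ⟨x₂, y₂, h₂⟩
  · exact absurd rfl hQ
  simp only [xOf_some] at hx ⊢
  have e : Point.some x₁ y₁ h₁ - Point.some x₂ y₂ h₂ =
      Point.some x₁ y₁ h₁ + Point.some x₂ (W.negY x₂ y₂) ((nonsingular_neg ..).mpr h₂) := by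
    rw [sub_eq_add_neg, Point.neg_some]
  rw [e, Point.add_of_X_ne hx, Point.add_of_X_ne hx]
  simp only [xOf_some]
  exact addX_symQ h₁.1 h₂.1 hx c

/-- `(x(P+Q) + x(P-Q))(x(P)-x(Q))² = symS x(P) x(Q)` -/
theorem symS_add_sub {P Q : W.Point} (hP : P ≠ 0) (hQ : Q ≠ 0) (hx : xOf P ≠ xOf Q) :
    (xOf (P + Q) + xOf (P - Q)) * (xOf P - xOf Q) ^ 2 = symS W (xOf P) (xOf Q) := by
  rcases P with _ | ⟨x₁, y₁, h₁⟩
  · exact absurd rfl hP
  rcases Q with _ | ⟨x₂, y₂, h₂⟩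
  · exact absurd rfl hQ
  simp only [xOf_some] at hx ⊢
  have e : Point.some x₁ y₁ h₁ - Point.some x₂ y₂ h₂ =
      Point.some x₁ y₁ h₁ + Point.some x₂ (W.negY x₂ y₂) ((nonsingular_neg ..).mpr h₂) := by
    rw [sub_eq_add_neg, Point.neg_some]
  rw [e, Point.add_of_X_ne hx, Point.add_of_X_ne hx]
  simp only [xOf_some]
  exact addX_sum h₁.1 h₂.1 hx

/-- `(x(2P) - c) ψ₂(P)² = symQ x(P) x(P) c` -/
theorem symQ_two {P : W.Point} (hP : P ≠ 0) (h2 : P + P ≠ 0) (c : F) :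
    (xOf (P + P) - c) * psi2Of P ^ 2 = symQ W (xOf P) (xOf P) c := by
  have hy : psi2Of P ≠ 0 := fun h => h2 ((psi2Of_eq_zero_iff hP).mp h)
  rcases P with _ | ⟨x₁, y₁, h₁⟩
  · exact absurd rfl hP
  rw [psi2Of_some, sub_ne_zero] at hy
  rw [Point.add_self_of_Y_ne hy]
  simp only [xOf_some, psi2Of_some]
  exact addX_self_symQ h₁.1 hy c

end Fermat.Agent.EC
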