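import Mathlib

set_option autoImplicit false
set_option linter.unusedSectionVars false

/-!
# The step sequence attached to abstract `x`-coordinate data is a normalised EDS

`X k` plays the role of `x(kP)` for `1 ≤ k ≤ N`, `s` of `ψ₂(P)`, `Q` of the symmetric biquadratic
form.  The sequence `W 0 = 0, W 1 = 1, W 2 = s, W (n+1) W (n-1) = W n ^ 2 (X 1 - X n)` satisfies
`W (a+b) W (a-b) = W a ^ 2 W b ^ 2 (X b - X a)` and hence the recursions of `normEDS`.
-/

namespace Fermat.Agent.EC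

variable {F : Type*} [Field F]

/-- the step sequence -/
noncomputable def stepSeq (X : ℕ → F) (s : F) : ℕ → F
  | 0 => 0
  | 1 => 1
  | 2 => s
  | (n + 3) => stepSeq X s (n + 2) ^ 2 * (X 1 - X (n + 2)) / stepSeq X s (n + 1)

/-- abstract geometric data; pairs `(a, b)` are written `a = b + k` -/
structure GeomData (Q : F → F → F → F) (X : ℕ → F) (s : F) (N : ℕ) : Prop where
  symm12 : ∀ u v c, Q u v c = Q v u c
  symm23 : ∀ u v c, Q u v c = Q u c v
  s_ne : s ≠ 0
  X_ne : ∀ b k, 1 ≤ b → 1 ≤ k → 2 * b + k ≤ N → X (b + k) ≠ X b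
  add_sub : ∀ b k, 1 ≤ b → 1 ≤ k → 2 * b + k ≤ N → ∀ c,
    (X (2 * b + k) - c) * (X k - c) * (X (b + k) - X b) ^ 2 = Q (X (b + k)) (X b) c
  two : 2 ≤ N → ∀ c, (X 2 - c) * s ^ 2 = Q (X 1) (X 1) c

namespace GeomData

variable {Q : F → F → F → F} {X : ℕ → F} {s : F} {N : ℕ} (G : GeomData Q X s N)

local notation "W" => stepSeq X s

theorem W_zero : W 0 = 0 := by rw [stepSeq]
theorem W_one : W 1 = 1 := by rw [stepSeq]
theorem W_two : W 2 = s := by rw [stepSeq]
theorem W_succ (n : ℕ) : W (n + 3) = W (n + 2) ^ 2 * (X 1 - X (n + 2)) / W (n + 1) := by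
  rw [stepSeq]

include G in
/-- nonvanishing in the range `1 ≤ k ≤ N` -/
theorem W_ne : ∀ k, 1 ≤ k → k ≤ N → W k ≠ 0 := by
  intro k
  induction k using Nat.strong_induction_on with
  | _ k ih =>
    intro h1 hN
    match k, h1, hN, ih with
    | 1, _, _, _ => rw [W_one]; exact one_ne_zero
    | 2, _, _, _ => rw [W_two]; exact G.s_ne
    | (n + 3), _, hN, ih =>
      rw [W_succ]
      have h2 : W (n + 2) ≠ 0 := ih (n + 2) (by omega) (by omega) (by omega)
      have h1 : W (n + 1) ≠ 0 := ih (n + 1) (by omega) (by omega) (by omega)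
      have hx : X (1 + (n + 1)) ≠ X 1 := G.X_ne 1 (n + 1) le_rfl (by omega) (by omega)
      have hx' : X 1 - X (n + 2) ≠ 0 := by
        rw [show n + 2 = 1 + (n + 1) by omega]
        exact sub_ne_zero.mpr hx.symm
      exact div_ne_zero (mul_ne_zero (pow_ne_zero 2 h2) hx') h1

include G in
/-- the case `b = 1`: `W (a+1) W (a-1) = W a ^ 2 (X 1 - X a)`, `a = k + 1` -/
theorem e2_one (k : ℕ) (hk : 1 ≤ k) (hN : k + 1 ≤ N) :
    W (k + 2) * W k = W (k + 1) ^ 2 * (X 1 - X (k + 1)) := by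
  obtain ⟨n, rfl⟩ : ∃ n, k = n + 1 := ⟨k - 1, by omega⟩
  have h1 : W (n + 1) ≠ 0 := G.W_ne (n + 1) (by omega) (by omega)
  rw [show n + 1 + 2 = n + 3 by omega, W_succ]
  field_simp

/-- the statement `W (a+b) W (a-b) = W a ^ 2 W b ^ 2 (X b - X a)` with `a = b + k` -/
def E2 (X : ℕ → F) (s : F) (b k : ℕ) : Prop :=
  stepSeq X s (2 * b + k) * stepSeq X s k =
    stepSeq X s (b + k) ^ 2 * stepSeq X s b ^ 2 * (X b - X (b + k))

/-- algebra behind the case `b = 2` -/
theorem alg_two {D2 Dm2 Wa C1 Cm p q v t s : F} (hWa : Wa ≠ 0)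
    (h1 : D2 * Wa = C1 ^ 2 * p) (h2 : Wa * Dm2 = Cm ^ 2 * q) (h3 : C1 * Cm = Wa ^ 2 * v)
    (h4 : t * s ^ 2 = p * q * v ^ 2) : D2 * Dm2 = Wa ^ 2 * s ^ 2 * t := by
  have h : D2 * Dm2 * Wa ^ 2 = Wa ^ 2 * s ^ 2 * t * Wa ^ 2 := by
    calc D2 * Dm2 * Wa ^ 2 = (D2 * Wa) * (Wa * Dm2) := by ring
      _ = (C1 * Cm) ^ 2 * (p * q) := by rw [h1, h2]; ring
      _ = Wa ^ 4 * (p * q * v ^ 2) := by rw [h3]; ring
      _ = Wa ^ 2 * s ^ 2 * t * Wa ^ 2 := by rw [← h4]; ring
  exact mul_right_cancel₀ (pow_ne_zero 2 hWa) h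

/-- algebra behind the inductive step -/
theorem alg_step {A1 A0 Am B1 B0 Bm Wa Wb Wb1 Wbm p q r u v t : F}
    (hWa : Wa ≠ 0) (hu : u ≠ 0) (hWbm : Wbm ≠ 0)
    (h1 : A0 * B0 = Wa ^ 2 * Wb ^ 2 * r) (h2 : Am * B1 = Wa ^ 2 * Wbm ^ 2 * u)
    (h3 : A1 * Am = A0 ^ 2 * p) (h4 : B1 * Bm = B0 ^ 2 * q) (h5 : Wb1 * Wbm = Wb ^ 2 * v)
    (h6 : p * q * r ^ 2 = t * u * v ^ 2) : A1 * Bm = Wa ^ 2 * Wb1 ^ 2 * t := by
  have h : A1 * Bm * (Wa ^ 2 * Wbm ^ 2 * u) = Wa ^ 2 * Wb1 ^ 2 * t * (Wa ^ 2 * Wbm ^ 2 * u) := by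
    calc A1 * Bm * (Wa ^ 2 * Wbm ^ 2 * u) = (A1 * Am) * (B1 * Bm) := by rw [← h2]; ring
      _ = (A0 * B0) ^ 2 * (p * q) := by rw [h3, h4]; ring
      _ = Wa ^ 4 * Wb ^ 4 * (p * q * r ^ 2) := by rw [h1]; ring
      _ = Wa ^ 4 * (Wb ^ 2 * v) ^ 2 * t * u := by rw [h6]; ring
      _ = Wa ^ 2 * Wb1 ^ 2 * t * (Wa ^ 2 * Wbm ^ 2 * u) := by rw [← h5]; ring
  exact mul_right_cancel₀ (mul_ne_zero (mul_ne_zero (pow_ne_zero 2 hWa) (pow_ne_zero 2 hWbm)) hu) h

include G in
theorem e2_one' (k : ℕ) (hk : 1 ≤ k) (hN : 2 * 1 + k ≤ N + 1) : E2 X s 1 k := by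
  unfold E2
  rw [W_one, show 2 * 1 + k = k + 2 by omega, show 1 + k = k + 1 by omega]
  rw [G.e2_one k hk (by omega)]
  ring

include G in
theorem e2_two (k : ℕ) (hk : 1 ≤ k) (hN : 2 * 2 + k ≤ N + 1) : E2 X s 2 k := by
  unfold E2
  -- a = k + 2
  have hWa : W (k + 2) ≠ 0 := G.W_ne _ (by omega) (by omega)
  have h1 : W (k + 4) * W (k + 2) = W (k + 3) ^ 2 * (X 1 - X (k + 3)) :=
    G.e2_one (k + 2) (by omega) (by omega)
  have h2 : W (k + 2) * W k = W (k + 1) ^ 2 * (X 1 - X (k + 1)) :=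
    G.e2_one k hk (by omega)
  have h3 : W (k + 3) * W (k + 1) = W (k + 2) ^ 2 * (X 1 - X (k + 2)) :=
    G.e2_one (k + 1) (by omega) (by omega)
  have h4 : (X 2 - X (k + 2)) * s ^ 2 =
      (X 1 - X (k + 3)) * (X 1 - X (k + 1)) * (X 1 - X (k + 2)) ^ 2 := by
    rw [G.two (by omega) (X (k + 2)), G.symm23, G.symm12]
    have := G.add_sub 1 (k + 1) le_rfl (by omega) (by omega) (X 1)
    rw [show 2 * 1 + (k + 1) = k + 3 by omega, show 1 + (k + 1) = k + 2 by omega] at this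
    rw [← this]
    ring
  have := alg_two hWa h1 h2 h3 h4
  rw [show 2 * 2 + k = k + 4 by omega, show 2 + k = k + 2 by omega, W_two]
  rw [this]

include G in
/-- the main identity -/
theorem e2 : ∀ b k, 1 ≤ b → 1 ≤ k → 2 * b + k ≤ N + 1 → E2 X s b k := by
  intro b
  induction b using Nat.strong_induction_on with
  | _ b ih =>
    intro k hb hk hN
    match b, hb, hN, ih with
    | 1, _, hN, _ => exact G.e2_one' k hk hN
    | 2, _, hN, _ => exact G.e2_two k hk hN
    | (b + 3), _, hN, ih =>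
      -- target pair (a, b+3) with a = b + 3 + k; use pairs (a, b+2), (a, b+1)
      have i1 : E2 X s (b + 2) (k + 1) := ih (b + 2) (by omega) (k + 1) (by omega) (by omega) (by omega)
      have i2 : E2 X s (b + 1) (k + 2) := ih (b + 1) (by omega) (k + 2) (by omega) (by omega) (by omega)
      unfold E2 at i1 i2 ⊢
      rw [show 2 * (b + 2) + (k + 1) = 2 * b + k + 5 by omega,
        show b + 2 + (k + 1) = b + k + 3 by omega] at i1
      rw [show 2 * (b + 1) + (k + 2) = 2 * b + k + 4 by omega,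
        show b + 1 + (k + 2) = b + k + 3 by omega] at i2
      rw [show 2 * (b + 3) + k = 2 * b + k + 6 by omega, show b + 3 + k = b + k + 3 by omega]
      have hWa : W (b + k + 3) ≠ 0 := G.W_ne _ (by omega) (by omega)
      have hWbm : W (b + 1) ≠ 0 := G.W_ne _ (by omega) (by omega)
      have hu : X (b + 1) - X (b + k + 3) ≠ 0 := by
        have := G.X_ne (b + 1) (k + 2) (by omega) (by omega) (by omega)
        rw [show b + 1 + (k + 2) = b + k + 3 by omega] at this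
        exact sub_ne_zero.mpr this.symm
      have h3 : W (2 * b + k + 6) * W (2 * b + k + 4) =
          W (2 * b + k + 5) ^ 2 * (X 1 - X (2 * b + k + 5)) :=
        G.e2_one (2 * b + k + 4) (by omega) (by omega)
      have h4 : W (k + 2) * W k = W (k + 1) ^ 2 * (X 1 - X (k + 1)) := G.e2_one k hk (by omega)
      have h5 : W (b + 3) * W (b + 1) = W (b + 2) ^ 2 * (X 1 - X (b + 2)) :=
        G.e2_one (b + 1) (by omega) (by omega)
      have h6 : (X 1 - X (2 * b + k + 5)) * (X 1 - X (k + 1)) * (X (b + 2) - X (b + k + 3)) ^ 2 =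
          (X (b + 3) - X (b + k + 3)) * (X (b + 1) - X (b + k + 3)) * (X 1 - X (b + 2)) ^ 2 := by
        have g1 := G.add_sub (b + 2) (k + 1) (by omega) (by omega) (by omega) (X 1)
        have g2 := G.add_sub 1 (b + 1) le_rfl (by omega) (by omega) (X (b + k + 3))
        rw [show 2 * (b + 2) + (k + 1) = 2 * b + k + 5 by omega,
          show b + 2 + (k + 1) = b + k + 3 by omega] at g1
        rw [show 2 * 1 + (b + 1) = b + 3 by omega, show 1 + (b + 1) = b + 2 by omega] at g2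
        have hQ : Q (X (b + k + 3)) (X (b + 2)) (X 1) = Q (X (b + 2)) (X 1) (X (b + k + 3)) := by
          rw [G.symm12, G.symm23]
        rw [hQ, ← g2] at g1
        linear_combination g1
      exact alg_step hWa hu hWbm i1 i2 h3 h4 h5 h6

include G in
/-- odd recursion -/
theorem W_odd (m : ℕ) (hm : 2 ≤ m) (hN : 2 * m + 1 ≤ N + 1) :
    W (2 * m + 1) = W (m + 2) * W m ^ 3 - W (m - 1) * W (m + 1) ^ 3 := by
  obtain ⟨n, rfl⟩ : ∃ n, m = n + 1 := ⟨m - 1, by omega⟩
  have h1 := G.e2 (n + 1) 1 (by omega) le_rfl (by omega)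
  unfold E2 at h1
  rw [W_one, mul_one, show n + 1 + 1 = n + 2 by omega] at h1
  have h2 : W (n + 3) * W (n + 1) = W (n + 2) ^ 2 * (X 1 - X (n + 2)) :=
    G.e2_one (n + 1) (by omega) (by omega)
  have h3 : W (n + 2) * W n = W (n + 1) ^ 2 * (X 1 - X (n + 1)) := G.e2_one n (by omega) (by omega)
  rw [h1, show n + 1 + 2 = n + 3 by omega, show n + 1 - 1 = n by omega,
    show n + 1 + 1 = n + 2 by omega]
  linear_combination (-(W (n + 1)) ^ 2) * h2 + (W (n + 2)) ^ 2 * h3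

include G in
/-- even recursion -/
theorem W_even (m : ℕ) (hm : 3 ≤ m) (hN : 2 * m ≤ N + 1) :
    W (2 * m) * W 2 =
      W (m - 1) ^ 2 * W m * W (m + 2) - W (m - 2) * W m * W (m + 1) ^ 2 := by
  obtain ⟨n, rfl⟩ : ∃ n, m = n + 2 := ⟨m - 2, by omega⟩
  have h1 := G.e2 (n + 1) 2 (by omega) (by omega) (by omega)
  unfold E2 at h1
  rw [show 2 * (n + 1) + 2 = 2 * (n + 2) by omega, show n + 1 + 2 = n + 3 by omega] at h1
  have h2 : W (n + 4) * W (n + 2) = W (n + 3) ^ 2 * (X 1 - X (n + 3)) :=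
    G.e2_one (n + 2) (by omega) (by omega)
  have h3 : W (n + 2) * W n = W (n + 1) ^ 2 * (X 1 - X (n + 1)) := G.e2_one n (by omega) (by omega)
  rw [h1, show n + 2 - 1 = n + 1 by omega, show n + 2 + 2 = n + 4 by omega,
    show n + 2 - 2 = n by omega, show n + 2 + 1 = n + 3 by omega]
  linear_combination (-(W (n + 1)) ^ 2) * h2 + (W (n + 3)) ^ 2 * h3

include G in
/-- the step sequence is the normalised EDS with the same initial values -/
theorem W_eq_normEDS (c d : F) (h3 : 2 ≤ N → W 3 = c) (h4 : 3 ≤ N → W 4 = d * s) :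
    ∀ n : ℕ, n ≤ N + 1 → W n = normEDS s c d n := by
  intro n
  induction n using Nat.strong_induction_on with
  | _ n ih =>
    intro hn
    rcases Nat.even_or_odd' n with ⟨m, rfl | rfl⟩
    · -- n = 2 m
      rcases Nat.lt_or_ge m 3 with hm | hm
      · interval_cases m
        · simp [W_zero]
        · simp [W_two]
        · rw [h4 (by omega)]; simp
      · have e := G.W_even m hm hn
        rw [W_two] at e
        have e' := normEDS_even s c d (m : ℤ)
        rw [ih (m - 1) (by omega) (by omega), ih m (by omega) (by omega),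
          ih (m + 2) (by omega) (by omega), ih (m - 2) (by omega) (by omega),
          ih (m + 1) (by omega) (by omega)] at e
        have c1 : ((m - 1 : ℕ) : ℤ) = (m : ℤ) - 1 := by omega
        have c2 : ((m - 2 : ℕ) : ℤ) = (m : ℤ) - 2 := by omega
        have c3 : ((m + 2 : ℕ) : ℤ) = (m : ℤ) + 2 := by omega
        have c4 : ((m + 1 : ℕ) : ℤ) = (m : ℤ) + 1 := by omega
        have c5 : ((2 * m : ℕ) : ℤ) = 2 * (m : ℤ) := by omega
        rw [c1, c2, c3, c4, ← e'] at e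
        rw [c5]
        exact mul_right_cancel₀ G.s_ne e
    · -- n = 2 m + 1
      rcases Nat.lt_or_ge m 2 with hm | hm
      · interval_cases m
        · simp [W_one]
        · rw [h3 (by omega)]; simp
      · have e := G.W_odd m hm hn
        have e' := normEDS_odd s c d (m : ℤ)
        rw [ih (m + 2) (by omega) (by omega), ih m (by omega) (by omega),
          ih (m - 1) (by omega) (by omega), ih (m + 1) (by omega) (by omega)] at e
        have c1 : ((m - 1 : ℕ) : ℤ) = (m : ℤ) - 1 := by omega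
        have c3 : ((m + 2 : ℕ) : ℤ) = (m : ℤ) + 2 := by omega
        have c4 : ((m + 1 : ℕ) : ℤ) = (m : ℤ) + 1 := by omega
        have c5 : ((2 * m + 1 : ℕ) : ℤ) = 2 * (m : ℤ) + 1 := by omega
        rw [c1, c3, c4, ← e'] at e
        rw [c5]
        exact e

end GeomData

end Fermat.Agent.EC
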