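import Mathlib
import Fermat.Agent.EC.Tors_helper6_Points
import Fermat.Agent.EC.Tors_helper6_Step

set_option autoImplicit false
set_option linter.unusedSectionVars false

/-!
# Division polynomials at a point, up to the first zero

If `k • P ≠ 0` for `1 ≤ k ≤ N` then `ψ_k(P) ≠ 0` for `1 ≤ k ≤ N`,
`ψ_{k+1}(P) ψ_{k-1}(P) = ψ_k(P)² (x(P) - x(kP))`, and `ψ_{N+1}(P) = 0 ↔ (N+1) • P = 0`.
-/

namespace Fermat.Agent.EC

open WeierstrassCurve WeierstrassCurve.Affine

variable {F : Type*} [Field F] [DecidableEq F] {W : Affine F}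

/-- the value of the `n`-th division polynomial at `(x, y)` -/
noncomputable def psiVal (W : Affine F) (x y : F) (n : ℤ) : F := (W.ψ n).evalEval x y

theorem psiVal_eq_normEDS (x y : F) (n : ℤ) :
    psiVal W x y n = normEDS (y - W.negY x y) (W.Ψ₃.eval x) (W.preΨ₄.eval x) n := by
  have h := map_normEDS (Polynomial.evalEvalRingHom x y) W.ψ₂ (Polynomial.C W.Ψ₃)
    (Polynomial.C W.preΨ₄) n
  have e2 : (Polynomial.evalEvalRingHom x y) W.ψ₂ = y - W.negY x y := by
    rw [Polynomial.coe_evalEvalRingHom, WeierstrassCurve.ψ₂, evalEval_polynomialY, negY]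
    ring
  have e3 : (Polynomial.evalEvalRingHom x y) (Polynomial.C W.Ψ₃) = W.Ψ₃.eval x := by
    rw [Polynomial.coe_evalEvalRingHom, Polynomial.evalEval_C]
  have e4 : (Polynomial.evalEvalRingHom x y) (Polynomial.C W.preΨ₄) = W.preΨ₄.eval x := by
    rw [Polynomial.coe_evalEvalRingHom, Polynomial.evalEval_C]
  rw [e2, e3, e4] at h
  rw [← h]
  rfl

theorem psiVal_zero (x y : F) : psiVal W x y 0 = 0 := by
  rw [psiVal_eq_normEDS, normEDS_zero]

theorem psiVal_one (x y : F) : psiVal W x y 1 = 1 := by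
  rw [psiVal_eq_normEDS, normEDS_one]

theorem psiVal_two (x y : F) : psiVal W x y 2 = y - W.negY x y := by
  rw [psiVal_eq_normEDS, normEDS_two]

/-- the polynomial identity identifying `ψ₄` -/
theorem psi4_identity (W : Affine F) (x X3 : F)
    (hT : W.Ψ₂Sq.eval x ≠ 0)
    (hS : (X3 + x) * ((x - W.Ψ₃.eval x / W.Ψ₂Sq.eval x) - x) ^ 2 =
      symS W (x - W.Ψ₃.eval x / W.Ψ₂Sq.eval x) x) :
    W.Ψ₃.eval x ^ 2 * (x - X3) = W.preΨ₄.eval x * W.Ψ₂Sq.eval x := by
  have hT' : W.Ψ₂Sq.eval x = 4 * x ^ 3 + W.b₂ * x ^ 2 + 2 * W.b₄ * x + W.b₆ := by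
    simp [WeierstrassCurve.Ψ₂Sq]
  have hc' : W.Ψ₃.eval x = 3 * x ^ 4 + W.b₂ * x ^ 3 + 3 * W.b₄ * x ^ 2 + 3 * W.b₆ * x + W.b₈ := by
    simp [WeierstrassCurve.Ψ₃]
  have hd' : W.preΨ₄.eval x = 2 * x ^ 6 + W.b₂ * x ^ 5 + 5 * W.b₄ * x ^ 4 + 10 * W.b₆ * x ^ 3 +
      10 * W.b₈ * x ^ 2 + (W.b₂ * W.b₈ - W.b₄ * W.b₆) * x + (W.b₄ * W.b₈ - W.b₆ ^ 2) := by
    simp [WeierstrassCurve.preΨ₄]
  set T := W.Ψ₂Sq.eval x with hTdef
  set c := W.Ψ₃.eval x with hcdef
  set d := W.preΨ₄.eval x with hddef
  have h1 : (X3 + x) * c ^ 2 = 2 * (2 * x * T - c) * (x * T - c) * x + W.b₂ * (x * T - c) * x * T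
      + W.b₄ * (2 * x * T - c) * T + W.b₆ * T ^ 2 := by
    have e : symS W (x - c / T) x * T ^ 2 = 2 * (2 * x * T - c) * (x * T - c) * x
        + W.b₂ * (x * T - c) * x * T + W.b₄ * (2 * x * T - c) * T + W.b₆ * T ^ 2 := by
      unfold symS
      field_simp
      ring
    rw [← e, ← hS]
    field_simp
    ring
  have hb := W.b_relation
  rw [hT', hc'] at h1
  rw [hT', hc', hd']
  linear_combination (-1 : F) * h1 +
    (-W.b₂ * x^4 - 2 * W.b₄ * x^3 - W.b₆ * x^2 - 4 * x^5) * hb

section

variable {x y : F} (h : W.Nonsingular x y) (N : ℕ)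
  (hN : ∀ k, 1 ≤ k → k ≤ N → k • Point.some x y h ≠ 0)

include hN in
theorem geomData_of_point (h2 : 2 ≤ N) :
    GeomData (symQ W) (fun k => xOf (k • Point.some x y h)) (y - W.negY x y) N := by
  set P := Point.some x y h with hP
  have hP0 : P ≠ 0 := Point.some_ne_zero _
  have h2P : P + P ≠ 0 := by
    have := hN 2 (by omega) h2
    rwa [two_nsmul] at this
  refine ⟨symQ_comm12 W, symQ_comm23 W, ?_, ?_, ?_, ?_⟩
  · have := (psi2Of_eq_zero_iff hP0).not.mpr h2P
    rwa [hP, psi2Of_some] at this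
  · intro b k hb hk hbk
    have h1 : (b + k) • P ≠ 0 := hN _ (by omega) (by omega)
    have h2 : b • P ≠ 0 := hN _ hb (by omega)
    show xOf ((b + k) • P) ≠ xOf (b • P)
    rw [Ne, xOf_eq_iff h1 h2]
    rintro (e | e)
    · have : k • P = 0 := by
        rw [add_nsmul] at e
        exact add_left_cancel (a := b • P) (by rw [add_zero]; exact e)
      exact hN k hk (by omega) this
    · have : (2 * b + k) • P = 0 := by
        rw [show 2 * b + k = (b + k) + b by omega, add_nsmul P (b + k) b, e, neg_add_cancel]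
      exact hN _ (by omega) hbk this
  · intro b k hb hk hbk c
    have h1 : (b + k) • P ≠ 0 := hN _ (by omega) (by omega)
    have h2 : b • P ≠ 0 := hN _ hb (by omega)
    have hx : xOf ((b + k) • P) ≠ xOf (b • P) := by
      rw [Ne, xOf_eq_iff h1 h2]
      rintro (e | e)
      · have : k • P = 0 := by
          rw [add_nsmul] at e
          exact add_left_cancel (a := b • P) (by rw [add_zero]; exact e)
        exact hN k hk (by omega) this
      · have : (2 * b + k) • P = 0 := by
          rw [show 2 * b + k = (b + k) + b by omega, add_nsmul P (b + k) b, e, neg_add_cancel]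
        exact hN _ (by omega) hbk this
    have := symQ_add_sub h1 h2 hx c
    have e1 : (b + k) • P + b • P = (2 * b + k) • P := by
      rw [← add_nsmul]; congr 1; omega
    have e2 : (b + k) • P - b • P = k • P := by
      rw [add_nsmul]; abel
    rw [e1, e2] at this
    exact this
  · intro _ c
    have := symQ_two hP0 h2P c
    rw [← two_nsmul, hP, psi2Of_some, ← hP] at this
    show (xOf (2 • P) - c) * (y - W.negY x y) ^ 2 = symQ W (xOf (1 • P)) (xOf (1 • P)) c
    rw [one_nsmul]
    exact this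

include hN in
theorem stepSeq_eq_psiVal (h2 : 2 ≤ N) : ∀ n : ℕ, n ≤ N + 1 →
    stepSeq (fun k => xOf (k • Point.some x y h)) (y - W.negY x y) n = psiVal W x y n := by
  have G := geomData_of_point h N hN h2
  set P := Point.some x y h with hP
  have hP0 : P ≠ 0 := Point.some_ne_zero _
  have hs : y - W.negY x y ≠ 0 := G.s_ne
  have hT : (y - W.negY x y) ^ 2 = W.Ψ₂Sq.eval x := by
    have := psi2Of_sq h
    rwa [psi2Of_some] at this
  have hT0 : W.Ψ₂Sq.eval x ≠ 0 := by rw [← hT]; exact pow_ne_zero 2 hs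
  have hX1 : xOf (1 • P) = x := by rw [one_nsmul, hP, xOf_some]
  -- `x(2P)`
  have hX2 : xOf (2 • P) = x - W.Ψ₃.eval x / W.Ψ₂Sq.eval x := by
    have := G.two h2 x
    simp only [hX1] at this
    rw [symQ_self, hT] at this
    field_simp
    linear_combination this
  have h3 : 2 ≤ N → stepSeq (fun k => xOf (k • P)) (y - W.negY x y) 3 = W.Ψ₃.eval x := by
    intro _
    rw [GeomData.W_succ, GeomData.W_two, GeomData.W_one]
    simp only [zero_add, hX1, hX2, hT]
    field_simp
    ring
  have h4 : 3 ≤ N → stepSeq (fun k => xOf (k • P)) (y - W.negY x y) 4 =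
      W.preΨ₄.eval x * (y - W.negY x y) := by
    intro h3N
    rw [show (4 : ℕ) = 1 + 3 from rfl, GeomData.W_succ, h3 h2, GeomData.W_two]
    simp only [hX1]
    have h2P : 2 • P ≠ 0 := hN 2 (by omega) h2
    have hx : xOf (2 • P) ≠ xOf P := by
      have := G.X_ne 1 1 le_rfl le_rfl (by omega)
      simpa [hX1, hP] using this
    have hS := symS_add_sub h2P hP0 hx
    have e1 : 2 • P + P = 3 • P := by
      rw [show (3 : ℕ) = 2 + 1 from rfl, add_nsmul, one_nsmul]
    have e2 : 2 • P - P = P := by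
      rw [two_nsmul]; abel
    rw [e1, e2, hX2] at hS
    have hxP : xOf P = x := by rw [hP, xOf_some]
    rw [hxP] at hS
    have key := psi4_identity W x (xOf (3 • P)) hT0 hS
    rw [show 1 + 2 = 3 from rfl]
    rw [div_eq_iff hs, mul_assoc, ← sq, hT]
    exact key
  intro n hn
  rw [psiVal_eq_normEDS]
  exact G.W_eq_normEDS _ _ h3 h4 n hn

include hN in
/-- **First-zero theorem.** -/
theorem firstZero :
    (∀ k : ℕ, 1 ≤ k → k ≤ N → psiVal W x y k ≠ 0) ∧
    (∀ k : ℕ, 1 ≤ k → k ≤ N → psiVal W x y (k + 1) * psiVal W x y (k - 1) =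
      psiVal W x y k ^ 2 * (x - xOf (k • Point.some x y h))) ∧
    (psiVal W x y (N + 1) = 0 ↔ (N + 1) • Point.some x y h = 0) := by
  set P := Point.some x y h with hP
  have hP0 : P ≠ 0 := Point.some_ne_zero _
  rcases Nat.lt_or_ge N 2 with hlt | h2
  · -- small cases
    interval_cases N
    · refine ⟨fun k h1 h0 => by omega, fun k h1 h0 => by omega, ?_⟩
      simp only [Nat.cast_zero, zero_add, psiVal_one, one_nsmul]
      exact ⟨fun h => absurd h one_ne_zero, fun h => absurd h hP0⟩
    · refine ⟨fun k h1 h0 => ?_, fun k h1 h0 => ?_, ?_⟩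
      · obtain rfl : k = 1 := by omega
        simp [psiVal_one]
      · obtain rfl : k = 1 := by omega
        simp [psiVal_zero, psiVal_one, hP]
      · have := psi2Of_eq_zero_iff hP0
        rw [hP, psi2Of_some, ← hP, ← two_nsmul] at this
        simpa [psiVal_two] using this
  · have G := geomData_of_point h N hN h2
    have hW := stepSeq_eq_psiVal h N hN h2
    have hX1 : xOf (1 • P) = x := by rw [one_nsmul, hP, xOf_some]
    have hne : ∀ k : ℕ, 1 ≤ k → k ≤ N → psiVal W x y k ≠ 0 := by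
      intro k h1 hk
      rw [← hW k (by omega)]
      exact G.W_ne k h1 hk
    have hrel : ∀ k : ℕ, 1 ≤ k → k ≤ N → psiVal W x y (k + 1) * psiVal W x y (k - 1) =
        psiVal W x y k ^ 2 * (x - xOf (k • P)) := by
      intro k h1 hk
      rcases Nat.lt_or_ge k 2 with hk2 | hk2
      · obtain rfl : k = 1 := by omega
        simp [psiVal_zero, psiVal_one, hP]
      · obtain ⟨j, rfl⟩ : ∃ j, k = j + 1 := ⟨k - 1, by omega⟩
        have := G.e2_one j (by omega) hk
        rw [hW _ (by omega), hW _ (by omega), hW _ (by omega)] at this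
        rw [← hP, hX1] at this
        have c1 : ((j + 1 : ℕ) : ℤ) + 1 = ((j + 2 : ℕ) : ℤ) := by push_cast; ring
        have c2 : ((j + 1 : ℕ) : ℤ) - 1 = ((j : ℕ) : ℤ) := by push_cast; ring
        rw [c1, c2]
        exact this
    refine ⟨hne, hrel, ?_⟩
    have hNP : N • P ≠ 0 := hN N (by omega) le_rfl
    have key := hrel N (by omega) le_rfl
    have hNm : psiVal W x y ((N : ℤ) - 1) ≠ 0 := by
      have := hne (N - 1) (by omega) (by omega)
      rwa [show ((N - 1 : ℕ) : ℤ) = (N : ℤ) - 1 by omega] at this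
    have hNN : psiVal W x y (N : ℤ) ≠ 0 := hne N (by omega) le_rfl
    have e0 : psiVal W x y ((N : ℤ) + 1) = 0 ↔ x - xOf (N • P) = 0 := by
      constructor
      · intro h0
        rw [h0, zero_mul] at key
        exact (mul_eq_zero.mp key.symm).resolve_left (pow_ne_zero 2 hNN)
      · intro h0
        rw [h0, mul_zero] at key
        exact (mul_eq_zero.mp key).resolve_right hNm
    rw [e0, sub_eq_zero]
    have hx : x = xOf P := by rw [hP, xOf_some]
    rw [hx, eq_comm, xOf_eq_iff hNP hP0]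
    constructor
    · rintro (e | e)
      · exfalso
        have : (N - 1) • P = 0 := by
          have h' : N • P = (N - 1) • P + P := by
            rw [← succ_nsmul, show N - 1 + 1 = N by omega]
          rw [h'] at e
          exact add_right_cancel (b := P) (by rw [zero_add]; exact e)
        exact hN (N - 1) (by omega) (by omega) this
      · rw [succ_nsmul, e, neg_add_cancel]
    · intro e
      right
      rw [succ_nsmul] at e
      exact eq_neg_of_add_eq_zero_left e

include hN in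
/-- the elliptic-sequence relation in the range below the first zero -/
theorem firstZero_ES (b k : ℕ) (hb : 1 ≤ b) (hk : 1 ≤ k) (hbk : 2 * b + k ≤ N + 1) :
    psiVal W x y (2 * b + k : ℕ) * psiVal W x y (k : ℕ) =
      psiVal W x y ((b + k : ℕ) + 1) * psiVal W x y ((b + k : ℕ) - 1) * psiVal W x y (b : ℕ) ^ 2 -
      psiVal W x y ((b : ℕ) + 1) * psiVal W x y ((b : ℕ) - 1) * psiVal W x y (b + k : ℕ) ^ 2 := by
  have h2 : 2 ≤ N := by omega
  have G := geomData_of_point h N hN h2
  have hW := stepSeq_eq_psiVal h N hN h2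
  obtain ⟨-, hrel, -⟩ := firstZero h N hN
  have e := G.e2 b k hb hk hbk
  unfold GeomData.E2 at e
  rw [hW _ hbk, hW _ (by omega), hW _ (by omega), hW _ (by omega)] at e
  have r1 := hrel (b + k) (by omega) (by omega)
  have r2 := hrel b hb (by omega)
  rw [e, r1, r2]
  ring

end

end Fermat.Agent.EC
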