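import Mathlib
import Fermat.Agent.EC.Tors_helper6_FirstZero

set_option autoImplicit false
set_option linter.unusedSectionVars false

/-!
# The generic point: elliptic-sequence relations for division polynomials in the coordinate ring

For a Weierstrass curve `W` over a domain `R` of characteristic zero, the generic point of `W` over
the function field is not a torsion point, hence by the first-zero theorem the relations
`ψ_{a+b} ψ_{a-b} = ψ_{a+1} ψ_{a-1} ψ_b² - ψ_{b+1} ψ_{b-1} ψ_a²` hold in the coordinate ring; they
specialise to every point of `W`.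
-/

namespace Fermat.Agent.EC

open WeierstrassCurve WeierstrassCurve.Affine Polynomial
open scoped Polynomial.Bivariate

section generic

variable {R : Type*} [CommRing R] [IsDomain R] [CharZero R] (W : Affine R)

/-- the map `R[X][Y] → R(W)` -/
noncomputable def genHom : R[X][Y] →+* W.FunctionField :=
  (algebraMap W.CoordinateRing W.FunctionField).comp (CoordinateRing.mk W)

/-- coefficient map `R → R(W)` -/
noncomputable def genCoeff : R →+* W.FunctionField := (genHom W).comp (C.comp C)

/-- the generic curve -/
noncomputable def genCurve : Affine W.FunctionField := W.map (genCoeff W)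

/-- coordinates of the generic point -/
noncomputable def genX : W.FunctionField := genHom W (C X)
/-- coordinates of the generic point -/
noncomputable def genY : W.FunctionField := genHom W Y

theorem genHom_injective_mk {p q : R[X][Y]} (h : genHom W p = genHom W q) :
    CoordinateRing.mk W p = CoordinateRing.mk W q :=
  IsFractionRing.injective W.CoordinateRing W.FunctionField h

theorem evalEval_map_gen (p : R[X][Y]) :
    (p.map (mapRingHom (genCoeff W))).evalEval (genX W) (genY W) = genHom W p := by
  have key : ((evalEvalRingHom (genX W) (genY W)).comp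
      (mapRingHom (mapRingHom (genCoeff W)))) = genHom W := by
    apply Polynomial.ringHom_ext
    · intro q
      have : ((evalEvalRingHom (genX W) (genY W)).comp (mapRingHom (mapRingHom (genCoeff W)))).comp C
          = (genHom W).comp C := by
        apply Polynomial.ringHom_ext
        · intro a
          simp [genCoeff, evalEvalRingHom]
        · simp [genX, evalEvalRingHom]
      exact congrArg (fun f => f q) this
    · simp [genY, evalEvalRingHom]
  exact congrArg (fun f => f p) key

theorem gen_equation : (genCurve W).Equation (genX W) (genY W) := by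
  unfold Affine.Equation genCurve
  rw [map_polynomial, evalEval_map_gen]
  simp [genHom]

theorem genHom_polynomialY_ne : genHom W W.polynomialY ≠ 0 := by
  intro h
  have h0 : CoordinateRing.mk W W.polynomialY = 0 := by
    have : genHom W W.polynomialY = genHom W 0 := by rw [h, map_zero]
    simpa using genHom_injective_mk W this
  have e : CoordinateRing.mk W W.polynomialY =
      (C W.a₁ * X + C W.a₃ : R[X]) • (1 : W.CoordinateRing) + (2 : R[X]) • CoordinateRing.mk W Y := by
    rw [CoordinateRing.smul, CoordinateRing.smul, Affine.polynomialY]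
    simp only [map_add, map_mul, map_ofNat, mul_one]
    ring
  rw [e] at h0
  have := (CoordinateRing.smul_basis_eq_zero h0).2
  exact two_ne_zero this

theorem gen_nonsingular : (genCurve W).Nonsingular (genX W) (genY W) := by
  refine ⟨gen_equation W, Or.inr ?_⟩
  unfold genCurve
  rw [map_polynomialY, evalEval_map_gen]
  exact genHom_polynomialY_ne W

theorem psiVal_gen (n : ℤ) : psiVal (genCurve W) (genX W) (genY W) n = genHom W (W.ψ n) := by
  unfold psiVal genCurve
  rw [show (W.map (genCoeff W)).ψ n = (W.ψ n).map (mapRingHom (genCoeff W)) from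
    WeierstrassCurve.map_ψ W (genCoeff W) n, evalEval_map_gen]

theorem genHom_psi_ne {n : ℤ} (hn : n ≠ 0) : genHom W (W.ψ n) ≠ 0 := by
  intro h
  have h0 : CoordinateRing.mk W (W.Ψ n) = 0 := by
    have : genHom W (W.ψ n) = genHom W 0 := by rw [h, map_zero]
    have := genHom_injective_mk W this
    rw [CoordinateRing.mk_ψ] at this
    simpa using this
  have hpre : W.preΨ n ≠ 0 := WeierstrassCurve.preΨ_ne_zero W (by exact_mod_cast hn)
  unfold WeierstrassCurve.Ψ at h0
  split_ifs at h0 with he
  · have e : CoordinateRing.mk W (C (W.preΨ n) * W.ψ₂) =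
        (W.preΨ n * (C W.a₁ * X + C W.a₃) : R[X]) • (1 : W.CoordinateRing) +
          (W.preΨ n * 2 : R[X]) • CoordinateRing.mk W Y := by
      rw [CoordinateRing.smul, CoordinateRing.smul, WeierstrassCurve.ψ₂, Affine.polynomialY]
      simp only [map_add, map_mul, map_ofNat, mul_one]
      ring
    rw [e] at h0
    have := (CoordinateRing.smul_basis_eq_zero h0).2
    rcases mul_eq_zero.mp this with h1 | h1
    · exact hpre h1
    · exact two_ne_zero h1
  · have e : CoordinateRing.mk W (C (W.preΨ n) * 1) =
        (W.preΨ n : R[X]) • (1 : W.CoordinateRing) + (0 : R[X]) • CoordinateRing.mk W Y := by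
      rw [CoordinateRing.smul, CoordinateRing.smul]
      simp
    rw [e] at h0
    exact hpre (CoordinateRing.smul_basis_eq_zero h0).1

section nontorsion

open Classical in
/-- the generic point is not a torsion point -/
theorem gen_nsmul_ne (k : ℕ) (hk : 1 ≤ k) :
    k • Point.some (genX W) (genY W) (gen_nonsingular W) ≠ 0 := by
  by_contra hcon
  have hex : ∃ k : ℕ, 1 ≤ k ∧ k • Point.some (genX W) (genY W) (gen_nonsingular W) = 0 :=
    ⟨k, hk, hcon⟩
  set k₀ := Nat.find hex with hk₀
  obtain ⟨h1, h0⟩ := Nat.find_spec hex
  have hmin : ∀ j : ℕ, 1 ≤ j → j ≤ k₀ - 1 →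
      j • Point.some (genX W) (genY W) (gen_nonsingular W) ≠ 0 := by
    intro j hj hjk hj0
    have := Nat.find_min hex (m := j) (by omega)
    exact this ⟨hj, hj0⟩
  obtain ⟨-, -, hz⟩ := firstZero (gen_nonsingular W) (k₀ - 1) hmin
  have e : k₀ - 1 + 1 = k₀ := by omega
  rw [e] at hz
  have hpsi : psiVal (genCurve W) (genX W) (genY W) (((k₀ - 1 : ℕ) : ℤ) + 1) = 0 := hz.mpr h0
  rw [psiVal_gen] at hpsi
  exact genHom_psi_ne W (by omega) hpsi

open Classical in
/-- the elliptic-sequence relations in the coordinate ring -/
theorem mk_psi_ES (b k : ℕ) (hb : 1 ≤ b) (hk : 1 ≤ k) :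
    CoordinateRing.mk W (W.ψ (2 * b + k : ℕ)) * CoordinateRing.mk W (W.ψ (k : ℕ)) =
      CoordinateRing.mk W (W.ψ ((b + k : ℕ) + 1)) * CoordinateRing.mk W (W.ψ ((b + k : ℕ) - 1)) *
          CoordinateRing.mk W (W.ψ (b : ℕ)) ^ 2 -
        CoordinateRing.mk W (W.ψ ((b : ℕ) + 1)) * CoordinateRing.mk W (W.ψ ((b : ℕ) - 1)) *
          CoordinateRing.mk W (W.ψ (b + k : ℕ)) ^ 2 := by
  apply IsFractionRing.injective W.CoordinateRing W.FunctionField
  have hN : ∀ j : ℕ, 1 ≤ j → j ≤ 2 * b + k →
      j • Point.some (genX W) (genY W) (gen_nonsingular W) ≠ 0 :=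
    fun j hj _ => gen_nsmul_ne W j hj
  have := firstZero_ES (gen_nonsingular W) (2 * b + k) hN b k hb hk (by omega)
  simp only [psiVal_gen] at this
  simp only [map_mul, map_sub, map_pow]
  exact this

end nontorsion

/-- evaluation at a point of the curve factors through the coordinate ring -/
theorem evalEval_eq_of_mk_eq {S : Type*} [CommRing S] {W : Affine S} {p q : S[X][Y]}
    (h : CoordinateRing.mk W p = CoordinateRing.mk W q) {x y : S} (hxy : W.Equation x y) :
    p.evalEval x y = q.evalEval x y := by
  obtain ⟨r, hr⟩ := AdjoinRoot.mk_eq_mk.mp h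
  have e : p = q + W.polynomial * r := by rw [← hr]; ring
  rw [e, evalEval_add]
  have : (W.polynomial * r).evalEval x y = 0 := by
    have := map_mul (evalEvalRingHom x y) W.polynomial r
    simp only [coe_evalEvalRingHom] at this
    rw [this, hxy, zero_mul]
  rw [this, add_zero]

/-- the elliptic-sequence relations at every point -/
theorem psiVal_ES {x y : R} (hxy : W.Equation x y) (b k : ℕ) (hb : 1 ≤ b) (hk : 1 ≤ k) :
    (W.ψ (2 * b + k : ℕ)).evalEval x y * (W.ψ (k : ℕ)).evalEval x y =
      (W.ψ ((b + k : ℕ) + 1)).evalEval x y * (W.ψ ((b + k : ℕ) - 1)).evalEval x y *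
          (W.ψ (b : ℕ)).evalEval x y ^ 2 -
        (W.ψ ((b : ℕ) + 1)).evalEval x y * (W.ψ ((b : ℕ) - 1)).evalEval x y *
          (W.ψ (b + k : ℕ)).evalEval x y ^ 2 := by
  have h := mk_psi_ES W b k hb hk
  simp only [← map_mul, ← map_pow, ← map_sub] at h
  have := evalEval_eq_of_mk_eq h hxy
  have e := fun p q : R[X][Y] => map_mul (evalEvalRingHom x y) p q
  have e2 := fun p q : R[X][Y] => map_sub (evalEvalRingHom x y) p q
  have e3 := fun (p : R[X][Y]) (n : ℕ) => map_pow (evalEvalRingHom x y) p n
  simp only [coe_evalEvalRingHom] at e e2 e3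
  simpa only [e, e2, e3] using this

end generic

end Fermat.Agent.EC
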