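import Mathlib
import Fermat.Agent.EC.Tors_helper6_Generic

set_option autoImplicit false
set_option linter.unusedSectionVars false

/-!
# Zeros of the division polynomials at a torsion point (characteristic zero)

If `P` has exact order `m ≥ 2` then `ψ_n(P) ≠ 0` for every `n` not divisible by `m`.
-/

namespace Fermat.Agent.EC

open WeierstrassCurve WeierstrassCurve.Affine Polynomial

variable {F : Type*} [Field F] [DecidableEq F] {W : Affine F}

/-- polynomial identity for `ψ₄` (in evaluated form) -/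
theorem psi4_poly (W : Affine F) (x : F) :
    W.preΨ₄.eval x * W.Ψ₂Sq.eval x = 2 * x * W.Ψ₃.eval x ^ 2 -
      (2 * (2 * x * W.Ψ₂Sq.eval x - W.Ψ₃.eval x) * (x * W.Ψ₂Sq.eval x - W.Ψ₃.eval x) * x
        + W.b₂ * (x * W.Ψ₂Sq.eval x - W.Ψ₃.eval x) * x * W.Ψ₂Sq.eval x
        + W.b₄ * (2 * x * W.Ψ₂Sq.eval x - W.Ψ₃.eval x) * W.Ψ₂Sq.eval x
        + W.b₆ * W.Ψ₂Sq.eval x ^ 2) := by
  have hT' : W.Ψ₂Sq.eval x = 4 * x ^ 3 + W.b₂ * x ^ 2 + 2 * W.b₄ * x + W.b₆ := by
    simp [WeierstrassCurve.Ψ₂Sq]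
  have hc' : W.Ψ₃.eval x = 3 * x ^ 4 + W.b₂ * x ^ 3 + 3 * W.b₄ * x ^ 2 + 3 * W.b₆ * x + W.b₈ := by
    simp [WeierstrassCurve.Ψ₃]
  have hd' : W.preΨ₄.eval x = 2 * x ^ 6 + W.b₂ * x ^ 5 + 5 * W.b₄ * x ^ 4 + 10 * W.b₆ * x ^ 3 +
      10 * W.b₈ * x ^ 2 + (W.b₂ * W.b₈ - W.b₄ * W.b₆) * x + (W.b₄ * W.b₈ - W.b₆ ^ 2) := by
    simp [WeierstrassCurve.preΨ₄]
  have hb := W.b_relation
  rw [hT', hc', hd']
  linear_combination (W.b₂ * x^4 + 2 * W.b₄ * x^3 + W.b₆ * x^2 + 4 * x^5) * hb

/-- polynomial identity `16 ψ₃ = 2 T T'' - T'²` (in evaluated form) -/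
theorem psi3_poly (W : Affine F) (x : F) :
    16 * W.Ψ₃.eval x = 2 * W.Ψ₂Sq.eval x * (24 * x + 2 * W.b₂)
      - (12 * x ^ 2 + 2 * W.b₂ * x + 2 * W.b₄) ^ 2 := by
  have hT' : W.Ψ₂Sq.eval x = 4 * x ^ 3 + W.b₂ * x ^ 2 + 2 * W.b₄ * x + W.b₆ := by
    simp [WeierstrassCurve.Ψ₂Sq]
  have hc' : W.Ψ₃.eval x = 3 * x ^ 4 + W.b₂ * x ^ 3 + 3 * W.b₄ * x ^ 2 + 3 * W.b₆ * x + W.b₈ := by
    simp [WeierstrassCurve.Ψ₃]
  have hb := W.b_relation
  rw [hT', hc']
  linear_combination 4 * hb

section order

variable [CharZero F] {x y : F} (h : W.Nonsingular x y)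

/-- `ℕ`-indexed values -/
noncomputable def psiNat (W : Affine F) (x y : F) (n : ℕ) : F := psiVal W x y (n : ℤ)

include h in
/-- the elliptic-sequence relation with `ℕ`-indices -/
theorem psiNat_ES (b k : ℕ) (hb : 1 ≤ b) (hk : 1 ≤ k) :
    psiNat W x y (2 * b + k) * psiNat W x y k =
      psiNat W x y (b + k + 1) * psiNat W x y (b + k - 1) * psiNat W x y b ^ 2 -
        psiNat W x y (b + 1) * psiNat W x y (b - 1) * psiNat W x y (b + k) ^ 2 := by
  have := psiVal_ES W h.1 b k hb hk
  unfold psiNat psiVal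
  have c1 : ((b + k + 1 : ℕ) : ℤ) = ((b + k : ℕ) : ℤ) + 1 := by push_cast; ring
  have c2 : ((b + k - 1 : ℕ) : ℤ) = ((b + k : ℕ) : ℤ) - 1 := by omega
  have c3 : ((b + 1 : ℕ) : ℤ) = (b : ℤ) + 1 := by push_cast; ring
  have c4 : ((b - 1 : ℕ) : ℤ) = (b : ℤ) - 1 := by omega
  rw [c1, c2, c3, c4]
  exact this

theorem psiNat_zero : psiNat W x y 0 = 0 := by
  unfold psiNat; simpa using psiVal_zero (W := W) x y

theorem psiNat_one : psiNat W x y 1 = 1 := by
  unfold psiNat; simpa using psiVal_one (W := W) x y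

variable (m : ℕ) (hm2 : 2 ≤ m) (hmP : m • Point.some x y h = 0)
  (hmin : ∀ k, 1 ≤ k → k < m → k • Point.some x y h ≠ 0)

include hmP hmin hm2 in
theorem psiNat_order_facts :
    (∀ k, 1 ≤ k → k < m → psiNat W x y k ≠ 0) ∧ psiNat W x y m = 0 := by
  have hN : ∀ k, 1 ≤ k → k ≤ m - 1 → k • Point.some x y h ≠ 0 :=
    fun k h1 h2 => hmin k h1 (by omega)
  obtain ⟨hne, -, hz⟩ := firstZero h (m - 1) hN
  refine ⟨fun k h1 h2 => hne k h1 (by omega), ?_⟩
  have e : m - 1 + 1 = m := by omega
  rw [e] at hz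
  have := hz.mpr hmP
  unfold psiNat
  rw [show (m : ℤ) = ((m - 1 : ℕ) : ℤ) + 1 by omega]
  exact this

include hmP hmin hm2 in
/-- `ψ_{m+1}(P) ≠ 0` for a point of exact order `m` -/
theorem psiNat_succ_order_ne : psiNat W x y (m + 1) ≠ 0 := by
  obtain ⟨hne, hz⟩ := psiNat_order_facts h m hm2 hmP hmin
  set P := Point.some x y h with hP
  have hP0 : P ≠ 0 := Point.some_ne_zero _
  rcases Nat.lt_or_ge m 4 with hlt | hge
  · interval_cases m
    · -- m = 2
      have hs : y - W.negY x y = 0 := by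
        have := (psi2Of_eq_zero_iff hP0).mpr (by rw [← two_nsmul]; exact hmP)
        rwa [hP, psi2Of_some] at this
      have hT : W.Ψ₂Sq.eval x = 0 := by
        have := psi2Of_sq h
        rw [psi2Of_some, hs] at this
        rw [← this]; ring
      have h3 : psiNat W x y 3 = W.Ψ₃.eval x := by
        unfold psiNat
        rw [psiVal_eq_normEDS]
        exact normEDS_three ..
      rw [show 2 + 1 = 3 from rfl, h3]
      intro hc
      have hp := psi3_poly W x
      rw [hT, hc] at hp
      have hT' : 12 * x ^ 2 + 2 * W.b₂ * x + 2 * W.b₄ = 0 := by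
        have : (12 * x ^ 2 + 2 * W.b₂ * x + 2 * W.b₄) ^ 2 = 0 := by linear_combination hp
        exact pow_eq_zero_iff (two_ne_zero) |>.mp this
      -- contradiction with nonsingularity
      have hns := (nonsingular_iff' x y).mp h
      rcases hns.2 with hX | hY
      · apply hX
        have h2y : 2 * y = -(W.a₁ * x + W.a₃) := by
          simp only [negY] at hs
          linear_combination hs
        have : 4 * (W.a₁ * y - (3 * x ^ 2 + 2 * W.a₂ * x + W.a₄)) = 0 := by
          simp only [b₂, b₄] at hT'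
          linear_combination 2 * W.a₁ * h2y - hT'
        have h4 : (4 : F) ≠ 0 := by norm_num
        exact (mul_eq_zero.mp this).resolve_left h4
      · apply hY
        simp only [negY] at hs
        linear_combination hs
    · -- m = 3
      have h3 : psiNat W x y 3 = W.Ψ₃.eval x := by
        unfold psiNat
        rw [psiVal_eq_normEDS]
        exact normEDS_three ..
      have hc : W.Ψ₃.eval x = 0 := by rw [← h3]; exact hz
      have h2 : psiNat W x y 2 = y - W.negY x y := by
        unfold psiNat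
        exact psiVal_two x y
      have hs : y - W.negY x y ≠ 0 := by rw [← h2]; exact hne 2 (by omega) (by omega)
      have hT : W.Ψ₂Sq.eval x ≠ 0 := by
        have := psi2Of_sq h
        rw [psi2Of_some] at this
        rw [← this]; exact pow_ne_zero 2 hs
      have h4 : psiNat W x y 4 = W.preΨ₄.eval x * (y - W.negY x y) := by
        unfold psiNat
        rw [psiVal_eq_normEDS]
        exact normEDS_four ..
      rw [show 3 + 1 = 4 from rfl, h4]
      have hp := psi4_poly W x
      rw [hc] at hp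
      have hd : W.preΨ₄.eval x = -(W.Ψ₂Sq.eval x) ^ 2 := by
        apply mul_right_cancel₀ hT
        rw [hp]
        simp only [WeierstrassCurve.Ψ₂Sq, eval_add, eval_mul, eval_pow, eval_X, eval_C]
        ring
      rw [hd]
      exact mul_ne_zero (neg_ne_zero.mpr (pow_ne_zero 2 hT)) hs
  · -- m ≥ 4
    have hES := psiNat_ES h 2 (m - 3) (by omega) (by omega)
    rw [show 2 * 2 + (m - 3) = m + 1 by omega, show 2 + (m - 3) + 1 = m by omega,
      show 2 + (m - 3) - 1 = m - 2 by omega, show 2 + 1 = 3 from rfl, show 2 - 1 = 1 from rfl,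
      show 2 + (m - 3) = m - 1 by omega, hz, psiNat_one] at hES
    intro h0
    rw [h0] at hES
    have h3 : psiNat W x y 3 ≠ 0 := hne 3 (by omega) (by omega)
    have hm1 : psiNat W x y (m - 1) ≠ 0 := hne (m - 1) (by omega) (by omega)
    have : psiNat W x y 3 * psiNat W x y (m - 1) ^ 2 = 0 := by linear_combination hES
    exact (mul_ne_zero h3 (pow_ne_zero 2 hm1)) this

include hmP hmin hm2 in
/-- **Zeros of division polynomials**: `ψ_n(P) ≠ 0` if the exact order `m` of `P` does not
divide `n`. -/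
theorem psiNat_ne_of_not_dvd : ∀ n : ℕ, ¬ m ∣ n → psiNat W x y n ≠ 0 := by
  obtain ⟨hne, hz⟩ := psiNat_order_facts h m hm2 hmP hmin
  have hs := psiNat_succ_order_ne h m hm2 hmP hmin
  have hp : psiNat W x y (m - 1) ≠ 0 := hne (m - 1) (by omega) (by omega)
  intro n
  induction n using Nat.strong_induction_on with
  | _ n ih =>
    intro hdvd
    have hn0 : n ≠ 0 := fun h0 => hdvd (h0 ▸ dvd_zero m)
    rcases Nat.lt_or_ge n m with hlt | hge
    · exact hne n (by omega) hlt
    have hnm : n ≠ m := fun e => hdvd (e ▸ dvd_refl m)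
    rcases Nat.lt_or_ge n (2 * m) with hlt2 | hge2
    · -- n = m + b, 1 ≤ b < m; pair (b, k) with b + k = m
      set b := n - m with hb
      have hES := psiNat_ES h b (m - b) (by omega) (by omega)
      rw [show 2 * b + (m - b) = n by omega, show b + (m - b) + 1 = m + 1 by omega,
        show b + (m - b) - 1 = m - 1 by omega, show b + (m - b) = m by omega, hz] at hES
      intro h0
      rw [h0] at hES
      have hb0 : psiNat W x y b ≠ 0 := hne b (by omega) (by omega)
      have : psiNat W x y (m + 1) * psiNat W x y (m - 1) * psiNat W x y b ^ 2 = 0 := by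
        linear_combination -hES
      exact (mul_ne_zero (mul_ne_zero hs hp) (pow_ne_zero 2 hb0)) this
    · -- n = 2 m + k, k ≥ 1, m ∤ k
      set k := n - 2 * m with hk
      have hk1 : 1 ≤ k := by
        rcases Nat.eq_zero_or_pos k with h0 | h0
        · exfalso; apply hdvd; rw [show n = 2 * m by omega]; exact dvd_mul_left m 2
        · exact h0
      have hkd : ¬ m ∣ k := by
        intro hd
        apply hdvd
        rw [show n = k + 2 * m by omega]
        exact dvd_add hd (dvd_mul_left m 2)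
      have hmkd : ¬ m ∣ (m + k) := by
        intro hd
        exact hkd ((Nat.dvd_add_right (dvd_refl m)).mp hd)
      have hES := psiNat_ES h m k (by omega) hk1
      rw [show 2 * m + k = n by omega, hz] at hES
      have hk0 : psiNat W x y k ≠ 0 := ih k (by omega) hkd
      have hmk0 : psiNat W x y (m + k) ≠ 0 := ih (m + k) (by omega) hmkd
      intro h0
      rw [h0] at hES
      have : psiNat W x y (m + 1) * psiNat W x y (m - 1) * psiNat W x y (m + k) ^ 2 = 0 := by
        linear_combination hES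
      exact (mul_ne_zero (mul_ne_zero hs hp) (pow_ne_zero 2 hmk0)) this

end order

end Fermat.Agent.EC
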