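import Mathlib
import Fermat.Agent.EC.Tors_helper6_Order

set_option autoImplicit false
set_option linter.unusedSectionVars false

/-!
# Evaluation of `Φₙ`, `ΨSqₙ`, `preΨₙ` at points; the multiplication formula for `x`-coordinates
-/

namespace Fermat.Agent.EC

open WeierstrassCurve WeierstrassCurve.Affine Polynomial
open scoped Polynomial.Bivariate

variable {F : Type*} [Field F] [DecidableEq F] {W : Affine F}

theorem psiVal_sq {x y : F} (hxy : W.Equation x y) (n : ℤ) :
    psiVal W x y n ^ 2 = (W.ΨSq n).eval x := by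
  have h1 : CoordinateRing.mk W (W.ψ n ^ 2) = CoordinateRing.mk W (C (W.ΨSq n)) := by
    rw [map_pow, CoordinateRing.mk_ψ, CoordinateRing.mk_Ψ_sq]
  have := evalEval_eq_of_mk_eq h1 hxy
  rw [evalEval_C] at this
  rw [← this]
  unfold psiVal
  have e := map_pow (evalEvalRingHom x y) (W.ψ n) 2
  simpa only [coe_evalEvalRingHom] using e.symm

theorem eval_Φ {x y : F} (hxy : W.Equation x y) (n : ℤ) :
    (W.Φ n).eval x = x * psiVal W x y n ^ 2 - psiVal W x y (n + 1) * psiVal W x y (n - 1) := by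
  have h1 : CoordinateRing.mk W (W.φ n) = CoordinateRing.mk W (C (W.Φ n)) :=
    CoordinateRing.mk_φ W n
  have := evalEval_eq_of_mk_eq h1 hxy
  rw [evalEval_C] at this
  rw [← this]
  unfold psiVal WeierstrassCurve.φ
  have e1 := fun p q : F[X][Y] => map_mul (evalEvalRingHom x y) p q
  have e2 := fun p q : F[X][Y] => map_sub (evalEvalRingHom x y) p q
  have e3 := fun (p : F[X][Y]) (k : ℕ) => map_pow (evalEvalRingHom x y) p k
  simp only [coe_evalEvalRingHom] at e1 e2 e3
  rw [e2, e1, e1, e3, evalEval_C, eval_X]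

theorem psiVal_odd {x y : F} (hxy : W.Equation x y) {n : ℤ} (hn : ¬ Even n) :
    psiVal W x y n = (W.preΨ n).eval x := by
  have h1 : CoordinateRing.mk W (W.ψ n) = CoordinateRing.mk W (C (W.preΨ n)) := by
    rw [CoordinateRing.mk_ψ, WeierstrassCurve.Ψ, if_neg hn, mul_one]
  have := evalEval_eq_of_mk_eq h1 hxy
  rw [evalEval_C] at this
  exact this

/-- multiplication formula for the `x`-coordinate below the first zero -/
theorem xOf_nsmul_mul {x y : F} (h : W.Nonsingular x y) (N : ℕ) (hN1 : 1 ≤ N)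
    (hN : ∀ k, 1 ≤ k → k ≤ N → k • Point.some x y h ≠ 0) :
    (W.ΨSq N).eval x ≠ 0 ∧
      xOf (N • Point.some x y h) * (W.ΨSq N).eval x = (W.Φ N).eval x := by
  obtain ⟨hne, hrel, -⟩ := firstZero h N hN
  have h1 := hne N hN1 le_rfl
  have h2 := hrel N hN1 le_rfl
  rw [← psiVal_sq h.1, eval_Φ h.1]
  refine ⟨pow_ne_zero 2 h1, ?_⟩
  linear_combination h2

end Fermat.Agent.EC
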