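import Mathlib
import Fermat.Agent.EC.Tors_helper6_Eval

set_option autoImplicit false
set_option linter.unusedSectionVars false

/-!
# Upper bound `#E[p] ≤ p²` (any field in which `p ≠ 0`, `p` an odd prime)
-/

namespace Fermat.Agent.EC

open WeierstrassCurve WeierstrassCurve.Affine Polynomial

variable {F : Type*} [Field F] [DecidableEq F] {W : Affine F}

theorem nsmul_ne_zero_of_prime {p : ℕ} (hp : p.Prime) {P : W.Point} (hP : P ≠ 0)
    (hpP : p • P = 0) : ∀ k, 1 ≤ k → k < p → k • P ≠ 0 := by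
  intro k h1 hk hk0
  have d1 : addOrderOf P ∣ p := addOrderOf_dvd_of_nsmul_eq_zero hpP
  have d2 : addOrderOf P ∣ k := addOrderOf_dvd_of_nsmul_eq_zero hk0
  rcases (Nat.dvd_prime hp).mp d1 with e | e
  · exact hP (AddMonoid.addOrderOf_eq_one_iff.mp e)
  · rw [e] at d2
    exact absurd (Nat.le_of_dvd (by omega) d2) (by omega)

/-- a nonzero `p`-torsion point has `x`-coordinate a root of `preΨ_p` -/
theorem preΨ_eval_xOf_eq_zero {p : ℕ} (hp : p.Prime) (hodd : p ≠ 2) {P : W.Point} (hP : P ≠ 0)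
    (hpP : p • P = 0) : (W.preΨ p).eval (xOf P) = 0 := by
  rcases P with _ | ⟨x, y, h⟩
  · exact absurd rfl hP
  have hmin := nsmul_ne_zero_of_prime hp hP hpP
  have hN : ∀ k, 1 ≤ k → k ≤ p - 1 → k • Point.some x y h ≠ 0 :=
    fun k h1 h2 => hmin k h1 (by have := hp.two_le; omega)
  obtain ⟨-, -, hz⟩ := firstZero h (p - 1) hN
  have e : p - 1 + 1 = p := by have := hp.two_le; omega
  rw [e] at hz
  have h0 := hz.mpr hpP
  rw [show ((p - 1 : ℕ) : ℤ) + 1 = (p : ℤ) by have := hp.two_le; omega] at h0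
  have hodd' : ¬ Even (p : ℤ) := by
    rw [Int.even_coe_nat]
    exact fun he => hodd ((Nat.Prime.even_iff hp).mp he)
  rw [psiVal_odd h.1 hodd'] at h0
  exact h0

theorem natDegree_preΨ_prime {p : ℕ} (hodd : ¬ Even p) (hpF : (p : F) ≠ 0) :
    (W.preΨ (p : ℤ)).natDegree = (p ^ 2 - 1) / 2 := by
  have := WeierstrassCurve.natDegree_preΨ' W hpF
  rw [if_neg hodd] at this
  rw [WeierstrassCurve.preΨ_ofNat]
  exact this

open Classical in
/-- **Upper bound.** -/
theorem card_torsion_le {p : ℕ} (hp : p.Prime) (hodd : p ≠ 2) (hpF : (p : F) ≠ 0) :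
    Finite {P : W.Point // p • P = 0} ∧ Nat.card {P : W.Point // p • P = 0} ≤ p ^ 2 := by
  have hoddp : ¬ Even p := fun he => hodd ((Nat.Prime.even_iff hp).mp he)
  set R := (W.preΨ (p : ℤ)).roots.toFinset with hR
  have hpre : W.preΨ (p : ℤ) ≠ 0 := WeierstrassCurve.preΨ_ne_zero W (by exact_mod_cast hpF)
  have hRcard : R.card ≤ (p ^ 2 - 1) / 2 := by
    calc R.card ≤ (W.preΨ (p : ℤ)).roots.card := Multiset.toFinset_card_le _
      _ ≤ (W.preΨ (p : ℤ)).natDegree := Polynomial.card_roots' _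
      _ = (p ^ 2 - 1) / 2 := natDegree_preΨ_prime hoddp hpF
  -- representative points
  let rep : F → W.Point := fun x =>
    if hx : ∃ P : W.Point, P ≠ 0 ∧ xOf P = x then hx.choose else 0
  have hrep : ∀ P : W.Point, P ≠ 0 → rep (xOf P) ≠ 0 ∧ xOf (rep (xOf P)) = xOf P := by
    intro P hP
    have hx : ∃ P' : W.Point, P' ≠ 0 ∧ xOf P' = xOf P := ⟨P, hP, rfl⟩
    simp only [rep, dif_pos hx]
    exact hx.choose_spec
  let g : {P : W.Point // p • P = 0} → Option (R × Bool) := fun P =>
    if h0 : (P : W.Point) = 0 then none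
    else some (⟨xOf (P : W.Point), by
      rw [hR, Multiset.mem_toFinset, mem_roots hpre]
      exact preΨ_eval_xOf_eq_zero hp hodd h0 P.2⟩, decide ((P : W.Point) = rep (xOf (P : W.Point))))
  have hg : Function.Injective g := by
    rintro ⟨P, hP⟩ ⟨P', hP'⟩ hgg
    apply Subtype.ext
    show P = P'
    simp only [g] at hgg
    by_cases h0 : P = 0
    · by_cases h0' : P' = 0
      · rw [h0, h0']
      · rw [dif_pos h0, dif_neg h0'] at hgg
        exact absurd hgg (by simp)
    · by_cases h0' : P' = 0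
      · rw [dif_neg h0, dif_pos h0'] at hgg
        exact absurd hgg (by simp)
      · rw [dif_neg h0, dif_neg h0'] at hgg
        simp only [Option.some.injEq, Prod.mk.injEq, Subtype.mk.injEq, decide_eq_decide] at hgg
        obtain ⟨hx, hb⟩ := hgg
        obtain ⟨r0, rx⟩ := hrep P h0
        have e1 := (xOf_eq_iff h0 r0).mp rx.symm
        have e2 : P' = rep (xOf P) ∨ P' = -rep (xOf P) :=
          (xOf_eq_iff h0' r0).mp (by rw [rx, hx])
        rw [← hx] at hb
        rcases e1 with e1 | e1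
        · exact e1.trans (hb.mp e1).symm
        · rcases e2 with e2 | e2
          · exact (hb.mpr e2).trans e2.symm
          · exact e1.trans e2.symm
  have hfin : Finite {P : W.Point // p • P = 0} := Finite.of_injective g hg
  refine ⟨hfin, ?_⟩
  calc Nat.card {P : W.Point // p • P = 0} ≤ Nat.card (Option (R × Bool)) :=
        Nat.card_le_card_of_injective g hg
    _ = R.card * 2 + 1 := by
        rw [Nat.card_eq_fintype_card, Fintype.card_option, Fintype.card_prod, Fintype.card_coe,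
          Fintype.card_bool]
    _ ≤ (p ^ 2 - 1) / 2 * 2 + 1 := by omega
    _ ≤ p ^ 2 := by
        have : 1 ≤ p ^ 2 := Nat.one_le_pow _ _ hp.pos
        omega

end Fermat.Agent.EC
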