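import Mathlib
import Fermat.Agent.EC.Tors_helper6_CountLe

set_option autoImplicit false
set_option linter.unusedSectionVars false

/-!
# Lower bound `#E[p] ≥ p²` (algebraically closed field of characteristic zero, `Δ ≠ 0`)
-/

namespace Fermat.Agent.EC

open WeierstrassCurve WeierstrassCurve.Affine Polynomial

variable {F : Type*} [Field F] [DecidableEq F] {W : Affine F}

section existsY

variable [IsAlgClosed F]

theorem exists_equation (W : Affine F) (x : F) : ∃ y, W.Equation x y := by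
  have hdeg : (X ^ 2 + C (W.a₁ * x + W.a₃) * X - C (x ^ 3 + W.a₂ * x ^ 2 + W.a₄ * x + W.a₆)
      : F[X]).degree ≠ 0 := by
    have : (X ^ 2 + C (W.a₁ * x + W.a₃) * X - C (x ^ 3 + W.a₂ * x ^ 2 + W.a₄ * x + W.a₆)
      : F[X]).degree = 2 := by
      compute_degree!
    rw [this]; norm_num
  obtain ⟨y, hy⟩ := IsAlgClosed.exists_root _ hdeg
  refine ⟨y, ?_⟩
  rw [equation_iff]
  simp only [IsRoot.def, eval_sub, eval_add, eval_mul, eval_pow, eval_X, eval_C] at hy
  linear_combination hy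

theorem exists_nonsingular (hΔ : W.Δ ≠ 0) (x : F) : ∃ y, W.Nonsingular x y := by
  obtain ⟨y, hy⟩ := exists_equation W x
  exact ⟨y, (equation_iff_nonsingular_of_Δ_ne_zero hΔ).mp hy⟩

end existsY

section main

variable [IsAlgClosed F] [CharZero F] (hΔ : W.Δ ≠ 0) {p : ℕ} (hp : p.Prime) (hodd : p ≠ 2)

include hΔ hp hodd in
/-- `Φ_p` and `ΨSq_p` have no common root -/
theorem eval_Φ_ne_of_eval_ΨSq_eq (x₀ : F) (h0 : (W.ΨSq (p : ℤ)).eval x₀ = 0) :
    (W.Φ (p : ℤ)).eval x₀ ≠ 0 := by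
  obtain ⟨y₀, h⟩ := exists_nonsingular hΔ x₀
  have hpsi : psiVal W x₀ y₀ (p : ℤ) = 0 := by
    have := psiVal_sq h.1 (p : ℤ)
    rw [h0] at this
    exact pow_eq_zero_iff (two_ne_zero) |>.mp this
  -- `P₀` is a torsion point of order ≤ p
  have hex : ∃ k : ℕ, 1 ≤ k ∧ k • Point.some x₀ y₀ h = 0 := by
    by_contra hcon
    have hN : ∀ k, 1 ≤ k → k ≤ p → k • Point.some x₀ y₀ h ≠ 0 :=
      fun k h1 _ hk => hcon ⟨k, h1, hk⟩
    obtain ⟨hne, -, -⟩ := firstZero h p hN
    exact hne p hp.one_le le_rfl hpsi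
  set m := Nat.find hex with hm
  have hspec : 1 ≤ m ∧ m • Point.some x₀ y₀ h = 0 := Nat.find_spec hex
  obtain ⟨hm1, hmP⟩ := hspec
  have hmin : ∀ k, 1 ≤ k → k < m → k • Point.some x₀ y₀ h ≠ 0 := by
    intro k h1 hk hk0
    exact Nat.find_min hex hk ⟨h1, hk0⟩
  have hm2 : 2 ≤ m := by
    rcases Nat.lt_or_ge m 2 with hlt | hge
    · exfalso
      have : m = 1 := by omega
      rw [this, one_nsmul] at hmP
      exact Point.some_ne_zero _ hmP
    · exact hge
  have hA := psiNat_ne_of_not_dvd h m hm2 hmP hmin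
  have hdvd : m ∣ p := by
    by_contra hnd
    exact hA p hnd hpsi
  have hmp : m = p := by
    rcases (Nat.dvd_prime hp).mp hdvd with e | e
    · omega
    · exact e
  have h3 : 3 ≤ p := by
    have := hp.two_le
    omega
  have hs := hA (p + 1) (by
    rw [hmp]; intro hd
    have := (Nat.dvd_add_right (dvd_refl p)).mp hd
    have := Nat.le_of_dvd (by omega) this
    omega)
  have hpm := hA (p - 1) (by
    rw [hmp]; intro hd
    have := Nat.le_of_dvd (by omega) hd
    omega)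
  rw [eval_Φ h.1, hpsi]
  unfold psiNat at hs hpm
  rw [show ((p + 1 : ℕ) : ℤ) = (p : ℤ) + 1 by push_cast; ring] at hs
  rw [show ((p - 1 : ℕ) : ℤ) = (p : ℤ) - 1 by omega] at hpm
  simpa using mul_ne_zero hs hpm

/-- `x`-coordinates of points of order at most `p` -/
def lowTorsX (W : Affine F) (p : ℕ) : Set F :=
  {x₀ | ∃ (y₀ : F) (h : W.Nonsingular x₀ y₀) (k : ℕ), 1 ≤ k ∧ k ≤ p ∧ k • Point.some x₀ y₀ h = 0}

omit [IsAlgClosed F] in
theorem lowTorsX_finite (p : ℕ) : (lowTorsX W p).Finite := by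
  have hsub : lowTorsX W p ⊆ ⋃ m ∈ Finset.Icc 2 p, ((W.ΨSq (m : ℤ)).roots.toFinset : Set F) := by
    rintro x₀ ⟨y₀, h, k, hk1, hkp, hk0⟩
    have hex : ∃ k : ℕ, 1 ≤ k ∧ k • Point.some x₀ y₀ h = 0 := ⟨k, hk1, hk0⟩
    set m := Nat.find hex with hm
    have hspec : 1 ≤ m ∧ m • Point.some x₀ y₀ h = 0 := Nat.find_spec hex
    obtain ⟨hm1, hmP⟩ := hspec
    have hmk : m ≤ k := Nat.find_min' hex ⟨hk1, hk0⟩
    have hmin : ∀ k, 1 ≤ k → k < m → k • Point.some x₀ y₀ h ≠ 0 := by
      intro k h1 hk hk0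
      exact Nat.find_min hex hk ⟨h1, hk0⟩
    have hm2 : 2 ≤ m := by
      rcases Nat.lt_or_ge m 2 with hlt | hge
      · exfalso
        have : m = 1 := by omega
        rw [this, one_nsmul] at hmP
        exact Point.some_ne_zero _ hmP
      · exact hge
    obtain ⟨-, hz⟩ := psiNat_order_facts h m hm2 hmP hmin
    simp only [Set.mem_iUnion, Finset.mem_coe, Multiset.mem_toFinset, Finset.mem_Icc]
    refine ⟨m, ⟨hm2, by omega⟩, ?_⟩
    have hne : W.ΨSq (m : ℤ) ≠ 0 := WeierstrassCurve.ΨSq_ne_zero W (by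
      have : (m : F) ≠ 0 := Nat.cast_ne_zero.mpr (by omega)
      exact_mod_cast this)
    rw [mem_roots hne, IsRoot.def, ← psiVal_sq h.1]
    unfold psiNat at hz
    rw [hz]; ring
  refine Set.Finite.subset ?_ hsub
  exact Set.Finite.biUnion (Finset.finite_toSet _) (fun m _ => Finset.finite_toSet _)

omit [IsAlgClosed F] [DecidableEq F] in
include hp in
/-- the Wronskian of `Φ_p`, `ΨSq_p` is nonzero -/
theorem wronskian_ne_zero (W : Affine F) :
    derivative (W.Φ (p : ℤ)) * W.ΨSq (p : ℤ) - W.Φ (p : ℤ) * derivative (W.ΨSq (p : ℤ)) ≠ 0 := by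
  intro h0
  have hpF : ((p : ℤ) : F) ≠ 0 := by
    have : (p : F) ≠ 0 := Nat.cast_ne_zero.mpr hp.ne_zero
    exact_mod_cast this
  have e : derivative (W.Φ (p : ℤ)) * W.ΨSq (p : ℤ) = W.Φ (p : ℤ) * derivative (W.ΨSq (p : ℤ)) :=
    sub_eq_zero.mp h0
  have hl := congrArg leadingCoeff e
  rw [leadingCoeff_mul, leadingCoeff_mul, leadingCoeff_derivative, leadingCoeff_derivative,
    WeierstrassCurve.leadingCoeff_Φ, WeierstrassCurve.leadingCoeff_ΨSq W hpF,
    WeierstrassCurve.natDegree_Φ, WeierstrassCurve.natDegree_ΨSq W hpF] at hl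
  simp only [Int.natAbs_natCast, one_mul, Int.cast_natCast] at hl
  have h1 : 1 ≤ p ^ 2 := Nat.one_le_pow _ _ hp.pos
  rw [Nat.cast_sub h1] at hl
  push_cast at hl
  have hp2 : (p : F) ^ 2 ≠ 0 := pow_ne_zero 2 (Nat.cast_ne_zero.mpr hp.ne_zero)
  apply hp2
  linear_combination hl

include hΔ hp hodd in
open Classical in
/-- **Lower bound**: there are at least `p²` points killed by `p`. -/
theorem card_torsion_ge : p ^ 2 ≤ Nat.card {P : W.Point // p • P = 0} := by
  have hpF : (p : F) ≠ 0 := Nat.cast_ne_zero.mpr hp.ne_zero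
  have hpF' : ((p : ℤ) : F) ≠ 0 := by exact_mod_cast hpF
  obtain ⟨hfin, -⟩ := card_torsion_le (W := W) hp hodd hpF
  set Φ := W.Φ (p : ℤ) with hΦ
  set Ψ := W.ΨSq (p : ℤ) with hΨ
  set Wr := derivative Φ * Ψ - Φ * derivative Ψ with hWr
  have hWr0 : Wr ≠ 0 := wronskian_ne_zero hp W
  have hC1 : ∀ x₀, Ψ.eval x₀ = 0 → Φ.eval x₀ ≠ 0 := eval_Φ_ne_of_eval_ΨSq_eq hΔ hp hodd
  -- bad `x` and bad `c`
  have hBX : (lowTorsX W p ∪ (Wr.roots.toFinset : Set F)).Finite :=
    (lowTorsX_finite p).union (Finset.finite_toSet _)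
  have hBC : ((fun z => Φ.eval z / Ψ.eval z) '' (lowTorsX W p ∪ (Wr.roots.toFinset : Set F))).Finite :=
    hBX.image _
  obtain ⟨c, hc⟩ := Infinite.exists_notMem_finset hBC.toFinset
  rw [Set.Finite.mem_toFinset] at hc
  -- the polynomial `G_c`
  set G := Φ - C c * Ψ with hG
  have hΦdeg : Φ.natDegree = p ^ 2 := by
    rw [hΦ, WeierstrassCurve.natDegree_Φ]; simp
  have hΨdeg : Ψ.natDegree = p ^ 2 - 1 := by
    rw [hΨ, WeierstrassCurve.natDegree_ΨSq W hpF']; simp
  have h1 : 1 ≤ p ^ 2 := Nat.one_le_pow _ _ hp.pos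
  have hΦmonic : Φ.Monic := WeierstrassCurve.leadingCoeff_Φ W _
  have hdeglt : (C c * Ψ).natDegree < Φ.natDegree := by
    calc (C c * Ψ).natDegree ≤ Ψ.natDegree := natDegree_C_mul_le _ _
      _ < Φ.natDegree := by rw [hΦdeg, hΨdeg]; omega
  have hGdeg : G.natDegree = p ^ 2 := by
    rw [hG, natDegree_sub_eq_left_of_natDegree_lt hdeglt, hΦdeg]
  have hG0 : G ≠ 0 := by
    intro h0
    rw [h0, natDegree_zero] at hGdeg
    omega
  -- properties of roots
  have hroot : ∀ z, G.IsRoot z → Ψ.eval z ≠ 0 ∧ c = Φ.eval z / Ψ.eval z ∧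
      z ∉ lowTorsX W p ∧ Wr.eval z ≠ 0 := by
    intro z hz
    rw [IsRoot.def, hG, eval_sub, eval_mul, eval_C, sub_eq_zero] at hz
    have hΨz : Ψ.eval z ≠ 0 := by
      intro h0
      rw [h0, mul_zero] at hz
      exact hC1 z h0 hz
    have hcz : c = Φ.eval z / Ψ.eval z := by
      rw [eq_div_iff hΨz]; exact hz.symm
    refine ⟨hΨz, hcz, ?_, ?_⟩
    · intro hB
      exact hc ⟨z, Or.inl hB, hcz.symm⟩
    · intro hW
      apply hc
      refine ⟨z, Or.inr ?_, hcz.symm⟩
      rw [Finset.mem_coe, Multiset.mem_toFinset, mem_roots hWr0]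
      exact hW
  -- separability
  have hnodup : G.roots.Nodup := by
    rw [Multiset.nodup_iff_count_le_one]
    intro z
    rw [count_roots]
    by_contra hgt
    have hgt' : 1 < G.rootMultiplicity z := by omega
    obtain ⟨hz, hdz⟩ := (one_lt_rootMultiplicity_iff_isRoot hG0).mp hgt'
    obtain ⟨hΨz, hcz, -, hWz⟩ := hroot z hz
    apply hWz
    rw [IsRoot.def, hG, derivative_sub, derivative_mul, derivative_C, zero_mul, zero_add,
      eval_sub, eval_mul, eval_C, sub_eq_zero] at hdz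
    rw [IsRoot.def, hG, eval_sub, eval_mul, eval_C, sub_eq_zero] at hz
    rw [hWr, eval_sub, eval_mul, eval_mul, hdz, hz]
    ring
  have hcard : G.roots.toFinset.card = p ^ 2 := by
    rw [Multiset.toFinset_card_of_nodup hnodup, ← hGdeg]
    exact splits_iff_card_roots.mp (IsAlgClosed.splits G)
  -- the target point `Q`
  obtain ⟨d, hd⟩ := exists_nonsingular hΔ c
  set Q := Point.some c d hd with hQ
  have hQ0 : Q ≠ 0 := Point.some_ne_zero _
  -- preimages
  have hpre : ∀ z ∈ G.roots.toFinset, ∃ P' : W.Point, xOf P' = z ∧ p • P' = Q := by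
    intro z hz
    rw [Multiset.mem_toFinset, mem_roots hG0] at hz
    obtain ⟨hΨz, hcz, hB, -⟩ := hroot z hz
    obtain ⟨y, h⟩ := exists_nonsingular hΔ z
    have hN : ∀ k, 1 ≤ k → k ≤ p → k • Point.some z y h ≠ 0 := by
      intro k h1 hk hk0
      exact hB ⟨y, h, k, h1, hk, hk0⟩
    obtain ⟨-, hmul⟩ := xOf_nsmul_mul h p hp.one_le hN
    have hx : xOf (p • Point.some z y h) = xOf Q := by
      rw [hQ, xOf_some, hcz, eq_div_iff hΨz]
      exact hmul
    rcases (xOf_eq_iff (hN p hp.one_le le_rfl) hQ0).mp hx with e | e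
    · exact ⟨Point.some z y h, rfl, e⟩
    · refine ⟨-Point.some z y h, by rw [xOf_neg, xOf_some], ?_⟩
      rw [smul_neg, e, neg_neg]
  choose! f hf using hpre
  -- a base root
  have hne : G.roots.toFinset.Nonempty := by
    rw [← Finset.card_pos, hcard]; omega
  obtain ⟨z₀, hz₀⟩ := hne
  let g : G.roots.toFinset → {P : W.Point // p • P = 0} := fun z =>
    ⟨f z - f z₀, by rw [smul_sub, (hf z z.2).2, (hf z₀ hz₀).2, sub_self]⟩
  have hg : Function.Injective g := by
    intro z z' hzz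
    have h1 : f z - f z₀ = f z' - f z₀ := congrArg Subtype.val hzz
    have h2 : f (z : F) = f (z' : F) := sub_left_injective h1
    apply Subtype.ext
    rw [← (hf z z.2).1, ← (hf z' z'.2).1, h2]
  calc p ^ 2 = Nat.card G.roots.toFinset := by
        rw [Nat.card_eq_fintype_card, Fintype.card_coe, hcard]
    _ ≤ Nat.card {P : W.Point // p • P = 0} := Nat.card_le_card_of_injective g hg

include hΔ hp hodd in
/-- **`#E[p] = p²`** over an algebraically closed field of characteristic zero. -/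
theorem card_torsion_eq : Nat.card {P : W.Point // p • P = 0} = p ^ 2 :=
  le_antisymm (card_torsion_le hp hodd (Nat.cast_ne_zero.mpr hp.ne_zero)).2
    (card_torsion_ge hΔ hp hodd)

end main

end Fermat.Agent.EC
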