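import Mathlib
import Fermat.Agent.EC.Tors_helper6_CountGe

set_option autoImplicit false
set_option linter.unusedSectionVars false
set_option linter.unusedVariables false

/-!
# `p`-divisibility of `E(F)` (`F` algebraically closed of characteristic zero, `Δ ≠ 0`, `p` an odd
prime), S58 (E1), helper4

Generic points are `p`-divisible by the multiplication formula below the first zero
(`xOf_nsmul_mul`); the subgroup `p·E(F)` is therefore cofinite in the infinite group `E(F)`, hence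
everything.
-/

namespace Fermat.Agent.EC

open WeierstrassCurve WeierstrassCurve.Affine Polynomial

variable {F : Type*} [Field F] [DecidableEq F] {W : Affine F}

section main

variable [IsAlgClosed F] [CharZero F] (hΔ : W.Δ ≠ 0) {p : ℕ} (hp : p.Prime) (hodd : p ≠ 2)

include hΔ hp hodd in
/-- **generic divisibility**: outside a finite set of `x`-coordinates every point is `p` times a
point -/
theorem exists_nsmul_eq_of_generic :
    ∃ B : Set F, B.Finite ∧ ∀ (c d : F) (h : W.Nonsingular c d), c ∉ B →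
      ∃ Q : W.Point, p • Q = Point.some c d h := by
  have hpF : (p : F) ≠ 0 := Nat.cast_ne_zero.mpr hp.ne_zero
  have hpF' : ((p : ℤ) : F) ≠ 0 := by exact_mod_cast hpF
  set Φ := W.Φ (p : ℤ) with hΦ
  set Ψ := W.ΨSq (p : ℤ) with hΨ
  have hC1 : ∀ x₀, Ψ.eval x₀ = 0 → Φ.eval x₀ ≠ 0 := eval_Φ_ne_of_eval_ΨSq_eq hΔ hp hodd
  refine ⟨(fun z => Φ.eval z / Ψ.eval z) '' (lowTorsX W p), (lowTorsX_finite p).image _, ?_⟩
  intro c d hd hc
  -- the polynomial `G_c`
  set G := Φ - C c * Ψ with hG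
  have hΦdeg : Φ.natDegree = p ^ 2 := by
    rw [hΦ, WeierstrassCurve.natDegree_Φ]; simp
  have hΨdeg : Ψ.natDegree = p ^ 2 - 1 := by
    rw [hΨ, WeierstrassCurve.natDegree_ΨSq W hpF']; simp
  have h1 : 1 ≤ p ^ 2 := Nat.one_le_pow _ _ hp.pos
  have hdeglt : (C c * Ψ).natDegree < Φ.natDegree := by
    calc (C c * Ψ).natDegree ≤ Ψ.natDegree := natDegree_C_mul_le _ _
      _ < Φ.natDegree := by rw [hΦdeg, hΨdeg]; omega
  have hGdeg : G.natDegree = p ^ 2 := by
    rw [hG, natDegree_sub_eq_left_of_natDegree_lt hdeglt, hΦdeg]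
  have hGdeg0 : G.degree ≠ 0 := by
    intro h0
    have h2 : G.natDegree = 0 := natDegree_eq_zero_iff_degree_le_zero.2 h0.le
    rw [hGdeg] at h2
    omega
  obtain ⟨z, hz⟩ := IsAlgClosed.exists_root G hGdeg0
  rw [IsRoot.def, hG, eval_sub, eval_mul, eval_C, sub_eq_zero] at hz
  have hΨz : Ψ.eval z ≠ 0 := by
    intro h0
    rw [h0, mul_zero] at hz
    exact hC1 z h0 hz
  have hcz : c = Φ.eval z / Ψ.eval z := by
    rw [eq_div_iff hΨz]; exact hz.symm
  have hB : z ∉ lowTorsX W p := fun hB => hc ⟨z, hB, hcz.symm⟩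
  obtain ⟨y, h⟩ := exists_nonsingular hΔ z
  have hN : ∀ k, 1 ≤ k → k ≤ p → k • Point.some z y h ≠ 0 := by
    intro k h1 hk hk0
    exact hB ⟨y, h, k, h1, hk, hk0⟩
  obtain ⟨-, hmul⟩ := xOf_nsmul_mul h p hp.one_le hN
  have hQ0 : Point.some c d hd ≠ 0 := Point.some_ne_zero _
  have hx : xOf (p • Point.some z y h) = xOf (Point.some c d hd) := by
    rw [xOf_some, hcz, eq_div_iff hΨz]
    exact hmul
  rcases (xOf_eq_iff (hN p hp.one_le le_rfl) hQ0).mp hx with e | e
  · exact ⟨Point.some z y h, e⟩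
  · exact ⟨-Point.some z y h, by rw [smul_neg, e, neg_neg]⟩

include hΔ hp hodd in
/-- **`E(F)` is `p`-divisible** (`F` algebraically closed of characteristic zero, `p` an odd
prime). -/
theorem exists_nsmul_eq (S : W.Point) : ∃ Q : W.Point, p • Q = S := by
  classical
  obtain ⟨B, hBfin, hB⟩ := exists_nsmul_eq_of_generic hΔ hp hodd
  -- divisible points form a subgroup
  have hD0 : ∃ Q : W.Point, p • Q = 0 := ⟨0, smul_zero p⟩
  have hDadd : ∀ S₁ S₂ : W.Point, (∃ Q, p • Q = S₁) → (∃ Q, p • Q = S₂) → ∃ Q, p • Q = S₁ + S₂ := by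
    rintro S₁ S₂ ⟨Q₁, rfl⟩ ⟨Q₂, rfl⟩
    exact ⟨Q₁ + Q₂, smul_add p Q₁ Q₂⟩
  have hDgen : ∀ T : W.Point, T ≠ 0 → xOf T ∉ B → ∃ Q, p • Q = T := by
    intro T hT hx
    rcases T with _ | ⟨c, d, h⟩
    · exact absurd rfl hT
    · exact hB c d h hx
  -- representatives of the bad `x`-coordinates
  have hrep : ∀ b : F, ∃ R : W.Point, R ≠ 0 ∧ xOf R = b := by
    intro b
    obtain ⟨y, h⟩ := exists_nonsingular hΔ b
    exact ⟨Point.some b y h, Point.some_ne_zero _, rfl⟩
  choose R hR0 hRx using hrep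
  -- the excluded parameters
  have hexcl : (B ∪ {xOf S} ∪ (fun b => xOf (S - R b)) '' B ∪ (fun b => xOf (S + R b)) '' B).Finite :=
    ((hBfin.union (Set.finite_singleton _)).union (hBfin.image _)).union (hBfin.image _)
  obtain ⟨t, ht⟩ := Infinite.exists_notMem_finset hexcl.toFinset
  rw [Set.Finite.mem_toFinset] at ht
  have ht1 : t ∉ B := fun h => ht (Or.inl (Or.inl (Or.inl h)))
  have ht2 : t ≠ xOf S := fun h => ht (Or.inl (Or.inl (Or.inr h)))
  have ht3 : ∀ b ∈ B, t ≠ xOf (S - R b) := fun b hb h => ht (Or.inl (Or.inr ⟨b, hb, h.symm⟩))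
  have ht4 : ∀ b ∈ B, t ≠ xOf (S + R b) := fun b hb h => ht (Or.inr ⟨b, hb, h.symm⟩)
  obtain ⟨y, h⟩ := exists_nonsingular hΔ t
  set T := Point.some t y h with hT
  have hT0 : T ≠ 0 := Point.some_ne_zero _
  have hTD : ∃ Q, p • Q = T := hDgen T hT0 ht1
  -- `S - T` is generic as well
  have hST0 : S - T ≠ 0 := by
    intro h0
    have : S = T := sub_eq_zero.mp h0
    exact ht2 (by rw [this]; rfl)
  have key : ∀ b ∈ B, xOf (S - T) ≠ b := by
    intro b hb hxb
    have hx : xOf (S - T) = xOf (R b) := by rw [hRx, hxb]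
    rcases (xOf_eq_iff hST0 (hR0 b)).mp hx with e | e
    · have h3 : T = S - R b := by rw [← e]; abel
      exact ht3 b hb (by rw [← h3]; rfl)
    · have h3 : T = S + R b := by
        have h4 : T = S - (S - T) := by abel
        rw [h4, e]; abel
      exact ht4 b hb (by rw [← h3]; rfl)
  have hSTx : xOf (S - T) ∉ B := fun hb => key _ hb rfl
  have hSTD : ∃ Q, p • Q = S - T := hDgen (S - T) hST0 hSTx
  have := hDadd (S - T) T hSTD hTD
  rwa [sub_add_cancel] at this

end main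

end Fermat.Agent.EC
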