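import Mathlib
import Fermat.Agent.EC.TorsDiv_helper4
import Fermat.Prelude.Def_FLTPrelim_GaloisRep

set_option autoImplicit false
set_option linter.unusedSectionVars false
set_option linter.unusedVariables false

/-!
# (E1) for `E(ℚ̄)`: `#E[λ] = λ²` and `λ`-divisibility, in the shapes consumed by the S58 assembly
(helper4)
-/

namespace Fermat.Agent.EC

open WeierstrassCurve WeierstrassCurve.Affine
open scoped WeierstrassCurve.Affine

/-- `Ω = AlgebraicClosure ℚ`. -/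
local notation "Ω" => AlgebraicClosure ℚ

theorem qbar_Δ_ne_zero (W : WeierstrassCurve ℤ) (hΔ : W.Δ ≠ 0) : (W⁄Ω).Δ ≠ 0 := by
  show (W.map (algebraMap ℤ Ω)).Δ ≠ 0
  rw [WeierstrassCurve.map_Δ]
  intro h
  apply hΔ
  have hinj : Function.Injective (algebraMap ℤ Ω) := (algebraMap ℤ Ω).injective_int
  exact hinj (by rw [h, map_zero])

/-- **(E1), cardinality**: `#E[λ](ℚ̄) = λ²` for an odd prime `λ` -/
theorem qbar_card_torsion (W : WeierstrassCurve ℤ) (hΔ : W.Δ ≠ 0) {lam : ℕ} (hlam : lam.Prime)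
    (hlam2 : lam ≠ 2) : Nat.card {P : (W⁄Ω).Point // lam • P = 0} = lam ^ 2 :=
  card_torsion_eq (W := (W⁄Ω).toAffine) (qbar_Δ_ne_zero W hΔ) hlam hlam2

/-- **(E1), divisibility**: `E(ℚ̄)` is `λ`-divisible for an odd prime `λ` -/
theorem qbar_divisible (W : WeierstrassCurve ℤ) (hΔ : W.Δ ≠ 0) {lam : ℕ} (hlam : lam.Prime)
    (hlam2 : lam ≠ 2) (P : (W⁄Ω).Point) : ∃ Q : (W⁄Ω).Point, lam • Q = P :=
  exists_nsmul_eq (W := (W⁄Ω).toAffine) (qbar_Δ_ne_zero W hΔ) hlam hlam2 P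

end Fermat.Agent.EC
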