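import Mathlib

set_option autoImplicit false

/-!
# Degree of a rational function (shared definition for the Frobenius-trace work, S58 (E3))
-/

namespace Fermat.Agent.EC

open Polynomial

variable {k : Type*} [Field k]

/-- the degree of a rational function `r = p/q` (lowest terms): `max (deg p) (deg q)` -/
noncomputable def ratDeg (r : RatFunc k) : ℕ := max r.num.natDegree r.denom.natDegree

theorem ratDeg_def (r : RatFunc k) : ratDeg r = max r.num.natDegree r.denom.natDegree := rfl

end Fermat.Agent.EC
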