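/-
S58 (E3), package (E₂) — helper1 — **the point count at `ℓ = 2`, part 1: degrees.**

* `frob2_ratDeg_div` : `ratDeg (p / q) = max (deg p) (deg q)` for coprime `p`, `q`;
* `frob2_min_rootMultiplicity_*` : the truncated root multiplicity `min 2 (mult_a p)` read off from
  `p(a)` and `p'(a)`;
* `frob2_ratDeg_two_points` : the degree of `p / ((X - a)² (X - b)²)`.
-/
import Mathlib
import Fermat.Agent.EC.Deg_helper6_Def

set_option autoImplicit false

namespace Fermat.Agent.EC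

open Polynomial

variable {k : Type*} [Field k]

/-- the degree of `p / q` for coprime `p`, `q`. -/
theorem frob2_ratDeg_div {p q : k[X]} (hq : q ≠ 0) (hpq : IsCoprime p q) :
    ratDeg (algebraMap k[X] (RatFunc k) p / algebraMap k[X] (RatFunc k) q) =
      max p.natDegree q.natDegree := by
  set r := algebraMap k[X] (RatFunc k) p / algebraMap k[X] (RatFunc k) q with hr
  have h1 : r.num * q = p * r.denom := (RatFunc.num_mul_eq_mul_denom_iff hq).mpr hr
  have hc : IsCoprime r.num r.denom := RatFunc.isCoprime_num_denom r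
  have a1 : Associated p r.num :=
    associated_of_dvd_dvd (hpq.dvd_of_dvd_mul_right ⟨r.denom, h1⟩)
      (hc.dvd_of_dvd_mul_right ⟨q, h1.symm⟩)
  have a2 : Associated q r.denom :=
    associated_of_dvd_dvd (hpq.symm.dvd_of_dvd_mul_left ⟨r.num, by rw [← h1, mul_comm]⟩)
      (hc.symm.dvd_of_dvd_mul_left ⟨p, by rw [h1, mul_comm]⟩)
  rw [ratDeg, natDegree_eq_of_degree_eq (degree_eq_degree_of_associated a1),
    natDegree_eq_of_degree_eq (degree_eq_degree_of_associated a2)]

theorem frob2_min_rootMultiplicity_zero (p : k[X]) (a : k) (h : p.eval a ≠ 0) :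
    min 2 (p.rootMultiplicity a) = 0 := by
  rw [rootMultiplicity_eq_zero (by simpa [IsRoot] using h)]
  rfl

theorem frob2_min_rootMultiplicity_one (p : k[X]) (hp : p ≠ 0) (a : k) (h : p.eval a = 0)
    (h' : (derivative p).eval a ≠ 0) : min 2 (p.rootMultiplicity a) = 1 := by
  have h1 : 0 < p.rootMultiplicity a := (rootMultiplicity_pos hp).mpr h
  have h2 : ¬ 1 < p.rootMultiplicity a := by
    rw [one_lt_rootMultiplicity_iff_isRoot hp]
    rintro ⟨-, h3⟩
    exact h' h3
  omega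

theorem frob2_min_rootMultiplicity_two (p : k[X]) (hp : p ≠ 0) (a : k) (h : p.eval a = 0)
    (h' : (derivative p).eval a = 0) : min 2 (p.rootMultiplicity a) = 2 := by
  have h2 : 1 < p.rootMultiplicity a := (one_lt_rootMultiplicity_iff_isRoot hp).mpr ⟨h, h'⟩
  omega

/-- auxiliary: the cofactor of `(X - a)^m` in `p`, `m = min 2 (mult_a p)`, is coprime to
`(X - a)^(2 - m)`. -/
theorem frob2_isCoprime_cofactor (p : k[X]) (hp : p ≠ 0) (a : k) (G n₀ : k[X])
    (hG : p = (X - C a) ^ min 2 (p.rootMultiplicity a) * G * n₀) :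
    IsCoprime n₀ ((X - C a) ^ (2 - min 2 (p.rootMultiplicity a))) := by
  rcases le_or_gt 2 (p.rootMultiplicity a) with h | h
  · rw [min_eq_left h, Nat.sub_self, pow_zero]
    exact isCoprime_one_right
  · rw [min_eq_right h.le] at hG ⊢
    refine IsCoprime.pow_right (IsCoprime.symm ?_)
    rw [(irreducible_X_sub_C a).coprime_iff_not_dvd]
    rintro ⟨c, hc⟩
    have : (X - C a) ^ (p.rootMultiplicity a + 1) ∣ p := by
      refine ⟨G * c, ?_⟩
      conv_lhs => rw [hG, hc]
      ring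
    have := (le_rootMultiplicity_iff hp).mpr this
    omega

/-- **the degree of `p / ((X - a)² (X - b)²)`.** -/
theorem frob2_ratDeg_two_points (p : k[X]) (hp : p ≠ 0) (a b : k) (hab : a ≠ b) :
    ratDeg (algebraMap k[X] (RatFunc k) p /
        algebraMap k[X] (RatFunc k) ((X - C a) ^ 2 * (X - C b) ^ 2)) =
      max (p.natDegree - min 2 (p.rootMultiplicity a) - min 2 (p.rootMultiplicity b))
        (4 - min 2 (p.rootMultiplicity a) - min 2 (p.rootMultiplicity b)) := by
  set m := min 2 (p.rootMultiplicity a) with hm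
  set m' := min 2 (p.rootMultiplicity b) with hm'
  have hm2 : m ≤ 2 := min_le_left _ _
  have hm2' : m' ≤ 2 := min_le_left _ _
  have d1 : (X - C a) ^ m ∣ p :=
    (pow_dvd_pow _ (min_le_right _ _)).trans (pow_rootMultiplicity_dvd p a)
  have d2 : (X - C b) ^ m' ∣ p :=
    (pow_dvd_pow _ (min_le_right _ _)).trans (pow_rootMultiplicity_dvd p b)
  have hcop : IsCoprime (X - C a : k[X]) (X - C b) :=
    isCoprime_X_sub_C_of_isUnit_sub (sub_ne_zero.mpr hab).isUnit
  obtain ⟨n₀, hn₀⟩ := (hcop.pow (m := m) (n := m')).mul_dvd d1 d2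
  have c1 : IsCoprime n₀ ((X - C a) ^ (2 - m)) :=
    frob2_isCoprime_cofactor p hp a ((X - C b) ^ m') n₀ hn₀
  have c2 : IsCoprime n₀ ((X - C b) ^ (2 - m')) :=
    frob2_isCoprime_cofactor p hp b ((X - C a) ^ m) n₀ (hn₀.trans (by ring))
  obtain ⟨G, hG⟩ : ∃ G : k[X], G = (X - C a) ^ m * (X - C b) ^ m' := ⟨_, rfl⟩
  obtain ⟨d₀, hd₀⟩ : ∃ d₀ : k[X], d₀ = (X - C a) ^ (2 - m) * (X - C b) ^ (2 - m') := ⟨_, rfl⟩
  rw [← hG] at hn₀
  have hXa : (X - C a : k[X]) ≠ 0 := X_sub_C_ne_zero a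
  have hXb : (X - C b : k[X]) ≠ 0 := X_sub_C_ne_zero b
  have hG0 : G ≠ 0 := hG ▸ mul_ne_zero (pow_ne_zero _ hXa) (pow_ne_zero _ hXb)
  have hd0 : d₀ ≠ 0 := hd₀ ▸ mul_ne_zero (pow_ne_zero _ hXa) (pow_ne_zero _ hXb)
  have hn0 : n₀ ≠ 0 := by
    rintro rfl
    exact hp (by rw [hn₀, mul_zero])
  have hD : (X - C a) ^ 2 * (X - C b) ^ 2 = G * d₀ := by
    have e1 : (X - C a : k[X]) ^ 2 = (X - C a) ^ m * (X - C a) ^ (2 - m) := by
      rw [← pow_add, Nat.add_sub_cancel' hm2]
    have e2 : (X - C b : k[X]) ^ 2 = (X - C b) ^ m' * (X - C b) ^ (2 - m') := by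
      rw [← pow_add, Nat.add_sub_cancel' hm2']
    rw [e1, e2, hG, hd₀]
    ring
  have hGdeg : G.natDegree = m + m' := by
    rw [hG, natDegree_mul (pow_ne_zero _ hXa) (pow_ne_zero _ hXb), natDegree_pow, natDegree_pow,
      natDegree_X_sub_C, natDegree_X_sub_C, mul_one, mul_one]
  have hddeg : d₀.natDegree = (2 - m) + (2 - m') := by
    rw [hd₀, natDegree_mul (pow_ne_zero _ hXa) (pow_ne_zero _ hXb), natDegree_pow, natDegree_pow,
      natDegree_X_sub_C, natDegree_X_sub_C, mul_one, mul_one]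
  have hpdeg : p.natDegree = (m + m') + n₀.natDegree := by
    rw [hn₀, natDegree_mul hG0 hn0, hGdeg]
  have hinj : Function.Injective (algebraMap k[X] (RatFunc k)) :=
    RatFunc.algebraMap_injective k
  have hGR : algebraMap k[X] (RatFunc k) G ≠ 0 := by
    rwa [Ne, map_eq_zero_iff _ hinj]
  rw [hD, hn₀, map_mul _ G n₀, map_mul _ G d₀, mul_div_mul_left _ _ hGR,
    frob2_ratDeg_div hd0 ?_, ← hn₀, hddeg, hpdeg]
  · congr 1 <;> omega
  · rw [hd₀]
    exact c1.mul_right c2

end Fermat.Agent.EC
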