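/-
S58 (E3), package (E₂) — helper1 — **the point count at `ℓ = 2`.**

For `W₀ : WeierstrassCurve (ZMod 2)` with `Δ ≠ 0` and any field `k ⊇ 𝔽₂`: the rational function
`x(P₀ - φ P₀) = n / (X - X²)² ∈ k(X)` has degree `#W₀(𝔽₂)`:
`frob2_ratDeg_poly` (polynomial form), `ratDeg_frob_two` (written out in `RatFunc k`).
-/
import Mathlib
import Fermat.Agent.EC.Deg_helper6_Def
import Fermat.Agent.EC.FrobCount2_helper1_Deg
import Fermat.Agent.EC.FrobCount2_helper1_Num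

set_option autoImplicit false

namespace Fermat.Agent.EC

open Polynomial

/-- the truncated multiplicity read off from the value and the value of the derivative. -/
def frob2Mult (e e' : ZMod 2) : ℕ := if e ≠ 0 then 0 else if e' ≠ 0 then 1 else 2

/-- the affine solutions over `𝔽₂`. -/
def frob2Sol (a₁ a₂ a₃ a₄ a₆ : ZMod 2) : Finset (ZMod 2 × ZMod 2) :=
  Finset.univ.filter fun p =>
    p.2 ^ 2 + a₁ * p.1 * p.2 + a₃ * p.2 = p.1 ^ 3 + a₂ * p.1 ^ 2 + a₄ * p.1 + a₆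

/-- the finite check: `5 - m₀ - m₁ = 1 + #affine solutions`. -/
theorem frob2_decide : ∀ a₁ a₂ a₃ a₄ a₆ : ZMod 2,
    (⟨a₁, a₂, a₃, a₄, a₆⟩ : WeierstrassCurve (ZMod 2)).Δ ≠ 0 →
    5 - frob2Mult (frob2Coeff a₁ a₂ a₃ a₄ a₆ 0) (frob2Coeff a₁ a₂ a₃ a₄ a₆ 1) -
      frob2Mult
        (frob2Coeff a₁ a₂ a₃ a₄ a₆ 5 + frob2Coeff a₁ a₂ a₃ a₄ a₆ 4 + frob2Coeff a₁ a₂ a₃ a₄ a₆ 3 +
          frob2Coeff a₁ a₂ a₃ a₄ a₆ 2 + frob2Coeff a₁ a₂ a₃ a₄ a₆ 1 + frob2Coeff a₁ a₂ a₃ a₄ a₆ 0)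
        (5 * frob2Coeff a₁ a₂ a₃ a₄ a₆ 5 + 4 * frob2Coeff a₁ a₂ a₃ a₄ a₆ 4 +
          3 * frob2Coeff a₁ a₂ a₃ a₄ a₆ 3 + 2 * frob2Coeff a₁ a₂ a₃ a₄ a₆ 2 +
          frob2Coeff a₁ a₂ a₃ a₄ a₆ 1) =
      1 + (frob2Sol a₁ a₂ a₃ a₄ a₆).card := by
  decide

/-- the number of points of an elliptic curve over `𝔽₂`. -/
theorem frob2_card_point (a₁ a₂ a₃ a₄ a₆ : ZMod 2)
    (hΔ : (⟨a₁, a₂, a₃, a₄, a₆⟩ : WeierstrassCurve (ZMod 2)).Δ ≠ 0) :
    Nat.card (⟨a₁, a₂, a₃, a₄, a₆⟩ : WeierstrassCurve (ZMod 2)).toAffine.Point =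
      1 + (frob2Sol a₁ a₂ a₃ a₄ a₆).card := by
  set W : WeierstrassCurve (ZMod 2) := ⟨a₁, a₂, a₃, a₄, a₆⟩ with hW
  have e := W.toAffine.nonsingularPointEquiv
  rw [Nat.card_congr e]
  have h1 : Nat.card (WithZero {xy : ZMod 2 × ZMod 2 // W.toAffine.Nonsingular xy.1 xy.2}) =
      Nat.card {xy : ZMod 2 × ZMod 2 // W.toAffine.Nonsingular xy.1 xy.2} + 1 :=
    Finite.card_option
  rw [h1, add_comm]
  congr 1
  have h2 : ∀ xy : ZMod 2 × ZMod 2, W.toAffine.Nonsingular xy.1 xy.2 ↔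
      xy ∈ frob2Sol a₁ a₂ a₃ a₄ a₆ := by
    intro xy
    rw [← WeierstrassCurve.Affine.equation_iff_nonsingular_of_Δ_ne_zero hΔ,
      WeierstrassCurve.Affine.equation_iff]
    simp [frob2Sol, hW]
  rw [Nat.card_congr (Equiv.subtypeEquivRight h2)]
  simp

section main

variable (k : Type*) [Field k] [Algebra (ZMod 2) k]

/-- transfer of the truncated multiplicity to an extension field. -/
theorem frob2_min_rootMultiplicity_map (p : (ZMod 2)[X]) (hp : p ≠ 0) (a : ZMod 2) :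
    min 2 ((p.map (algebraMap (ZMod 2) k)).rootMultiplicity (algebraMap (ZMod 2) k a)) =
      frob2Mult (p.eval a) ((derivative p).eval a) := by
  have hinj : Function.Injective (algebraMap (ZMod 2) k) := (algebraMap (ZMod 2) k).injective
  have hp' : p.map (algebraMap (ZMod 2) k) ≠ 0 := (Polynomial.map_ne_zero_iff hinj).mpr hp
  have e1 : (p.map (algebraMap (ZMod 2) k)).eval (algebraMap (ZMod 2) k a) =
      algebraMap (ZMod 2) k (p.eval a) := by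
    rw [eval_map, eval₂_at_apply]
  have e2 : (derivative (p.map (algebraMap (ZMod 2) k))).eval (algebraMap (ZMod 2) k a) =
      algebraMap (ZMod 2) k ((derivative p).eval a) := by
    rw [derivative_map, eval_map, eval₂_at_apply]
  unfold frob2Mult
  split_ifs with h1 h2
  · exact frob2_min_rootMultiplicity_zero _ _ (by rwa [e1, Ne, map_eq_zero_iff _ hinj])
  · rw [not_not] at h1
    exact frob2_min_rootMultiplicity_one _ hp' _ (by rw [e1, h1, map_zero])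
      (by rwa [e2, Ne, map_eq_zero_iff _ hinj])
  · rw [not_not] at h1 h2
    exact frob2_min_rootMultiplicity_two _ hp' _ (by rw [e1, h1, map_zero])
      (by rw [e2, h2, map_zero])

/-- **package (E₂), polynomial form.** -/
theorem frob2_ratDeg_poly (W₀ : WeierstrassCurve (ZMod 2)) (hΔ : W₀.Δ ≠ 0) :
    ratDeg (algebraMap k[X] (RatFunc k)
        ((frob2Num W₀.a₁ W₀.a₂ W₀.a₃ W₀.a₄ W₀.a₆).map (algebraMap (ZMod 2) k)) /
      algebraMap k[X] (RatFunc k) ((X - X ^ 2) ^ 2)) = Nat.card W₀.toAffine.Point := by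
  obtain ⟨a₁, a₂, a₃, a₄, a₆⟩ := W₀
  simp only
  set p := frob2Num a₁ a₂ a₃ a₄ a₆ with hp
  have hdeg : p.natDegree = 5 := frob2Num_natDegree a₁ a₂ a₃ a₄ a₆
  have hp0 : p ≠ 0 := by
    intro h
    rw [h, natDegree_zero] at hdeg
    omega
  have hinj : Function.Injective (algebraMap (ZMod 2) k) := (algebraMap (ZMod 2) k).injective
  have hp' : p.map (algebraMap (ZMod 2) k) ≠ 0 := (Polynomial.map_ne_zero_iff hinj).mpr hp0
  have hdeg' : (p.map (algebraMap (ZMod 2) k)).natDegree = 5 := by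
    rw [natDegree_map_eq_of_injective hinj, hdeg]
  have hD : ((X : k[X]) - X ^ 2) ^ 2 = (X - C 0) ^ 2 * (X - C 1) ^ 2 := by
    rw [C_0, C_1]
    ring
  have h01 : (0 : k) ≠ 1 := zero_ne_one
  have m0 := frob2_min_rootMultiplicity_map k p hp0 0
  have m1 := frob2_min_rootMultiplicity_map k p hp0 1
  rw [map_zero] at m0
  rw [map_one] at m1
  rw [hD, frob2_ratDeg_two_points _ hp' 0 1 h01, hdeg', m0, m1, frob2_card_point _ _ _ _ _ hΔ,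
    ← frob2_decide a₁ a₂ a₃ a₄ a₆ hΔ, hp, frob2Num_eval_zero, frob2Num_eval_one,
    frob2Num_derivative_eval_zero, frob2Num_derivative_eval_one]
  have b0 : ∀ e e' : ZMod 2, frob2Mult e e' ≤ 2 := by decide
  have := b0 (frob2Coeff a₁ a₂ a₃ a₄ a₆ 0) (frob2Coeff a₁ a₂ a₃ a₄ a₆ 1)
  have := b0 (frob2Coeff a₁ a₂ a₃ a₄ a₆ 5 + frob2Coeff a₁ a₂ a₃ a₄ a₆ 4 +
    frob2Coeff a₁ a₂ a₃ a₄ a₆ 3 + frob2Coeff a₁ a₂ a₃ a₄ a₆ 2 + frob2Coeff a₁ a₂ a₃ a₄ a₆ 1 +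
    frob2Coeff a₁ a₂ a₃ a₄ a₆ 0) (5 * frob2Coeff a₁ a₂ a₃ a₄ a₆ 5 + 4 * frob2Coeff a₁ a₂ a₃ a₄ a₆ 4 +
    3 * frob2Coeff a₁ a₂ a₃ a₄ a₆ 3 + 2 * frob2Coeff a₁ a₂ a₃ a₄ a₆ 2 +
    frob2Coeff a₁ a₂ a₃ a₄ a₆ 1)
  omega

end main

end Fermat.Agent.EC
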