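/-
S58 (E3), package (E₂) — helper1 — **the point count at `ℓ = 2`: the formula for `x(P₀ - φ P₀)`.**

* `frob2Formula a₁ a₂ a₃ a₄ a₆ x` : the universal expression `n(x) / (x - x²)²` in any field;
* `frob2_addX` : in characteristic `2`, on a Weierstrass curve with `a₁² = a₁`, `a₃² = a₃`, the
  `x`-coordinate of `(x, y) - (x², y²)` (Mathlib's `addX`, `slope`, `negY`) is `frob2Formula`;
* `ratDeg_frob2Formula`, `ratDeg_frob_two` : its degree as an element of `k(X)` is `#W₀(𝔽₂)`.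
-/
import Mathlib
import Fermat.Agent.EC.Deg_helper6_Def
import Fermat.Agent.EC.FrobCount2_helper1

set_option autoImplicit false

namespace Fermat.Agent.EC

open Polynomial

/-- the universal expression for `x(P₀ - φ P₀)` at `ℓ = 2`. -/
def frob2Formula {K : Type*} [Field K] (a₁ a₂ a₃ a₄ a₆ x : K) : K :=
  ((x ^ 3 + a₂ * x ^ 2 + a₄ * x + a₆ + a₁ * x ^ 2 + a₃) *
        ((x ^ 3 + a₂ * x ^ 2 + a₄ * x + a₆ + a₁ * x ^ 2 + a₃) + a₁ * (x - x ^ 2)) +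
      (a₁ * x + a₃ + 1) ^ 2 * (x ^ 3 + a₂ * x ^ 2 + a₄ * x + a₆) -
      (a₂ + x + x ^ 2) * (x - x ^ 2) ^ 2) / (x - x ^ 2) ^ 2

theorem frob2Formula_map {K L : Type*} [Field K] [Field L] (σ : K →+* L) (a₁ a₂ a₃ a₄ a₆ x : K) :
    σ (frob2Formula a₁ a₂ a₃ a₄ a₆ x) =
      frob2Formula (σ a₁) (σ a₂) (σ a₃) (σ a₄) (σ a₆) (σ x) := by
  simp [frob2Formula]

/-- **the `x`-coordinate of `P - φ P` in characteristic `2`.** -/
theorem frob2_addX {K : Type*} [Field K] [DecidableEq K] (W : WeierstrassCurve.Affine K) (h2 : (2 : K) = 0)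
    (h₁ : W.a₁ ^ 2 = W.a₁) (h₃ : W.a₃ ^ 2 = W.a₃) {x y : K} (h : W.Equation x y)
    (hx : x ≠ x ^ 2) :
    W.addX x (x ^ 2) (W.slope x (x ^ 2) y (W.negY (x ^ 2) (y ^ 2))) =
      frob2Formula W.a₁ W.a₂ W.a₃ W.a₄ W.a₆ x := by
  have hd : x - x ^ 2 ≠ 0 := sub_ne_zero.mpr hx
  have key : ∀ x₂ y₂ : K, x ≠ x₂ → W.addX x x₂ (W.slope x x₂ y y₂) * (x - x₂) ^ 2 =
      (y - y₂) ^ 2 + W.a₁ * (y - y₂) * (x - x₂) - (W.a₂ + x + x₂) * (x - x₂) ^ 2 := by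
    intro x₂ y₂ hx₂
    have hd₂ : x - x₂ ≠ 0 := sub_ne_zero.mpr hx₂
    rw [WeierstrassCurve.Affine.slope_of_X_ne hx₂]
    simp only [WeierstrassCurve.Affine.addX]
    field_simp
    ring
  rw [WeierstrassCurve.Affine.equation_iff] at h
  unfold frob2Formula
  rw [eq_div_iff (pow_ne_zero 2 hd), key _ _ hx]
  simp only [WeierstrassCurve.Affine.negY]
  linear_combination
    (y ^ 2 + (-1) * y * x * W.a₁ + (-1) * y * W.a₃ + 2 * y + x ^ 3 + x ^ 2 * W.a₁ ^ 2 +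
      x ^ 2 * W.a₁ + x ^ 2 * W.a₂ + 2 * x * W.a₁ * W.a₃ + (-1) * x * W.a₁ + x * W.a₄ + W.a₃ ^ 2 +
      W.a₆ + 1) * h +
    ((-1) * y * x ^ 3 * W.a₁ + (-2) * y * x ^ 3 + (-3) * y * x ^ 2 * W.a₃ + y * x ^ 2) * h₁ +
    ((-3) * y * x * W.a₁ + (-1) * y * W.a₃ + (-1) * y) * h₃ +
    ((-1) * y * x ^ 4 * W.a₁ + (-1) * y * x ^ 3 * W.a₁ * W.a₂ + (-1) * y * x ^ 3 * W.a₁ +
      (-1) * y * x ^ 3 * W.a₃ + y * x ^ 3 + (-2) * y * x ^ 2 * W.a₁ * W.a₃ +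
      (-1) * y * x ^ 2 * W.a₁ * W.a₄ + y * x ^ 2 * W.a₁ + (-1) * y * x ^ 2 * W.a₂ * W.a₃ +
      y * x ^ 2 * W.a₂ + (-1) * y * x * W.a₁ * W.a₃ + (-1) * y * x * W.a₁ * W.a₆ +
      (-1) * y * x * W.a₃ * W.a₄ + y * x * W.a₄ + (-1) * y * W.a₃ * W.a₆ + y * W.a₆ +
      (-2) * x ^ 4 * W.a₁ + (-2) * x ^ 3 * W.a₁ * W.a₂ + (-2) * x ^ 3 * W.a₃ +
      (-2) * x ^ 2 * W.a₁ * W.a₄ + (-2) * x ^ 2 * W.a₂ * W.a₃ + (-2) * x * W.a₁ * W.a₆ +
      (-2) * x * W.a₃ * W.a₄ + (-2) * W.a₃ * W.a₆) * h2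

section main

variable (k : Type*) [Field k] [Algebra (ZMod 2) k]

theorem frob2_algebraMap_ratFunc (a : ZMod 2) :
    algebraMap (ZMod 2) (RatFunc k) a =
      algebraMap k[X] (RatFunc k) (C (algebraMap (ZMod 2) k a)) := by
  rw [IsScalarTower.algebraMap_apply (ZMod 2) k[X] (RatFunc k), Polynomial.algebraMap_apply]

/-- **package (E₂), `frob2Formula` form.** -/
theorem ratDeg_frob2Formula (W₀ : WeierstrassCurve (ZMod 2)) (hΔ : W₀.Δ ≠ 0) :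
    ratDeg (frob2Formula (algebraMap (ZMod 2) (RatFunc k) W₀.a₁)
      (algebraMap (ZMod 2) (RatFunc k) W₀.a₂) (algebraMap (ZMod 2) (RatFunc k) W₀.a₃)
      (algebraMap (ZMod 2) (RatFunc k) W₀.a₄) (algebraMap (ZMod 2) (RatFunc k) W₀.a₆)
      (RatFunc.X : RatFunc k)) = Nat.card W₀.toAffine.Point := by
  rw [← frob2_ratDeg_poly k W₀ hΔ, frob2Num_map]
  congr 1
  simp only [frob2Formula, frob2Num, frob2_algebraMap_ratFunc, ← RatFunc.algebraMap_X, map_add,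
    map_mul, map_sub, map_pow, map_one]

/-- **package (E₂), written out.** -/
theorem ratDeg_frob_two (W₀ : WeierstrassCurve (ZMod 2)) (hΔ : W₀.Δ ≠ 0) :
    ratDeg
      ((((RatFunc.X : RatFunc k) ^ 3 + algebraMap (ZMod 2) (RatFunc k) W₀.a₂ * RatFunc.X ^ 2 +
              algebraMap (ZMod 2) (RatFunc k) W₀.a₄ * RatFunc.X +
              algebraMap (ZMod 2) (RatFunc k) W₀.a₆ +
              algebraMap (ZMod 2) (RatFunc k) W₀.a₁ * RatFunc.X ^ 2 +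
              algebraMap (ZMod 2) (RatFunc k) W₀.a₃) *
            ((RatFunc.X ^ 3 + algebraMap (ZMod 2) (RatFunc k) W₀.a₂ * RatFunc.X ^ 2 +
                algebraMap (ZMod 2) (RatFunc k) W₀.a₄ * RatFunc.X +
                algebraMap (ZMod 2) (RatFunc k) W₀.a₆ +
                algebraMap (ZMod 2) (RatFunc k) W₀.a₁ * RatFunc.X ^ 2 +
                algebraMap (ZMod 2) (RatFunc k) W₀.a₃) +
              algebraMap (ZMod 2) (RatFunc k) W₀.a₁ * (RatFunc.X - RatFunc.X ^ 2)) +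
          (algebraMap (ZMod 2) (RatFunc k) W₀.a₁ * RatFunc.X +
              algebraMap (ZMod 2) (RatFunc k) W₀.a₃ + 1) ^ 2 *
            (RatFunc.X ^ 3 + algebraMap (ZMod 2) (RatFunc k) W₀.a₂ * RatFunc.X ^ 2 +
              algebraMap (ZMod 2) (RatFunc k) W₀.a₄ * RatFunc.X +
              algebraMap (ZMod 2) (RatFunc k) W₀.a₆) -
          (algebraMap (ZMod 2) (RatFunc k) W₀.a₂ + RatFunc.X + RatFunc.X ^ 2) *
            (RatFunc.X - RatFunc.X ^ 2) ^ 2) /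
        (RatFunc.X - RatFunc.X ^ 2) ^ 2) = Nat.card W₀.toAffine.Point :=
  ratDeg_frob2Formula k W₀ hΔ

end main

end Fermat.Agent.EC
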