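/-
S58 (E3), package (E₂) — helper1 — **the point count at `ℓ = 2`: bridge to the function-field
framework.**

* `frob2_addX_baseChange` : `frob2_addX` for `(W₀⁄K).toAffine`, `W₀ : WeierstrassCurve (ZMod 2)`;
* `frob2Formula_algHom` : a `k`-algebra homomorphism `ε : k(X) → K` sends the rational function of
  `ratDeg_frob2Formula` to `frob2Formula (aᵢ) (ε X)`.
-/
import Mathlib
import Fermat.Agent.EC.FrobCount2_helper1_Formula

set_option autoImplicit false

namespace Fermat.Agent.EC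

open WeierstrassCurve WeierstrassCurve.Affine

theorem frob2_sq_eq_self (a : ZMod 2) : a ^ 2 = a := by
  revert a
  decide

theorem frob2_two_eq_zero (K : Type*) [Field K] [Algebra (ZMod 2) K] : (2 : K) = 0 := by
  rw [← map_ofNat (algebraMap (ZMod 2) K) 2, show (2 : ZMod 2) = 0 by decide, map_zero]

/-- **the `x`-coordinate of `P - φ P` at `ℓ = 2`, base-change form.** -/
theorem frob2_addX_baseChange (W₀ : WeierstrassCurve (ZMod 2)) (K : Type*) [Field K]
    [DecidableEq K] [Algebra (ZMod 2) K] {x y : K} (h : (W₀⁄K).toAffine.Equation x y)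
    (hx : x ≠ x ^ 2) :
    (W₀⁄K).toAffine.addX x (x ^ 2)
        ((W₀⁄K).toAffine.slope x (x ^ 2) y ((W₀⁄K).toAffine.negY (x ^ 2) (y ^ 2))) =
      frob2Formula (algebraMap (ZMod 2) K W₀.a₁) (algebraMap (ZMod 2) K W₀.a₂)
        (algebraMap (ZMod 2) K W₀.a₃) (algebraMap (ZMod 2) K W₀.a₄)
        (algebraMap (ZMod 2) K W₀.a₆) x := by
  have h₁ : (W₀⁄K).toAffine.a₁ ^ 2 = (W₀⁄K).toAffine.a₁ := by
    simp only [baseChange_a₁, ← map_pow, frob2_sq_eq_self]
  have h₃ : (W₀⁄K).toAffine.a₃ ^ 2 = (W₀⁄K).toAffine.a₃ := by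
    simp only [baseChange_a₃, ← map_pow, frob2_sq_eq_self]
  have := frob2_addX (W₀⁄K).toAffine (frob2_two_eq_zero K) h₁ h₃ h hx
  simpa using this

/-- a `k`-algebra homomorphism out of `k(X)` maps the rational function of
`ratDeg_frob2Formula` to `frob2Formula` at the image of `X`. -/
theorem frob2Formula_algHom (k : Type*) [Field k] [Algebra (ZMod 2) k] (K : Type*) [Field K]
    [Algebra k K] [Algebra (ZMod 2) K] [IsScalarTower (ZMod 2) k K] (ε : RatFunc k →ₐ[k] K)
    (a₁ a₂ a₃ a₄ a₆ : ZMod 2) :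
    ε (frob2Formula (algebraMap (ZMod 2) (RatFunc k) a₁) (algebraMap (ZMod 2) (RatFunc k) a₂)
        (algebraMap (ZMod 2) (RatFunc k) a₃) (algebraMap (ZMod 2) (RatFunc k) a₄)
        (algebraMap (ZMod 2) (RatFunc k) a₆) (RatFunc.X : RatFunc k)) =
      frob2Formula (algebraMap (ZMod 2) K a₁) (algebraMap (ZMod 2) K a₂)
        (algebraMap (ZMod 2) K a₃) (algebraMap (ZMod 2) K a₄) (algebraMap (ZMod 2) K a₆)
        (ε RatFunc.X) := by
  have hc : ∀ a : ZMod 2, ε (algebraMap (ZMod 2) (RatFunc k) a) = algebraMap (ZMod 2) K a := by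
    intro a
    rw [IsScalarTower.algebraMap_apply (ZMod 2) k (RatFunc k), ε.commutes,
      ← IsScalarTower.algebraMap_apply (ZMod 2) k K]
  have := frob2Formula_map (ε : RatFunc k →+* K) (algebraMap (ZMod 2) (RatFunc k) a₁)
    (algebraMap (ZMod 2) (RatFunc k) a₂) (algebraMap (ZMod 2) (RatFunc k) a₃)
    (algebraMap (ZMod 2) (RatFunc k) a₄) (algebraMap (ZMod 2) (RatFunc k) a₆) RatFunc.X
  simpa only [RingHom.coe_coe, hc] using this

end Fermat.Agent.EC
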