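import Mathlib
import Fermat.Agent.EC.Deg_helper6_Def

set_option autoImplicit false

/-!
# `ratDeg` algebra, part (B0)/(B1): basic facts (S58 (E3), package (B))
-/

namespace Fermat.Agent.EC

open Polynomial

variable {k : Type*} [Field k]

/-- cross-multiplication for the reduced fraction of `p / q` -/
theorem ratDeg_cross (p : k[X]) {q : k[X]} (hq : q ≠ 0) :
    (algebraMap k[X] (RatFunc k) p / algebraMap k[X] (RatFunc k) q).num * q =
      p * (algebraMap k[X] (RatFunc k) p / algebraMap k[X] (RatFunc k) q).denom := by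
  have hq' : algebraMap k[X] (RatFunc k) q ≠ 0 := RatFunc.algebraMap_ne_zero hq
  generalize hx : algebraMap k[X] (RatFunc k) p / algebraMap k[X] (RatFunc k) q = x
  have hd' : algebraMap k[X] (RatFunc k) x.denom ≠ 0 :=
    RatFunc.algebraMap_ne_zero x.denom_ne_zero
  have h1 : algebraMap k[X] (RatFunc k) x.num = x * algebraMap k[X] (RatFunc k) x.denom := by
    rw [← div_eq_iff hd']; exact RatFunc.num_div_denom x
  have h2 : x * algebraMap k[X] (RatFunc k) q = algebraMap k[X] (RatFunc k) p := by
    rw [← hx, div_mul_cancel₀ _ hq']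
  apply RatFunc.algebraMap_injective k
  rw [map_mul, map_mul, h1, ← h2]; ring

/-- if `p / q` is in lowest terms then the numerator of the fraction is associated to `p` -/
theorem associated_num_of_isCoprime {p q : k[X]} (hq : q ≠ 0) (h : IsCoprime p q) :
    Associated (algebraMap k[X] (RatFunc k) p / algebraMap k[X] (RatFunc k) q).num p := by
  have hc := ratDeg_cross p hq
  set x := algebraMap k[X] (RatFunc k) p / algebraMap k[X] (RatFunc k) q with hx
  have hcop := x.isCoprime_num_denom
  refine associated_of_dvd_dvd ?_ ?_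
  · -- num ∣ p * denom, coprime to denom
    have : x.num ∣ p * x.denom := ⟨q, by rw [← hc]⟩
    exact hcop.dvd_of_dvd_mul_right this
  · have : p ∣ x.num * q := ⟨x.denom, hc⟩
    exact h.dvd_of_dvd_mul_right this

theorem associated_denom_of_isCoprime {p q : k[X]} (hq : q ≠ 0) (h : IsCoprime p q) :
    Associated (algebraMap k[X] (RatFunc k) p / algebraMap k[X] (RatFunc k) q).denom q := by
  have hc := ratDeg_cross p hq
  set x := algebraMap k[X] (RatFunc k) p / algebraMap k[X] (RatFunc k) q with hx
  have hcop := x.isCoprime_num_denom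
  refine associated_of_dvd_dvd ?_ ?_
  · have : x.denom ∣ x.num * q := ⟨p, by rw [hc]; ring⟩
    exact hcop.symm.dvd_of_dvd_mul_left this
  · have : q ∣ p * x.denom := ⟨x.num, by rw [← hc]; ring⟩
    exact h.symm.dvd_of_dvd_mul_left this

theorem natDegree_eq_of_associated {p q : k[X]} (h : Associated p q) :
    p.natDegree = q.natDegree := by
  obtain ⟨u, rfl⟩ := h
  obtain ⟨c, hc, hu⟩ := Polynomial.isUnit_iff.mp u.isUnit
  rw [← hu, mul_comm, natDegree_C_mul hc.ne_zero]

/-- (B0) `ratDeg` of a fraction in lowest terms -/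
theorem ratDeg_div_of_isCoprime {p q : k[X]} (hq : q ≠ 0) (h : IsCoprime p q) :
    ratDeg (algebraMap k[X] (RatFunc k) p / algebraMap k[X] (RatFunc k) q) =
      max p.natDegree q.natDegree := by
  rw [ratDeg_def, natDegree_eq_of_associated (associated_num_of_isCoprime hq h),
    natDegree_eq_of_associated (associated_denom_of_isCoprime hq h)]

/-- (B0) cancelling a common factor -/
theorem ratDeg_div_mul_left {g p q : k[X]} (hg : g ≠ 0) (hq : q ≠ 0) (h : IsCoprime p q) :
    ratDeg (algebraMap k[X] (RatFunc k) (g * p) / algebraMap k[X] (RatFunc k) (g * q)) =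
      max p.natDegree q.natDegree := by
  rw [map_mul, map_mul, mul_div_mul_left _ _ (RatFunc.algebraMap_ne_zero hg)]
  exact ratDeg_div_of_isCoprime hq h

/-- (B0) the gcd formula (helper6's literal) -/
theorem ratDeg_div [DecidableEq k] (p : k[X]) {q : k[X]} (hq : q ≠ 0) :
    ratDeg (algebraMap k[X] (RatFunc k) p / algebraMap k[X] (RatFunc k) q) =
      max p.natDegree q.natDegree - (EuclideanDomain.gcd p q).natDegree := by
  set g := EuclideanDomain.gcd p q with hg
  have hg0 : g ≠ 0 := fun h0 => hq ((EuclideanDomain.gcd_eq_zero_iff.mp h0).2)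
  obtain ⟨p', hp'⟩ : g ∣ p := EuclideanDomain.gcd_dvd_left p q
  obtain ⟨q', hq'⟩ : g ∣ q := EuclideanDomain.gcd_dvd_right p q
  have hq'0 : q' ≠ 0 := by rintro rfl; exact hq (by rw [hq', mul_zero])
  have hcop : IsCoprime p' q' := by
    -- gcd (g p') (g q') = g  ⟹ gcd p' q' unit
    obtain ⟨a, b, hab⟩ : ∃ a b : k[X], g = p * a + q * b := by
      refine ⟨EuclideanDomain.gcdA p q, EuclideanDomain.gcdB p q, ?_⟩
      rw [hg]; exact EuclideanDomain.gcd_eq_gcd_ab p q
    refine ⟨a, b, ?_⟩
    have : g * (a * p' + b * q') = g * 1 := by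
      rw [mul_one]; conv_rhs => rw [hab, hp', hq']
      ring
    exact mul_left_cancel₀ hg0 this
  rw [hp', hq', ratDeg_div_mul_left hg0 hq'0 hcop]
  by_cases hp'0 : p' = 0
  · subst hp'0
    simp [natDegree_mul hg0 hq'0]
  · rw [natDegree_mul hg0 hp'0, natDegree_mul hg0 hq'0, Nat.add_max_add_left,
      Nat.add_sub_cancel_left]

theorem ratDeg_algebraMap (p : k[X]) : ratDeg (algebraMap k[X] (RatFunc k) p) = p.natDegree := by
  simp [ratDeg_def]

@[simp] theorem ratDeg_X : ratDeg (RatFunc.X : RatFunc k) = 1 := by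
  simp [ratDeg_def]

@[simp] theorem ratDeg_C (c : k) : ratDeg (RatFunc.C c : RatFunc k) = 0 := by
  simp [ratDeg_def]

@[simp] theorem ratDeg_zero : ratDeg (0 : RatFunc k) = 0 := by
  simp [ratDeg_def]

@[simp] theorem ratDeg_one : ratDeg (1 : RatFunc k) = 0 := by
  simp [ratDeg_def]

/-- (B0) `ratDeg r = 0` iff `r` is constant -/
theorem ratDeg_eq_zero_iff (r : RatFunc k) :
    ratDeg r = 0 ↔ r ∈ Set.range (algebraMap k (RatFunc k)) := by
  rw [ratDeg_def, Nat.max_eq_zero_iff, ← RatFunc.eq_C_iff]
  constructor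
  · rintro ⟨c, rfl⟩; exact ⟨c, by rw [RatFunc.algebraMap_eq_C]⟩
  · rintro ⟨c, rfl⟩; exact ⟨c, by rw [RatFunc.algebraMap_eq_C]⟩

/-- `ratDeg r` as a field degree -/
theorem ratDeg_eq_finrank (r : RatFunc k) :
    ratDeg r = Module.finrank (IntermediateField.adjoin k {r}) (RatFunc k) :=
  (RatFunc.finrank_eq_max_natDegree r).symm

theorem ratDeg_eq_max (r : RatFunc k) : ratDeg r = max r.num.natDegree r.denom.natDegree := rfl

theorem ratDeg_inv (r : RatFunc k) : ratDeg r⁻¹ = ratDeg r := by
  by_cases hr : r = 0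
  · simp [hr]
  have h : r⁻¹ = algebraMap k[X] (RatFunc k) r.denom / algebraMap k[X] (RatFunc k) r.num := by
    conv_lhs => rw [← RatFunc.num_div_denom r]
    rw [inv_div]
  rw [h, ratDeg_div_of_isCoprime (RatFunc.num_ne_zero hr) r.isCoprime_num_denom.symm,
    ratDeg_eq_max, max_comm]

theorem ratDeg_neg (r : RatFunc k) : ratDeg (-r) = ratDeg r := by
  have h : -r = algebraMap k[X] (RatFunc k) (-r.num) / algebraMap k[X] (RatFunc k) r.denom := by
    conv_lhs => rw [← RatFunc.num_div_denom r]
    rw [map_neg, neg_div]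
  rw [h, ratDeg_div_of_isCoprime r.denom_ne_zero r.isCoprime_num_denom.neg_left, natDegree_neg,
    ratDeg_eq_max]

/-- adding a constant does not change the degree -/
theorem ratDeg_add_C (r : RatFunc k) (c : k) : ratDeg (r + RatFunc.C c) = ratDeg r := by
  have h : r + RatFunc.C c =
      algebraMap k[X] (RatFunc k) (r.num + Polynomial.C c * r.denom) /
        algebraMap k[X] (RatFunc k) r.denom := by
    have hd : algebraMap k[X] (RatFunc k) r.denom ≠ 0 :=
      RatFunc.algebraMap_ne_zero r.denom_ne_zero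
    conv_lhs => rw [← RatFunc.num_div_denom r]
    rw [map_add, map_mul, add_div, mul_div_assoc, div_self hd, mul_one, RatFunc.algebraMap_C]
  have hcop : IsCoprime (r.num + Polynomial.C c * r.denom) r.denom :=
    r.isCoprime_num_denom.add_mul_right_left _
  rw [h, ratDeg_div_of_isCoprime r.denom_ne_zero hcop, ratDeg_eq_max]
  -- max (deg (n + c d)) (deg d) = max (deg n) (deg d)
  by_cases hc : c = 0
  · simp [hc]
  rcases lt_trichotomy r.num.natDegree r.denom.natDegree with hlt | heq | hgt
  · have : (r.num + Polynomial.C c * r.denom).natDegree = r.denom.natDegree := by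
      rw [add_comm, natDegree_add_eq_left_of_natDegree_lt (by rwa [natDegree_C_mul hc]),
        natDegree_C_mul hc]
    rw [this, max_self, max_eq_right hlt.le]
  · have hle : (r.num + Polynomial.C c * r.denom).natDegree ≤ r.denom.natDegree := by
      refine (natDegree_add_le _ _).trans ?_
      rw [natDegree_C_mul hc, heq, max_self]
    rw [max_eq_right hle, heq, max_self]
  · have : (r.num + Polynomial.C c * r.denom).natDegree = r.num.natDegree := by
      rw [natDegree_add_eq_left_of_natDegree_lt (by rwa [natDegree_C_mul hc])]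
    rw [this]

/-- multiplying by a nonzero constant does not change the degree -/
theorem ratDeg_C_mul {c : k} (hc : c ≠ 0) (r : RatFunc k) : ratDeg (RatFunc.C c * r) = ratDeg r := by
  have h : RatFunc.C c * r =
      algebraMap k[X] (RatFunc k) (Polynomial.C c * r.num) /
        algebraMap k[X] (RatFunc k) r.denom := by
    conv_lhs => rw [← RatFunc.num_div_denom r]
    rw [map_mul, RatFunc.algebraMap_C, mul_div_assoc]
  have hu : IsUnit (Polynomial.C c : k[X]) := Polynomial.isUnit_C.mpr hc.isUnit
  have hcop : IsCoprime (Polynomial.C c * r.num) r.denom :=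
    (isCoprime_mul_unit_left_left hu _ _).mpr r.isCoprime_num_denom
  rw [h, ratDeg_div_of_isCoprime r.denom_ne_zero hcop, natDegree_C_mul hc, ratDeg_eq_max]

/-- (B1) -/
theorem ratDeg_pow (r : RatFunc k) (n : ℕ) : ratDeg (r ^ n) = n * ratDeg r := by
  have h : r ^ n = algebraMap k[X] (RatFunc k) (r.num ^ n) /
      algebraMap k[X] (RatFunc k) (r.denom ^ n) := by
    conv_lhs => rw [← RatFunc.num_div_denom r]
    rw [div_pow, map_pow, map_pow]
  rw [h, ratDeg_div_of_isCoprime (pow_ne_zero n r.denom_ne_zero) (r.isCoprime_num_denom.pow),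
    natDegree_pow, natDegree_pow, ratDeg_eq_max, Nat.mul_max_mul_left]

end Fermat.Agent.EC
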