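import Mathlib

set_option autoImplicit false

/-!
# Package (E), part 1: the numerator of `x(P₀ - φP₀)` over `𝔽_ℓ` (ℓ odd)

`g = 4X³ + b₂X² + 2b₄X + b₆`, `n = g + 2 g^((ℓ+1)/2) + g^ℓ - (b₂ + 4X + 4X^ℓ)(X - X^ℓ)²`.
We compute `n(a)` and `n'(a)` for `a ∈ 𝔽_ℓ`, the degree of `n`, and the cancellation between `n`
and `4 (X - X^ℓ)² = 4 ∏ (X - a)²`.
-/

namespace Fermat.Agent.EC

open Polynomial

section poly

variable (ℓ : ℕ) [hℓ : Fact ℓ.Prime] (b₂ b₄ b₆ : ZMod ℓ)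

/-- the 2-division cubic `4X³ + b₂X² + 2b₄X + b₆` -/
noncomputable def fcG : (ZMod ℓ)[X] := 4 * X ^ 3 + C b₂ * X ^ 2 + 2 * C b₄ * X + C b₆

/-- the numerator of `x(P₀ - φP₀)` -/
noncomputable def fcN : (ZMod ℓ)[X] :=
  fcG ℓ b₂ b₄ b₆ + 2 * fcG ℓ b₂ b₄ b₆ ^ ((ℓ + 1) / 2) + fcG ℓ b₂ b₄ b₆ ^ ℓ -
    (C b₂ + 4 * X + 4 * X ^ ℓ) * (X - X ^ ℓ) ^ 2

variable {ℓ}

theorem fc_odd (h2 : ℓ ≠ 2) : ℓ = 2 * (ℓ / 2) + 1 := by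
  rcases hℓ.out.eq_two_or_odd with h | h
  · exact absurd h h2
  · omega

theorem fc_half_pos : 0 < ℓ / 2 := by
  have := hℓ.out.two_le
  omega

theorem fc_succ_half (h2 : ℓ ≠ 2) : (ℓ + 1) / 2 = ℓ / 2 + 1 := by
  have := fc_odd h2
  omega

theorem fc_two_ne_zero (h2 : ℓ ≠ 2) : (2 : ZMod ℓ) ≠ 0 := by
  intro h
  have h1 : ((2 : ℕ) : ZMod ℓ) = 0 := by exact_mod_cast h
  rw [ZMod.natCast_eq_zero_iff] at h1
  have := hℓ.out.two_le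
  have := Nat.le_of_dvd (by norm_num) h1
  omega

theorem fc_four_ne_zero (h2 : ℓ ≠ 2) : (4 : ZMod ℓ) ≠ 0 := by
  have : (4 : ZMod ℓ) = 2 * 2 := by norm_num
  rw [this]
  exact mul_ne_zero (fc_two_ne_zero h2) (fc_two_ne_zero h2)

/-- `n(a) = 2 g(a) (1 + g(a)^(ℓ/2))` -/
theorem fcN_eval (h2 : ℓ ≠ 2) (a : ZMod ℓ) :
    (fcN ℓ b₂ b₄ b₆).eval a =
      2 * (fcG ℓ b₂ b₄ b₆).eval a * (1 + (fcG ℓ b₂ b₄ b₆).eval a ^ (ℓ / 2)) := by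
  unfold fcN
  rw [fc_succ_half h2]
  simp only [eval_add, eval_sub, eval_mul, eval_pow, eval_X, eval_C, eval_ofNat, ZMod.pow_card,
    sub_self]
  ring

/-- `n'(a) = g'(a) (1 + g(a)^(ℓ/2))` -/
theorem fcN_derivative_eval (h2 : ℓ ≠ 2) (a : ZMod ℓ) :
    (derivative (fcN ℓ b₂ b₄ b₆)).eval a =
      (derivative (fcG ℓ b₂ b₄ b₆)).eval a * (1 + (fcG ℓ b₂ b₄ b₆).eval a ^ (ℓ / 2)) := by
  unfold fcN
  rw [fc_succ_half h2]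
  have hcast : ((ℓ / 2 + 1 : ℕ) : ZMod ℓ) * 2 = 1 := by
    have h1 : ((2 * (ℓ / 2) + 1 : ℕ) : ZMod ℓ) = 0 := by
      rw [← fc_odd h2]; exact ZMod.natCast_self ℓ
    push_cast at h1 ⊢
    linear_combination h1
  have hl : ((ℓ : ℕ) : ZMod ℓ) = 0 := ZMod.natCast_self ℓ
  simp only [derivative_add, derivative_sub, derivative_mul, derivative_pow, derivative_X,
    derivative_C, derivative_ofNat, eval_add, eval_sub, eval_mul, eval_pow, eval_X, eval_C,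
    eval_ofNat, eval_natCast, eval_zero, ZMod.pow_card, sub_self, Nat.add_sub_cancel, hl,
    map_natCast]
  linear_combination ((derivative (fcG ℓ b₂ b₄ b₆)).eval a *
    (fcG ℓ b₂ b₄ b₆).eval a ^ (ℓ / 2)) * hcast

/-- `g^ℓ = g(X^ℓ)` -/
theorem fcG_pow (b₂ b₄ b₆ : ZMod ℓ) : fcG ℓ b₂ b₄ b₆ ^ ℓ =
    4 * X ^ (3 * ℓ) + C b₂ * X ^ (2 * ℓ) + 2 * C b₄ * X ^ ℓ + C b₆ := by
  rw [← ZMod.expand_card, fcG]
  simp only [map_add, map_mul, map_pow, map_ofNat, expand_X, expand_C]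
  ring

/-- the expanded form of the numerator -/
theorem fcN_eq (b₂ b₄ b₆ : ZMod ℓ) : fcN ℓ b₂ b₄ b₆ =
    C 4 * X ^ (2 * ℓ + 1) + (4 * X ^ (ℓ + 2) + 2 * C b₂ * X ^ (ℓ + 1) + 2 * C b₄ * X ^ ℓ +
      2 * C b₄ * X + 2 * C b₆ + 2 * fcG ℓ b₂ b₄ b₆ ^ ((ℓ + 1) / 2)) := by
  rw [fcN, fcG_pow]
  have h4 : (C 4 : (ZMod ℓ)[X]) = 4 := map_ofNat C 4
  rw [h4]
  generalize fcG ℓ b₂ b₄ b₆ ^ ((ℓ + 1) / 2) = Q
  unfold fcG
  ring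

theorem fcG_natDegree_le (b₂ b₄ b₆ : ZMod ℓ) : (fcG ℓ b₂ b₄ b₆).natDegree ≤ 3 := by
  unfold fcG
  compute_degree

theorem fcN_natDegree (h2 : ℓ ≠ 2) (b₂ b₄ b₆ : ZMod ℓ) :
    (fcN ℓ b₂ b₄ b₆).natDegree = 2 * ℓ + 1 := by
  have hodd := fc_odd h2
  have hpos : 0 < ℓ / 2 := fc_half_pos
  have h1 : (C (4 : ZMod ℓ) * X ^ (2 * ℓ + 1)).natDegree = 2 * ℓ + 1 :=
    natDegree_C_mul_X_pow _ _ (fc_four_ne_zero h2)
  have hg : (fcG ℓ b₂ b₄ b₆ ^ ((ℓ + 1) / 2)).natDegree ≤ ((ℓ + 1) / 2) * 3 :=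
    natDegree_pow_le_of_le _ (fcG_natDegree_le b₂ b₄ b₆)
  have h2' : (4 * X ^ (ℓ + 2) + 2 * C b₂ * X ^ (ℓ + 1) + 2 * C b₄ * X ^ ℓ +
      2 * C b₄ * X + 2 * C b₆ + 2 * fcG ℓ b₂ b₄ b₆ ^ ((ℓ + 1) / 2)).natDegree ≤ 2 * ℓ := by
    generalize hQ : fcG ℓ b₂ b₄ b₆ ^ ((ℓ + 1) / 2) = Q at hg
    compute_degree
    omega
  rw [fcN_eq]
  exact (natDegree_add_eq_left_of_natDegree_lt (by rw [h1]; omega)).trans h1

theorem fcN_ne_zero (h2 : ℓ ≠ 2) (b₂ b₄ b₆ : ZMod ℓ) : fcN ℓ b₂ b₄ b₆ ≠ 0 := by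
  intro h
  have := fcN_natDegree h2 b₂ b₄ b₆
  rw [h, natDegree_zero] at this
  omega

/-- `∏_{a ∈ 𝔽_ℓ} (X - a) = X^ℓ - X` -/
theorem fc_prod_X_sub_C : ∏ a : ZMod ℓ, (X - C a) = (X ^ ℓ - X : (ZMod ℓ)[X]) := by
  have hroots : (X ^ ℓ - X : (ZMod ℓ)[X]).roots = Finset.univ.val := by
    have := FiniteField.roots_X_pow_card_sub_X (ZMod ℓ)
    rwa [ZMod.card ℓ] at this
  have hdeg : (X ^ ℓ - X : (ZMod ℓ)[X]).natDegree = ℓ :=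
    FiniteField.X_pow_card_sub_X_natDegree_eq (ZMod ℓ) hℓ.out.one_lt
  have hmonic : (X ^ ℓ - X : (ZMod ℓ)[X]).Monic := by
    apply monic_X_pow_sub
    rw [degree_X]
    exact_mod_cast hℓ.out.one_lt
  have := prod_multiset_X_sub_C_of_monic_of_roots_card_eq hmonic (by
    rw [hroots, hdeg]; simp [ZMod.card ℓ])
  rw [hroots] at this
  rw [← this]
  rfl

theorem fc_isCoprime_of_eval_ne_zero {F : Type*} [Field F] {p : F[X]} {a : F}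
    (h : p.eval a ≠ 0) : IsCoprime p (X - C a) := by
  obtain ⟨q, hq⟩ := X_sub_C_dvd_sub_C_eval (a := a) (p := p)
  refine ⟨C (p.eval a)⁻¹, -(C (p.eval a)⁻¹ * q), ?_⟩
  have h1 : C (p.eval a)⁻¹ * C (p.eval a) = (1 : F[X]) := by
    rw [← C_mul, inv_mul_cancel₀ h, C_1]
  linear_combination (C (p.eval a)⁻¹) * hq + h1

open Classical in
/-- the local cancellation exponent at `a`: `2 - #{η : η² = g(a)}` -/
noncomputable def fcE (b₂ b₄ b₆ : ZMod ℓ) (a : ZMod ℓ) : ℕ :=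
  if (fcG ℓ b₂ b₄ b₆).eval a = 0 then 1
  else if IsSquare ((fcG ℓ b₂ b₄ b₆).eval a) then 0 else 2

theorem fcE_le_two (b₂ b₄ b₆ : ZMod ℓ) (a : ZMod ℓ) : fcE b₂ b₄ b₆ a ≤ 2 := by
  unfold fcE
  split_ifs <;> omega

theorem fc_pow_half_of_not_isSquare {t : ZMod ℓ} (h0 : t ≠ 0) (hsq : ¬ IsSquare t) :
    t ^ (ℓ / 2) = -1 := by
  rcases ZMod.pow_div_two_eq_neg_one_or_one ℓ h0 with h | h
  · exact absurd ((ZMod.euler_criterion ℓ h0).mpr h) hsq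
  · exact h

theorem fc_pow_dvd (h2 : ℓ ≠ 2) (b₂ b₄ b₆ : ZMod ℓ) (a : ZMod ℓ) :
    (X - C a) ^ fcE b₂ b₄ b₆ a ∣ fcN ℓ b₂ b₄ b₆ := by
  have hne := fcN_ne_zero h2 b₂ b₄ b₆
  rw [← le_rootMultiplicity_iff hne]
  unfold fcE
  split_ifs with h0 hsq
  · have : 0 < (fcN ℓ b₂ b₄ b₆).rootMultiplicity a := by
      rw [rootMultiplicity_pos hne, IsRoot.def, fcN_eval b₂ b₄ b₆ h2, h0]
      ring
    omega
  · exact Nat.zero_le _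
  · have hm := fc_pow_half_of_not_isSquare h0 hsq
    have : 1 < (fcN ℓ b₂ b₄ b₆).rootMultiplicity a := by
      rw [one_lt_rootMultiplicity_iff_isRoot hne, IsRoot.def, IsRoot.def,
        fcN_eval b₂ b₄ b₆ h2, fcN_derivative_eval b₂ b₄ b₆ h2, hm]
      constructor <;> ring
    omega

theorem fc_rootMultiplicity_eq (h2 : ℓ ≠ 2) (b₂ b₄ b₆ : ZMod ℓ)
    (hsf : ∀ a, (fcG ℓ b₂ b₄ b₆).eval a = 0 → (derivative (fcG ℓ b₂ b₄ b₆)).eval a ≠ 0)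
    (a : ZMod ℓ) (he : fcE b₂ b₄ b₆ a < 2) :
    (fcN ℓ b₂ b₄ b₆).rootMultiplicity a = fcE b₂ b₄ b₆ a := by
  have hne := fcN_ne_zero h2 b₂ b₄ b₆
  have hge := (le_rootMultiplicity_iff hne).mpr (fc_pow_dvd h2 b₂ b₄ b₆ a)
  unfold fcE at he hge ⊢
  split_ifs at he hge ⊢ with h0 hsq
  · have : ¬ 1 < (fcN ℓ b₂ b₄ b₆).rootMultiplicity a := by
      rw [one_lt_rootMultiplicity_iff_isRoot hne]
      rintro ⟨-, h⟩
      rw [IsRoot.def, fcN_derivative_eval b₂ b₄ b₆ h2, h0, zero_pow fc_half_pos.ne', add_zero,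
        mul_one] at h
      exact hsf a h0 h
    omega
  · apply rootMultiplicity_eq_zero
    rw [IsRoot.def, fcN_eval b₂ b₄ b₆ h2, (ZMod.euler_criterion ℓ h0).mp hsq]
    have h4 := fc_four_ne_zero (ℓ := ℓ) h2
    intro h
    apply mul_ne_zero h4 h0
    linear_combination h
  · omega

/-- the common factor `∏ (X - a)^(e a)` -/
noncomputable def fcGcd (b₂ b₄ b₆ : ZMod ℓ) : (ZMod ℓ)[X] :=
  ∏ a : ZMod ℓ, (X - C a) ^ fcE b₂ b₄ b₆ a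

/-- the reduced denominator `4 ∏ (X - a)^(2 - e a)` -/
noncomputable def fcDen (b₂ b₄ b₆ : ZMod ℓ) : (ZMod ℓ)[X] :=
  C 4 * ∏ a : ZMod ℓ, (X - C a) ^ (2 - fcE b₂ b₄ b₆ a)

theorem fcGcd_monic (b₂ b₄ b₆ : ZMod ℓ) : (fcGcd b₂ b₄ b₆).Monic :=
  monic_prod_of_monic _ _ fun a _ => (monic_X_sub_C a).pow _

theorem fcGcd_natDegree (b₂ b₄ b₆ : ZMod ℓ) :
    (fcGcd b₂ b₄ b₆).natDegree = ∑ a : ZMod ℓ, fcE b₂ b₄ b₆ a := by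
  unfold fcGcd
  rw [natDegree_prod_of_monic _ _ fun a _ => (monic_X_sub_C a).pow _]
  refine Finset.sum_congr rfl fun a _ => ?_
  rw [(monic_X_sub_C a).natDegree_pow, natDegree_X_sub_C, mul_one]

theorem fcDen_natDegree (h2 : ℓ ≠ 2) (b₂ b₄ b₆ : ZMod ℓ) :
    (fcDen b₂ b₄ b₆).natDegree + ∑ a : ZMod ℓ, fcE b₂ b₄ b₆ a = 2 * ℓ := by
  unfold fcDen
  rw [natDegree_C_mul (fc_four_ne_zero h2),
    natDegree_prod_of_monic _ _ fun a _ => (monic_X_sub_C a).pow _, ← Finset.sum_add_distrib]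
  have : ∀ a ∈ (Finset.univ : Finset (ZMod ℓ)),
      ((X - C a) ^ (2 - fcE b₂ b₄ b₆ a)).natDegree + fcE b₂ b₄ b₆ a = 2 := by
    intro a _
    rw [(monic_X_sub_C a).natDegree_pow, natDegree_X_sub_C, mul_one]
    have := fcE_le_two b₂ b₄ b₆ a
    omega
  rw [Finset.sum_congr rfl this, Finset.sum_const, Finset.card_univ, ZMod.card, smul_eq_mul,
    mul_comm]

theorem fcGcd_mul_fcDen (b₂ b₄ b₆ : ZMod ℓ) :
    fcGcd b₂ b₄ b₆ * fcDen b₂ b₄ b₆ = 4 * (X - X ^ ℓ) ^ 2 := by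
  unfold fcGcd fcDen
  have h4 : (C 4 : (ZMod ℓ)[X]) = 4 := map_ofNat C 4
  rw [h4, mul_left_comm, ← Finset.prod_mul_distrib]
  have : ∀ a ∈ (Finset.univ : Finset (ZMod ℓ)),
      (X - C a) ^ fcE b₂ b₄ b₆ a * (X - C a) ^ (2 - fcE b₂ b₄ b₆ a) = (X - C a) ^ 2 := by
    intro a _
    rw [← pow_add]
    congr 1
    have := fcE_le_two b₂ b₄ b₆ a
    omega
  rw [Finset.prod_congr rfl this, Finset.prod_pow, fc_prod_X_sub_C]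
  ring

theorem fcGcd_dvd (h2 : ℓ ≠ 2) (b₂ b₄ b₆ : ZMod ℓ) : fcGcd b₂ b₄ b₆ ∣ fcN ℓ b₂ b₄ b₆ := by
  unfold fcGcd
  apply Finset.prod_dvd_of_coprime
  · intro a _ b _ hab
    exact (isCoprime_X_sub_C_of_isUnit_sub (sub_ne_zero_of_ne hab).isUnit).pow
  · intro a _
    exact fc_pow_dvd h2 b₂ b₄ b₆ a

/-- **the reduced fraction** of `n / (4 (X - X^ℓ)²)` -/
theorem fc_reduced (h2 : ℓ ≠ 2) (b₂ b₄ b₆ : ZMod ℓ)
    (hsf : ∀ a, (fcG ℓ b₂ b₄ b₆).eval a = 0 → (derivative (fcG ℓ b₂ b₄ b₆)).eval a ≠ 0) :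
    ∃ G n₁ D₁ : (ZMod ℓ)[X], G ≠ 0 ∧ D₁ ≠ 0 ∧ fcN ℓ b₂ b₄ b₆ = G * n₁ ∧
      4 * (X - X ^ ℓ) ^ 2 = G * D₁ ∧ IsCoprime n₁ D₁ ∧
      n₁.natDegree + ∑ a : ZMod ℓ, fcE b₂ b₄ b₆ a = 2 * ℓ + 1 ∧
      D₁.natDegree + ∑ a : ZMod ℓ, fcE b₂ b₄ b₆ a = 2 * ℓ := by
  obtain ⟨n₁, hn₁⟩ := fcGcd_dvd h2 b₂ b₄ b₆
  have hne := fcN_ne_zero h2 b₂ b₄ b₆
  have hG0 : fcGcd b₂ b₄ b₆ ≠ 0 := (fcGcd_monic b₂ b₄ b₆).ne_zero
  have hn₁0 : n₁ ≠ 0 := by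
    rintro rfl
    exact hne (by rw [hn₁, mul_zero])
  have hD0 : fcDen b₂ b₄ b₆ ≠ 0 := by
    intro h
    have := fcGcd_mul_fcDen b₂ b₄ b₆
    rw [h, mul_zero] at this
    have h4 : (4 : (ZMod ℓ)[X]) ≠ 0 := by
      rw [← map_ofNat C 4]
      exact C_ne_zero.mpr (fc_four_ne_zero h2)
    have hx : (X - X ^ ℓ : (ZMod ℓ)[X]) ≠ 0 := by
      intro h0
      have h1 := FiniteField.X_pow_card_sub_X_ne_zero (ZMod ℓ) hℓ.out.one_lt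
      apply h1
      linear_combination -h0
    exact mul_ne_zero h4 (pow_ne_zero 2 hx) this.symm
  have heval : ∀ a : ZMod ℓ, fcE b₂ b₄ b₆ a < 2 → n₁.eval a ≠ 0 := by
    intro a he h0
    have hdvd : (X - C a) ∣ n₁ := dvd_iff_isRoot.mpr h0
    have h1 : (X - C a) ^ (fcE b₂ b₄ b₆ a + 1) ∣ fcN ℓ b₂ b₄ b₆ := by
      rw [hn₁, pow_succ]
      exact mul_dvd_mul (Finset.dvd_prod_of_mem _ (Finset.mem_univ a)) hdvd
    have h3 := (le_rootMultiplicity_iff hne).mpr h1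
    rw [fc_rootMultiplicity_eq h2 b₂ b₄ b₆ hsf a he] at h3
    omega
  refine ⟨fcGcd b₂ b₄ b₆, n₁, fcDen b₂ b₄ b₆, hG0, hD0, hn₁, (fcGcd_mul_fcDen b₂ b₄ b₆).symm, ?_,
    ?_, fcDen_natDegree h2 b₂ b₄ b₆⟩
  · unfold fcDen
    rw [isCoprime_mul_unit_left_right (isUnit_C.mpr (fc_four_ne_zero h2).isUnit)]
    · apply IsCoprime.prod_right
      intro a _
      by_cases he : fcE b₂ b₄ b₆ a < 2
      · exact (fc_isCoprime_of_eval_ne_zero (heval a he)).pow_right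
      · have : 2 - fcE b₂ b₄ b₆ a = 0 := by omega
        rw [this, pow_zero]
        exact isCoprime_one_right
  · have := congrArg natDegree hn₁
    rw [natDegree_mul hG0 hn₁0, fcN_natDegree h2, fcGcd_natDegree] at this
    omega

end poly

end Fermat.Agent.EC
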