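import Mathlib
import Fermat.Agent.EC.FrobCount_helper8_Poly

set_option autoImplicit false

/-!
# Package (E), part 2: counting the points of a Weierstrass curve over `𝔽_ℓ` (ℓ odd) fibrewise
-/

namespace Fermat.Agent.EC

open Polynomial WeierstrassCurve WeierstrassCurve.Affine

variable {ℓ : ℕ} [hℓ : Fact ℓ.Prime]

/-- number of square roots -/
theorem fc_card_sqrt (h2 : ℓ ≠ 2) (b₂ b₄ b₆ : ZMod ℓ) (a : ZMod ℓ) :
    Nat.card {η : ZMod ℓ // η ^ 2 = (fcG ℓ b₂ b₄ b₆).eval a} + fcE b₂ b₄ b₆ a = 2 := by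
  classical
  set t := (fcG ℓ b₂ b₄ b₆).eval a with ht
  rw [Nat.card_eq_fintype_card, Fintype.card_subtype]
  unfold fcE
  rw [← ht]
  split_ifs with h0 hsq
  · have : (Finset.univ.filter fun η : ZMod ℓ => η ^ 2 = t) = {0} := by
      ext η
      simp [h0]
    rw [this, Finset.card_singleton]
  · obtain ⟨s, hs⟩ := hsq
    have hs0 : s ≠ 0 := by
      rintro rfl
      exact h0 (by rw [hs, mul_zero])
    have hne : s ≠ -s := by
      intro h
      have h1 : (2 : ZMod ℓ) * s = 0 := by linear_combination h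
      rcases mul_eq_zero.mp h1 with h | h
      · exact fc_two_ne_zero h2 h
      · exact hs0 h
    have : (Finset.univ.filter fun η : ZMod ℓ => η ^ 2 = t) = {s, -s} := by
      ext η
      simp only [Finset.mem_filter, Finset.mem_univ, true_and, Finset.mem_insert,
        Finset.mem_singleton]
      rw [hs, ← sq, sq_eq_sq_iff_eq_or_eq_neg]
    rw [this, Finset.card_pair hne]
  · have : (Finset.univ.filter fun η : ZMod ℓ => η ^ 2 = t) = ∅ := by
      ext η
      simp only [Finset.mem_filter, Finset.mem_univ, true_and, Finset.notMem_empty, iff_false]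
      intro h
      exact hsq ⟨η, by rw [← h, sq]⟩
    rw [this, Finset.card_empty]

variable (W₀ : WeierstrassCurve (ZMod ℓ))

theorem fcG_eval (a : ZMod ℓ) : (fcG ℓ W₀.b₂ W₀.b₄ W₀.b₆).eval a =
    4 * a ^ 3 + W₀.b₂ * a ^ 2 + 2 * W₀.b₄ * a + W₀.b₆ := by
  unfold fcG
  simp only [eval_add, eval_mul, eval_pow, eval_X, eval_C, eval_ofNat]

theorem fcG_derivative_eval (a : ZMod ℓ) : (derivative (fcG ℓ W₀.b₂ W₀.b₄ W₀.b₆)).eval a =
    12 * a ^ 2 + 2 * W₀.b₂ * a + 2 * W₀.b₄ := by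
  unfold fcG
  simp only [derivative_add, derivative_mul, derivative_pow, derivative_X, derivative_C,
    derivative_ofNat, eval_add, eval_mul, eval_pow, eval_X, eval_C, eval_ofNat, eval_zero,
    eval_natCast, map_natCast]
  norm_num
  ring

/-- `g` is squarefree when `Δ ≠ 0` (ℓ odd) -/
theorem fc_squarefree (h2 : ℓ ≠ 2) (hΔ : W₀.Δ ≠ 0) (a : ZMod ℓ)
    (h : (fcG ℓ W₀.b₂ W₀.b₄ W₀.b₆).eval a = 0) :
    (derivative (fcG ℓ W₀.b₂ W₀.b₄ W₀.b₆)).eval a ≠ 0 := by
  intro h'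
  rw [fcG_eval] at h
  rw [fcG_derivative_eval] at h'
  have hrel := W₀.b_relation
  have h8 : (8 : ZMod ℓ) * W₀.Δ = 0 := by
    rw [WeierstrassCurve.Δ]
    linear_combination
      (-216 * W₀.b₆ + 60 * W₀.b₂ * W₀.b₄ - 2 * W₀.b₂ ^ 3 + 288 * W₀.b₄ * a - 12 * W₀.b₂ ^ 2 * a) * h +
      (-32 * W₀.b₄ ^ 2 + 6 * W₀.b₂ * W₀.b₆ + W₀.b₂ ^ 2 * W₀.b₄ +
        (72 * W₀.b₆ - 28 * W₀.b₂ * W₀.b₄ + W₀.b₂ ^ 3) * a +
        (-96 * W₀.b₄ + 4 * W₀.b₂ ^ 2) * a ^ 2) * h' + (-2 * W₀.b₂ ^ 2) * hrel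
  have h8' : (8 : ZMod ℓ) ≠ 0 := by
    have : (8 : ZMod ℓ) = 2 * 2 * 2 := by norm_num
    rw [this]
    exact mul_ne_zero (mul_ne_zero (fc_two_ne_zero h2) (fc_two_ne_zero h2)) (fc_two_ne_zero h2)
  rcases mul_eq_zero.mp h8 with h | h
  · exact h8' h
  · exact hΔ h

/-- the fibre of the curve over `x = a` is in bijection with the square roots of `g(a)` -/
noncomputable def fcFibreEquiv (h2 : ℓ ≠ 2) (a : ZMod ℓ) :
    {y : ZMod ℓ // W₀.toAffine.Equation a y} ≃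
      {η : ZMod ℓ // η ^ 2 = (fcG ℓ W₀.b₂ W₀.b₄ W₀.b₆).eval a} where
  toFun y := ⟨2 * y.1 + W₀.a₁ * a + W₀.a₃, by
    have := (equation_iff a y.1).mp y.2
    rw [fcG_eval]
    simp only [WeierstrassCurve.b₂, WeierstrassCurve.b₄, WeierstrassCurve.b₆]
    linear_combination 4 * this⟩
  invFun η := ⟨(η.1 - W₀.a₁ * a - W₀.a₃) / 2, by
    have := η.2.trans (fcG_eval W₀ a)
    simp only [WeierstrassCurve.b₂, WeierstrassCurve.b₄, WeierstrassCurve.b₆] at this
    rw [equation_iff]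
    have h2' := fc_two_ne_zero (ℓ := ℓ) h2
    field_simp
    linear_combination this⟩
  left_inv y := by
    have h2' := fc_two_ne_zero (ℓ := ℓ) h2
    ext
    simp only
    field_simp
    ring
  right_inv η := by
    have h2' := fc_two_ne_zero (ℓ := ℓ) h2
    ext
    simp only
    field_simp
    ring

/-- **the point count, fibrewise** -/
theorem fc_card_point (h2 : ℓ ≠ 2) (hΔ : W₀.Δ ≠ 0) :
    Nat.card W₀.toAffine.Point + ∑ a : ZMod ℓ, fcE W₀.b₂ W₀.b₄ W₀.b₆ a = 2 * ℓ + 1 := by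
  have e1 : W₀.toAffine.Point ≃
      Option (Σ a : ZMod ℓ, {y : ZMod ℓ // W₀.toAffine.Equation a y}) :=
    (nonsingularPointEquiv W₀.toAffine).trans (Equiv.optionCongr
      ((Equiv.subtypeEquivRight fun xy =>
        (equation_iff_nonsingular_of_Δ_ne_zero (W := W₀.toAffine) hΔ).symm).trans
          (Equiv.subtypeProdEquivSigmaSubtype fun a y => W₀.toAffine.Equation a y)))
  rw [Nat.card_congr e1, Finite.card_option, Nat.card_sigma]
  have : ∀ a ∈ (Finset.univ : Finset (ZMod ℓ)),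
      Nat.card {y : ZMod ℓ // W₀.toAffine.Equation a y} + fcE W₀.b₂ W₀.b₄ W₀.b₆ a = 2 := by
    intro a _
    rw [Nat.card_congr (fcFibreEquiv W₀ h2 a)]
    exact fc_card_sqrt h2 _ _ _ a
  have hsum := Finset.sum_congr rfl this
  rw [Finset.sum_add_distrib, Finset.sum_const, Finset.card_univ, ZMod.card, smul_eq_mul] at hsum
  omega

end Fermat.Agent.EC
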