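import Mathlib
import Fermat.Agent.EC.FrobCount_helper8_Count
import Fermat.Agent.EC.Deg_helper5_Basic

set_option autoImplicit false

/-!
# Package (E): `ratDeg (x(P₀ - φP₀)) = #E(𝔽_ℓ)` for odd `ℓ`

For a Weierstrass curve `W₀` over `𝔽_ℓ` (`ℓ` odd, `Δ ≠ 0`) and any field `k ⊇ 𝔽_ℓ`, the rational
function `x(P₀ - φP₀) ∈ k(x)` (explicitly given) has degree `#W₀(𝔽_ℓ)`.
-/

namespace Fermat.Agent.EC

open Polynomial

/-- **package (E)**, with the cubic `g` abstracted -/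
theorem ratDeg_frob_count' (ℓ : ℕ) [Fact ℓ.Prime] (hℓ : ℓ ≠ 2) (W₀ : WeierstrassCurve (ZMod ℓ))
    (hΔ : W₀.Δ ≠ 0) (k : Type*) [Field k] [Algebra (ZMod ℓ) k] (g : RatFunc k)
    (hg : g = 4 * RatFunc.X ^ 3 + algebraMap (ZMod ℓ) (RatFunc k) W₀.b₂ * RatFunc.X ^ 2 +
      2 * algebraMap (ZMod ℓ) (RatFunc k) W₀.b₄ * RatFunc.X +
      algebraMap (ZMod ℓ) (RatFunc k) W₀.b₆) :
    ratDeg ((g + 2 * g ^ ((ℓ + 1) / 2) + g ^ ℓ -
      (algebraMap (ZMod ℓ) (RatFunc k) W₀.b₂ + 4 * RatFunc.X + 4 * RatFunc.X ^ ℓ) *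
        (RatFunc.X - RatFunc.X ^ ℓ) ^ 2) / (4 * (RatFunc.X - RatFunc.X ^ ℓ) ^ 2)) =
      Nat.card W₀.toAffine.Point := by
  set ι := algebraMap (ZMod ℓ) k with hι
  set φ := algebraMap k[X] (RatFunc k) with hφ
  have key1 : ∀ b : ZMod ℓ, algebraMap (ZMod ℓ) (RatFunc k) b = φ (C (ι b)) := by
    intro b
    rw [IsScalarTower.algebraMap_apply (ZMod ℓ) k[X] (RatFunc k), Polynomial.algebraMap_apply]
  have hφX : φ X = RatFunc.X := RatFunc.algebraMap_X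
  have keyg : g = φ ((fcG ℓ W₀.b₂ W₀.b₄ W₀.b₆).map ι) := by
    rw [hg, fcG]
    simp only [Polynomial.map_add, Polynomial.map_mul, Polynomial.map_pow, Polynomial.map_X,
      Polynomial.map_C, Polynomial.map_ofNat, map_add, map_mul, map_pow, map_ofNat, hφX, key1]
  have key2 : g + 2 * g ^ ((ℓ + 1) / 2) + g ^ ℓ -
      (algebraMap (ZMod ℓ) (RatFunc k) W₀.b₂ + 4 * RatFunc.X + 4 * RatFunc.X ^ ℓ) *
        (RatFunc.X - RatFunc.X ^ ℓ) ^ 2 = φ ((fcN ℓ W₀.b₂ W₀.b₄ W₀.b₆).map ι) := by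
    rw [fcN, keyg]
    simp only [Polynomial.map_add, Polynomial.map_sub, Polynomial.map_mul, Polynomial.map_pow,
      Polynomial.map_X, Polynomial.map_C, Polynomial.map_ofNat, map_add, map_sub, map_mul, map_pow,
      map_ofNat, hφX, key1]
  have key3 : (4 * (RatFunc.X - RatFunc.X ^ ℓ) ^ 2 : RatFunc k) =
      φ ((4 * (X - X ^ ℓ) ^ 2 : (ZMod ℓ)[X]).map ι) := by
    simp only [Polynomial.map_sub, Polynomial.map_mul, Polynomial.map_pow,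
      Polynomial.map_X, Polynomial.map_ofNat, map_sub, map_mul, map_pow, map_ofNat, hφX]
  obtain ⟨G, n₁, D₁, hG, hD, hn, hd, hcop, hdn, hdd⟩ :=
    fc_reduced hℓ W₀.b₂ W₀.b₄ W₀.b₆ (fc_squarefree W₀ hℓ hΔ)
  have hinj : Function.Injective ι := ι.injective
  have hG' : G.map ι ≠ 0 := (Polynomial.map_ne_zero_iff hinj).mpr hG
  have hD' : D₁.map ι ≠ 0 := (Polynomial.map_ne_zero_iff hinj).mpr hD
  have hcop' : IsCoprime (n₁.map ι) (D₁.map ι) := hcop.map (mapRingHom ι)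
  rw [key2, key3, hn, hd, Polynomial.map_mul, Polynomial.map_mul,
    ratDeg_div_mul_left hG' hD' hcop', natDegree_map, natDegree_map]
  have := fc_card_point W₀ hℓ hΔ
  omega

/-- **package (E)** (helper6's literal) -/
theorem ratDeg_frob_count (ℓ : ℕ) [Fact ℓ.Prime] (hℓ : ℓ ≠ 2) (W₀ : WeierstrassCurve (ZMod ℓ))
    (hΔ : W₀.Δ ≠ 0) (k : Type*) [Field k] [Algebra (ZMod ℓ) k] :
    ratDeg (((4 * RatFunc.X ^ 3 + algebraMap (ZMod ℓ) (RatFunc k) W₀.b₂ * RatFunc.X ^ 2 +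
        2 * algebraMap (ZMod ℓ) (RatFunc k) W₀.b₄ * RatFunc.X +
        algebraMap (ZMod ℓ) (RatFunc k) W₀.b₆) +
      2 * (4 * RatFunc.X ^ 3 + algebraMap (ZMod ℓ) (RatFunc k) W₀.b₂ * RatFunc.X ^ 2 +
        2 * algebraMap (ZMod ℓ) (RatFunc k) W₀.b₄ * RatFunc.X +
        algebraMap (ZMod ℓ) (RatFunc k) W₀.b₆) ^ ((ℓ + 1) / 2) +
      (4 * RatFunc.X ^ 3 + algebraMap (ZMod ℓ) (RatFunc k) W₀.b₂ * RatFunc.X ^ 2 +
        2 * algebraMap (ZMod ℓ) (RatFunc k) W₀.b₄ * RatFunc.X +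
        algebraMap (ZMod ℓ) (RatFunc k) W₀.b₆) ^ ℓ -
      (algebraMap (ZMod ℓ) (RatFunc k) W₀.b₂ + 4 * RatFunc.X + 4 * RatFunc.X ^ ℓ) *
        (RatFunc.X - RatFunc.X ^ ℓ) ^ 2) / (4 * (RatFunc.X - RatFunc.X ^ ℓ) ^ 2)) =
      Nat.card W₀.toAffine.Point :=
  ratDeg_frob_count' ℓ hℓ W₀ hΔ k _ rfl

end Fermat.Agent.EC
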