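import Mathlib
import Fermat.Agent.EC.FrobCount_helper8_Main

set_option autoImplicit false

/-!
# Package (E), part 4: the bridge to Mathlib's group law (odd `ℓ`)

For a field `K` of characteristic `ℓ` (odd), a Weierstrass curve `W` over `K` with
`a₁^ℓ = a₁`, `a₃^ℓ = a₃`, and a point `(x, y)` of `W` with `x ≠ x^ℓ`,
`x((x,y) - (x^ℓ,y^ℓ)) = frobFormula ℓ b₂ b₄ b₆ x`.
-/

namespace Fermat.Agent.EC

open WeierstrassCurve WeierstrassCurve.Affine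

/-- the explicit formula for `x(P₀ - φP₀)` (odd `ℓ`) -/
def frobFormula {K : Type*} [Field K] (ℓ : ℕ) (b₂ b₄ b₆ x : K) : K :=
  ((4 * x ^ 3 + b₂ * x ^ 2 + 2 * b₄ * x + b₆) +
      2 * (4 * x ^ 3 + b₂ * x ^ 2 + 2 * b₄ * x + b₆) ^ ((ℓ + 1) / 2) +
      (4 * x ^ 3 + b₂ * x ^ 2 + 2 * b₄ * x + b₆) ^ ℓ -
      (b₂ + 4 * x + 4 * x ^ ℓ) * (x - x ^ ℓ) ^ 2) / (4 * (x - x ^ ℓ) ^ 2)

theorem frobFormula_map {K L : Type*} [Field K] [Field L] (σ : K →+* L) (ℓ : ℕ)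
    (b₂ b₄ b₆ x : K) :
    σ (frobFormula ℓ b₂ b₄ b₆ x) = frobFormula ℓ (σ b₂) (σ b₄) (σ b₆) (σ x) := by
  unfold frobFormula
  simp only [map_div₀, map_add, map_sub, map_mul, map_pow, map_ofNat]

/-- **package (E)** in terms of `frobFormula` -/
theorem ratDeg_frobFormula (ℓ : ℕ) [Fact ℓ.Prime] (hℓ : ℓ ≠ 2) (W₀ : WeierstrassCurve (ZMod ℓ))
    (hΔ : W₀.Δ ≠ 0) (k : Type*) [Field k] [Algebra (ZMod ℓ) k] :
    ratDeg (frobFormula ℓ (algebraMap (ZMod ℓ) (RatFunc k) W₀.b₂)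
      (algebraMap (ZMod ℓ) (RatFunc k) W₀.b₄) (algebraMap (ZMod ℓ) (RatFunc k) W₀.b₆)
      (RatFunc.X : RatFunc k)) = Nat.card W₀.toAffine.Point :=
  ratDeg_frob_count ℓ hℓ W₀ hΔ k

/-- **the bridge**: `x((x,y) - (x^ℓ,y^ℓ))` via Mathlib's `addX`, `slope`, `negY` -/
theorem frob_addX {K : Type*} [Field K] [DecidableEq K] (ℓ : ℕ) [hp : Fact ℓ.Prime] [CharP K ℓ]
    (hℓ : ℓ ≠ 2) (W : Affine K) (h₁ : W.a₁ ^ ℓ = W.a₁) (h₃ : W.a₃ ^ ℓ = W.a₃) {x y : K}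
    (h : W.Equation x y) (hx : x ≠ x ^ ℓ) :
    W.addX x (x ^ ℓ) (W.slope x (x ^ ℓ) y (W.negY (x ^ ℓ) (y ^ ℓ))) =
      frobFormula ℓ W.b₂ W.b₄ W.b₆ x := by
  have hd : x - x ^ ℓ ≠ 0 := sub_ne_zero.mpr hx
  have h2 : (2 : K) ≠ 0 := by
    intro h0
    have h1 : ((2 : ℕ) : K) = 0 := by exact_mod_cast h0
    rw [CharP.cast_eq_zero_iff K ℓ] at h1
    have := hp.out.two_le
    have := Nat.le_of_dvd (by norm_num) h1
    omega
  have h4 : (4 : K) ≠ 0 := by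
    have : (4 : K) = 2 * 2 := by norm_num
    rw [this]; exact mul_ne_zero h2 h2
  -- `η = 2y + a₁x + a₃`, `η² = g`
  set η := 2 * y + W.a₁ * x + W.a₃ with hη
  set e := 2 * y ^ ℓ + W.a₁ * x ^ ℓ + W.a₃ with he
  have hg : 4 * x ^ 3 + W.b₂ * x ^ 2 + 2 * W.b₄ * x + W.b₆ = η ^ 2 := by
    rw [equation_iff] at h
    simp only [hη, WeierstrassCurve.b₂, WeierstrassCurve.b₄, WeierstrassCurve.b₆]
    linear_combination (-4 : K) * h
  have h2ℓ : (2 : K) ^ ℓ = 2 := by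
    have := map_ofNat (frobenius K ℓ) 2
    rwa [frobenius_def] at this
  have hηℓ : η ^ ℓ = e := by
    rw [hη, he, add_pow_char, add_pow_char, mul_pow, mul_pow, h2ℓ, h₁, h₃]
  have hodd : ℓ = 2 * (ℓ / 2) + 1 := by
    rcases hp.out.eq_two_or_odd with h | h
    · exact absurd h hℓ
    · omega
  have hhalf : (ℓ + 1) / 2 = ℓ / 2 + 1 := by omega
  have hpow1 : (η ^ 2) ^ ((ℓ + 1) / 2) = e * η := by
    rw [← hηℓ, ← pow_mul, ← pow_succ]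
    congr 1
    omega
  have hpow2 : (η ^ 2) ^ ℓ = e ^ 2 := by
    rw [← hηℓ, ← pow_mul, ← pow_mul, mul_comm]
  unfold frobFormula
  rw [hg, hpow1, hpow2, slope_of_X_ne hx]
  simp only [addX, negY, WeierstrassCurve.b₂, hη, he]
  field_simp
  ring

/-- the bridge for a base change from `𝔽_ℓ` (helper6's shape) -/
theorem frob_addX_baseChange (ℓ : ℕ) [Fact ℓ.Prime] (hℓ : ℓ ≠ 2) (W₀ : WeierstrassCurve (ZMod ℓ))
    (K : Type*) [Field K] [DecidableEq K] [Algebra (ZMod ℓ) K] {x y : K}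
    (h : (W₀.baseChange K).toAffine.Equation x y) (hx : x ≠ x ^ ℓ) :
    (W₀.baseChange K).toAffine.addX x (x ^ ℓ)
        ((W₀.baseChange K).toAffine.slope x (x ^ ℓ) y
          ((W₀.baseChange K).toAffine.negY (x ^ ℓ) (y ^ ℓ))) =
      frobFormula ℓ (algebraMap (ZMod ℓ) K W₀.b₂) (algebraMap (ZMod ℓ) K W₀.b₄)
        (algebraMap (ZMod ℓ) K W₀.b₆) x := by
  have : CharP K ℓ := charP_of_injective_algebraMap (algebraMap (ZMod ℓ) K).injective ℓ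
  have hfix : ∀ a : ZMod ℓ, (algebraMap (ZMod ℓ) K a) ^ ℓ = algebraMap (ZMod ℓ) K a := by
    intro a
    rw [← map_pow, ZMod.pow_card]
  have := frob_addX ℓ hℓ (W₀.baseChange K).toAffine (hfix _) (hfix _) h hx
  rw [this]
  simp only [WeierstrassCurve.baseChange, WeierstrassCurve.map_b₂, WeierstrassCurve.map_b₄,
    WeierstrassCurve.map_b₆]

end Fermat.Agent.EC
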