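import Mathlib
import Fermat.Agent.EC.FrobCount_helper8_Formula

set_option autoImplicit false

/-!
# Package (E), part 5: `k`-algebra homomorphisms out of `k(X)` (odd `ℓ`)

`frobFormula_algHom` : a `k`-algebra homomorphism `ε : k(X) → K` sends the rational function of
`ratDeg_frobFormula` to `frobFormula ℓ (bᵢ) (ε X)` (same shape as helper1's `frob2Formula_algHom`).
-/

namespace Fermat.Agent.EC

theorem frobFormula_algHom (ℓ : ℕ) (k : Type*) [Field k] [Algebra (ZMod ℓ) k] (K : Type*)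
    [Field K] [Algebra k K] [Algebra (ZMod ℓ) K] [IsScalarTower (ZMod ℓ) k K]
    (ε : RatFunc k →ₐ[k] K) (b₂ b₄ b₆ : ZMod ℓ) :
    ε (frobFormula ℓ (algebraMap (ZMod ℓ) (RatFunc k) b₂) (algebraMap (ZMod ℓ) (RatFunc k) b₄)
        (algebraMap (ZMod ℓ) (RatFunc k) b₆) (RatFunc.X : RatFunc k)) =
      frobFormula ℓ (algebraMap (ZMod ℓ) K b₂) (algebraMap (ZMod ℓ) K b₄)
        (algebraMap (ZMod ℓ) K b₆) (ε RatFunc.X) := by
  have hc : ∀ a : ZMod ℓ, ε (algebraMap (ZMod ℓ) (RatFunc k) a) = algebraMap (ZMod ℓ) K a := by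
    intro a
    rw [IsScalarTower.algebraMap_apply (ZMod ℓ) k (RatFunc k), ε.commutes,
      ← IsScalarTower.algebraMap_apply (ZMod ℓ) k K]
  have := frobFormula_map (ε : RatFunc k →+* K) ℓ (algebraMap (ZMod ℓ) (RatFunc k) b₂)
    (algebraMap (ZMod ℓ) (RatFunc k) b₄) (algebraMap (ZMod ℓ) (RatFunc k) b₆) RatFunc.X
  simpa only [RingHom.coe_coe, hc] using this

end Fermat.Agent.EC
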