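import Mathlib
import Fermat.Agent.EC.Deg_helper5_Basic

set_option autoImplicit false

/-!
# `ratDeg` algebra, part (B3): multiplicativity under `k`-algebra endomorphisms of `k(X)`
-/

namespace Fermat.Agent.EC

open Polynomial IntermediateField

variable {k : Type*} [Field k]

/-- (B3) `deg (r ∘ g) = deg r * deg g` for `g = σ X` -/
theorem ratDeg_algHom (σ : RatFunc k →ₐ[k] RatFunc k) (r : RatFunc k) :
    ratDeg (σ r) = ratDeg r * ratDeg (σ RatFunc.X) := by
  rw [ratDeg_eq_finrank, ratDeg_eq_finrank r, ratDeg_eq_finrank (σ RatFunc.X)]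
  have h1 : adjoin k {σ r} = (adjoin k {r}).map σ := by
    rw [IntermediateField.adjoin_map, Set.image_singleton]
  have h2 : adjoin k {σ RatFunc.X} = (⊤ : IntermediateField k (RatFunc k)).map σ := by
    rw [← RatFunc.adjoin_X, IntermediateField.adjoin_map, Set.image_singleton]
  have hle : adjoin k {σ r} ≤ adjoin k {σ RatFunc.X} := by
    rw [h1, h2]; exact IntermediateField.map_mono σ le_top
  rw [← relfinrank_mul_finrank_top hle, h1, h2, relfinrank_map_map, relfinrank_top_right]

/-- substitution `X ↦ f` for a non-constant `f`, as a `k`-algebra endomorphism of `k(X)` -/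
noncomputable def ratSubst (f : RatFunc k) (hf : ¬ ∃ c, f = RatFunc.C c) :
    RatFunc k →ₐ[k] RatFunc k :=
  (k⟮f⟯.val).comp (RatFunc.algEquivOfTranscendental f (RatFunc.transcendental_of_ne_C f hf)).toAlgHom

theorem ratSubst_X (f : RatFunc k) (hf : ¬ ∃ c, f = RatFunc.C c) :
    ratSubst f hf RatFunc.X = f := by
  simp [ratSubst]

theorem ratSubst_apply (f : RatFunc k) (hf : ¬ ∃ c, f = RatFunc.C c) (u : RatFunc k) :
    ratSubst f hf u = aeval f u.num / aeval f u.denom := by
  simp [ratSubst, RatFunc.algEquivOfTranscendental_apply]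

theorem ratSubst_algebraMap (f : RatFunc k) (hf : ¬ ∃ c, f = RatFunc.C c) (p : k[X]) :
    ratSubst f hf (algebraMap k[X] (RatFunc k) p) = aeval f p := by
  simp [ratSubst]

/-- (B3') `deg (u ∘ f) = deg u * deg f` -/
theorem ratDeg_ratSubst (f : RatFunc k) (hf : ¬ ∃ c, f = RatFunc.C c) (u : RatFunc k) :
    ratDeg (ratSubst f hf u) = ratDeg u * ratDeg f := by
  rw [ratDeg_algHom, ratSubst_X]

/-- (B3'') composition with a polynomial quotient: if `r * q(f) = p(f)` with `p, q` coprime
and `q(f) ≠ 0`, then `deg r = max (deg p) (deg q) * deg f`. -/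
theorem ratDeg_of_mul_aeval_eq {p q : k[X]} (hpq : IsCoprime p q) {f r : RatFunc k}
    (hq : aeval f q ≠ 0) (h : r * aeval f q = aeval f p) :
    ratDeg r = max p.natDegree q.natDegree * ratDeg f := by
  have hq0 : q ≠ 0 := by
    rintro rfl
    simp at hq
  by_cases hf : ∃ c, f = RatFunc.C c
  · obtain ⟨c, rfl⟩ := hf
    have hr : r = aeval (RatFunc.C c) p / aeval (RatFunc.C c) q := by
      rw [eq_div_iff hq, h]
    have e : ∀ g : k[X], aeval (RatFunc.C c : RatFunc k) g = RatFunc.C (g.eval c) := by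
      intro g
      rw [← RatFunc.algebraMap_eq_C, aeval_algebraMap_apply]
      simp
    rw [e, e, ← map_div₀] at hr
    rw [hr, ratDeg_C, ratDeg_C, mul_zero]
  · have hr : r = ratSubst f hf (algebraMap k[X] (RatFunc k) p / algebraMap k[X] (RatFunc k) q) := by
      rw [map_div₀, ratSubst_algebraMap, ratSubst_algebraMap, eq_div_iff hq, h]
    rw [hr, ratDeg_ratSubst, ratDeg_div_of_isCoprime hq0 hpq]

end Fermat.Agent.EC
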