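import Mathlib
import Fermat.Agent.EC.Deg_helper5_Hom
import Fermat.Agent.S58.XPAR_helper8_Delta

set_option autoImplicit false

/-!
# `ratDeg` algebra, part (B2): the parallelogram engine (S58 (E3), package (B))

For `r₁ r₂ r₃ r₄ : RatFunc k` with
`(r₃ + r₄)(r₁ - r₂)² = symS(r₁, r₂)` and `r₃ r₄ (r₁ - r₂)² = symT(r₁, r₂)`
(the `x`-coordinate addition/subtraction identities on a Weierstrass curve with invariants
`b₂ b₄ b₆ b₈`), `ratDeg r₃ + ratDeg r₄ = 2 ratDeg r₁ + 2 ratDeg r₂`, provided the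
polynomials `4x³ + b₂x² + 2b₄x + b₆` and `x⁴ - b₄x² - 2b₆x - b₈` are coprime
(i.e. `Δ ≠ 0`).  Every characteristic, no algebraic closedness.
-/

namespace Fermat.Agent.EC

open Polynomial

/-! ### The `(2,2)`-forms -/

section Forms

variable {R : Type*} [CommRing R]

/-- the sum form `S` in terms of `a = x₁x₂`, `b = z₁z₂`, `s = x₁z₂ + x₂z₁` -/
def rdFormS (b₂ b₄ b₆ a b s : R) : R := 2 * s * a + b₂ * a * b + b₄ * s * b + b₆ * b ^ 2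

/-- the product form `T` -/
def rdFormT (b₄ b₆ b₈ a b s : R) : R := a ^ 2 - b₄ * a * b - b₆ * s * b - b₈ * b ^ 2

theorem map_rdFormS {R' : Type*} [CommRing R'] (φ : R →+* R') (b₂ b₄ b₆ a b s : R) :
    φ (rdFormS b₂ b₄ b₆ a b s) = rdFormS (φ b₂) (φ b₄) (φ b₆) (φ a) (φ b) (φ s) := by
  simp [rdFormS, map_ofNat]

theorem map_rdFormT {R' : Type*} [CommRing R'] (φ : R →+* R') (b₄ b₆ b₈ a b s : R) :
    φ (rdFormT b₄ b₆ b₈ a b s) = rdFormT (φ b₄) (φ b₆) (φ b₈) (φ a) (φ b) (φ s) := by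
  simp [rdFormT]

end Forms

/-! ### Non-vanishing of the forms -/

section NZ

variable {k : Type*} [Field k]

/-- `4x³ + b₂x² + 2b₄x + b₆` -/
noncomputable def rdF (b₂ b₄ b₆ : k) : k[X] := 4 * X ^ 3 + C b₂ * X ^ 2 + 2 * C b₄ * X + C b₆

/-- `x⁴ − b₄x² − 2b₆x − b₈` -/
noncomputable def rdG (b₄ b₆ b₈ : k) : k[X] := X ^ 4 - C b₄ * X ^ 2 - 2 * C b₆ * X - C b₈

/-- the three forms have no common zero on `ℙ¹ × ℙ¹` (over any field extension) -/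
theorem rd_forms_ne_zero {b₂ b₄ b₆ b₈ : k} (hcop : IsCoprime (rdF b₂ b₄ b₆) (rdG b₄ b₆ b₈))
    {K' : Type*} [Field K'] (ψ : k →+* K') {x₁ z₁ x₂ z₂ : K'}
    (h₁ : ¬ (x₁ = 0 ∧ z₁ = 0)) (h₂ : ¬ (x₂ = 0 ∧ z₂ = 0))
    (hD : (x₁ * z₂ - x₂ * z₁) ^ 2 = 0)
    (hS : rdFormS (ψ b₂) (ψ b₄) (ψ b₆) (x₁ * x₂) (z₁ * z₂) (x₁ * z₂ + x₂ * z₁) = 0)
    (hT : rdFormT (ψ b₄) (ψ b₆) (ψ b₈) (x₁ * x₂) (z₁ * z₂) (x₁ * z₂ + x₂ * z₁) = 0) : False := by
  have hD' : x₁ * z₂ = x₂ * z₁ := by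
    have := pow_eq_zero_iff (two_ne_zero) |>.mp hD
    exact sub_eq_zero.mp this
  by_cases hz₁ : z₁ = 0
  · have hx₁ : x₁ ≠ 0 := fun h => h₁ ⟨h, hz₁⟩
    have hz₂ : z₂ = 0 := by
      rw [hz₁, mul_zero] at hD'
      exact (mul_eq_zero.mp hD').resolve_left hx₁
    have hx₂ : x₂ ≠ 0 := fun h => h₂ ⟨h, hz₂⟩
    rw [rdFormT, hz₁, hz₂] at hT
    simp at hT
    rcases hT with h | h
    · exact hx₁ h
    · exact hx₂ h
  · have hz₂ : z₂ ≠ 0 := by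
      intro hz₂
      rw [hz₂, mul_zero] at hD'
      have : x₂ = 0 := (mul_eq_zero.mp hD'.symm).resolve_right hz₁
      exact h₂ ⟨this, hz₂⟩
    set u : K' := x₁ / z₁ with hu
    have hx₁ : x₁ = u * z₁ := by rw [hu, div_mul_cancel₀ _ hz₁]
    have hx₂ : x₂ = u * z₂ := by
      rw [hu, div_mul_eq_mul_div, eq_div_iff hz₁]; exact hD'.symm
    obtain ⟨α, β, hαβ⟩ := hcop
    have hFu : eval₂ ψ u (rdF b₂ b₄ b₆) = 0 := by
      have : (z₁ * z₂) ^ 2 * eval₂ ψ u (rdF b₂ b₄ b₆) = 0 := by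
        rw [← hS, rdFormS, rdF, hx₁, hx₂]
        simp only [eval₂_add, eval₂_mul, eval₂_pow, eval₂_X, eval₂_C, eval₂_ofNat]
        ring
      exact (mul_eq_zero.mp this).resolve_left (pow_ne_zero 2 (mul_ne_zero hz₁ hz₂))
    have hGu : eval₂ ψ u (rdG b₄ b₆ b₈) = 0 := by
      have : (z₁ * z₂) ^ 2 * eval₂ ψ u (rdG b₄ b₆ b₈) = 0 := by
        rw [← hT, rdFormT, rdG, hx₁, hx₂]
        simp only [eval₂_sub, eval₂_mul, eval₂_pow, eval₂_X, eval₂_C, eval₂_ofNat]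
        ring
      exact (mul_eq_zero.mp this).resolve_left (pow_ne_zero 2 (mul_ne_zero hz₁ hz₂))
    have := congrArg (eval₂ ψ u) hαβ
    rw [eval₂_add, eval₂_mul, eval₂_mul, hFu, hGu, mul_zero, mul_zero, add_zero, eval₂_one] at this
    exact zero_ne_one this

end NZ

/-! ### The `B`-triple -/

section Triple

variable {k : Type*} [Field k] (b₂ b₄ b₆ b₈ : k) (p₁ q₁ p₂ q₂ : k[X])

/-- the denominator `(p₁q₂ − p₂q₁)²` -/
noncomputable def rdB0 : k[X] := (p₁ * q₂ - p₂ * q₁) ^ 2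

/-- the bihomogenised sum form -/
noncomputable def rdB1 : k[X] :=
  rdFormS (C b₂) (C b₄) (C b₆) (p₁ * p₂) (q₁ * q₂) (p₁ * q₂ + p₂ * q₁)

/-- the bihomogenised product form -/
noncomputable def rdB2 : k[X] :=
  rdFormT (C b₄) (C b₆) (C b₈) (p₁ * p₂) (q₁ * q₂) (p₁ * q₂ + p₂ * q₁)

variable {b₂ b₄ b₆ b₈ p₁ q₁ p₂ q₂}

theorem rdB_cop (hcop : IsCoprime (rdF b₂ b₄ b₆) (rdG b₄ b₆ b₈)) (h₁ : IsCoprime p₁ q₁)
    (h₂ : IsCoprime p₂ q₂) :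
    S58.xparCop (rdB2 b₄ b₆ b₈ p₁ q₁ p₂ q₂) (rdB1 b₂ b₄ b₆ p₁ q₁ p₂ q₂) (rdB0 p₁ q₁ p₂ q₂) := by
  apply S58.xparCop_of_maximal
  intro M hM hT hS hD
  let _ : Field (k[X] ⧸ M) := Ideal.Quotient.field M
  set φ : k[X] →+* k[X] ⧸ M := Ideal.Quotient.mk M with hφ
  have key : ∀ {p q : k[X]}, IsCoprime p q → ¬ (φ p = 0 ∧ φ q = 0) := by
    rintro p q ⟨u, v, e⟩ ⟨hp, hq⟩
    have := congrArg φ e
    rw [map_add, map_mul, map_mul, hp, hq, mul_zero, mul_zero, add_zero, map_one] at this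
    exact zero_ne_one this
  refine rd_forms_ne_zero hcop (φ.comp C) (key h₁) (key h₂) ?_ ?_ ?_
  · have := Ideal.Quotient.eq_zero_iff_mem.mpr hD
    rw [rdB0] at this
    simpa using this
  · have := Ideal.Quotient.eq_zero_iff_mem.mpr hS
    rw [rdB1, ← hφ, map_rdFormS] at this
    simpa using this
  · have := Ideal.Quotient.eq_zero_iff_mem.mpr hT
    rw [rdB2, ← hφ, map_rdFormT] at this
    simpa using this

/-- the top coefficients of a pair of polynomials, not both zero, are not both zero -/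
theorem rd_top_ne {p q : k[X]} (h : ¬ (p = 0 ∧ q = 0)) :
    ¬ (p.coeff (max p.natDegree q.natDegree) = 0 ∧ q.coeff (max p.natDegree q.natDegree) = 0) := by
  have aux : ∀ {p q : k[X]}, p.natDegree ≤ q.natDegree → q.coeff q.natDegree = 0 →
      p.coeff q.natDegree = 0 → p = 0 ∧ q = 0 := by
    intro p q hle hq hp
    have hq0 : q = 0 := leadingCoeff_eq_zero.mp hq
    subst hq0
    rw [natDegree_zero] at hle hp
    refine ⟨?_, rfl⟩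
    rw [eq_C_of_natDegree_le_zero hle, hp, map_zero]
  rintro ⟨hp, hq⟩
  rcases le_total p.natDegree q.natDegree with hle | hle
  · rw [max_eq_right hle] at hp hq
    exact h (aux hle hq hp)
  · rw [max_eq_left hle] at hp hq
    exact h (aux hle hp hq).symm

theorem rdFormS_eq (a b s : k[X]) : rdFormS (C b₂) (C b₄) (C b₆) a b s =
    C 2 * (s * a) + C b₂ * (a * b) + C b₄ * (s * b) + C b₆ * (b * b) := by
  rw [rdFormS, map_ofNat]; ring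

theorem rdFormT_eq (a b s : k[X]) : rdFormT (C b₄) (C b₆) (C b₈) a b s =
    a * a - C b₄ * (a * b) - C b₆ * (s * b) - C b₈ * (b * b) := by
  rw [rdFormT]; ring

theorem rd_natDegree_sub_le {p q : k[X]} {n : ℕ} (hp : p.natDegree ≤ n) (hq : q.natDegree ≤ n) :
    (p - q).natDegree ≤ n :=
  (natDegree_sub_le_of_le hp hq).trans (by simp)

theorem rd_natDegree_C_mul_mul_le (c : k) {u v : k[X]} {e : ℕ} (hu : u.natDegree ≤ e)
    (hv : v.natDegree ≤ e) : (C c * (u * v)).natDegree ≤ e + e :=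
  (natDegree_C_mul_le _ _).trans (natDegree_mul_le_of_le hu hv)

theorem rdFormS_natDegree_le {a b s : k[X]} {e : ℕ} (ha : a.natDegree ≤ e)
    (hb : b.natDegree ≤ e) (hs : s.natDegree ≤ e) :
    (rdFormS (C b₂) (C b₄) (C b₆) a b s).natDegree ≤ e + e := by
  rw [rdFormS_eq]
  exact natDegree_add_le_of_degree_le (natDegree_add_le_of_degree_le
    (natDegree_add_le_of_degree_le (rd_natDegree_C_mul_mul_le _ hs ha)
      (rd_natDegree_C_mul_mul_le _ ha hb)) (rd_natDegree_C_mul_mul_le _ hs hb))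
    (rd_natDegree_C_mul_mul_le _ hb hb)

theorem rdFormT_natDegree_le {a b s : k[X]} {e : ℕ} (ha : a.natDegree ≤ e)
    (hb : b.natDegree ≤ e) (hs : s.natDegree ≤ e) :
    (rdFormT (C b₄) (C b₆) (C b₈) a b s).natDegree ≤ e + e := by
  rw [rdFormT_eq]
  exact rd_natDegree_sub_le (rd_natDegree_sub_le
    (rd_natDegree_sub_le (natDegree_mul_le_of_le ha ha)
      (rd_natDegree_C_mul_mul_le _ ha hb)) (rd_natDegree_C_mul_mul_le _ hs hb))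
    (rd_natDegree_C_mul_mul_le _ hb hb)

theorem rdFormS_coeff {a b s : k[X]} {e : ℕ} (ha : a.natDegree ≤ e)
    (hb : b.natDegree ≤ e) (hs : s.natDegree ≤ e) :
    (rdFormS (C b₂) (C b₄) (C b₆) a b s).coeff (e + e) =
      rdFormS b₂ b₄ b₆ (a.coeff e) (b.coeff e) (s.coeff e) := by
  rw [rdFormS_eq]
  simp only [coeff_add, coeff_C_mul, coeff_mul_add_eq_of_natDegree_le hs ha,
    coeff_mul_add_eq_of_natDegree_le ha hb, coeff_mul_add_eq_of_natDegree_le hs hb,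
    coeff_mul_add_eq_of_natDegree_le hb hb, rdFormS]
  ring

theorem rdFormT_coeff {a b s : k[X]} {e : ℕ} (ha : a.natDegree ≤ e)
    (hb : b.natDegree ≤ e) (hs : s.natDegree ≤ e) :
    (rdFormT (C b₄) (C b₆) (C b₈) a b s).coeff (e + e) =
      rdFormT b₄ b₆ b₈ (a.coeff e) (b.coeff e) (s.coeff e) := by
  rw [rdFormT_eq]
  simp only [coeff_sub, coeff_C_mul, coeff_mul_add_eq_of_natDegree_le ha ha,
    coeff_mul_add_eq_of_natDegree_le ha hb, coeff_mul_add_eq_of_natDegree_le hs hb,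
    coeff_mul_add_eq_of_natDegree_le hb hb, rdFormT]
  ring

theorem rdB_deg (hcop : IsCoprime (rdF b₂ b₄ b₆) (rdG b₄ b₆ b₈)) (h₁ : IsCoprime p₁ q₁)
    (h₂ : IsCoprime p₂ q₂) :
    max (max (rdB2 b₄ b₆ b₈ p₁ q₁ p₂ q₂).natDegree (rdB1 b₂ b₄ b₆ p₁ q₁ p₂ q₂).natDegree)
      (rdB0 p₁ q₁ p₂ q₂).natDegree =
      2 * max p₁.natDegree q₁.natDegree + 2 * max p₂.natDegree q₂.natDegree := by
  have nz : ∀ {p q : k[X]}, IsCoprime p q → ¬ (p = 0 ∧ q = 0) := by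
    rintro p q ⟨u, v, e⟩ ⟨rfl, rfl⟩
    simp at e
  have t₁ := rd_top_ne (nz h₁)
  have t₂ := rd_top_ne (nz h₂)
  generalize hd₁ : max p₁.natDegree q₁.natDegree = d₁ at t₁ ⊢
  generalize hd₂ : max p₂.natDegree q₂.natDegree = d₂ at t₂ ⊢
  have hp₁ : p₁.natDegree ≤ d₁ := hd₁ ▸ le_max_left _ _
  have hq₁ : q₁.natDegree ≤ d₁ := hd₁ ▸ le_max_right _ _
  have hp₂ : p₂.natDegree ≤ d₂ := hd₂ ▸ le_max_left _ _
  have hq₂ : q₂.natDegree ≤ d₂ := hd₂ ▸ le_max_right _ _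
  have ha : (p₁ * p₂).natDegree ≤ d₁ + d₂ := natDegree_mul_le_of_le hp₁ hp₂
  have hb : (q₁ * q₂).natDegree ≤ d₁ + d₂ := natDegree_mul_le_of_le hq₁ hq₂
  have h12 : (p₁ * q₂).natDegree ≤ d₁ + d₂ := natDegree_mul_le_of_le hp₁ hq₂
  have h21 : (p₂ * q₁).natDegree ≤ d₁ + d₂ := by
    rw [mul_comm]; exact natDegree_mul_le_of_le hq₁ hp₂
  have hs : (p₁ * q₂ + p₂ * q₁).natDegree ≤ d₁ + d₂ := natDegree_add_le_of_degree_le h12 h21
  have ht : (p₁ * q₂ - p₂ * q₁).natDegree ≤ d₁ + d₂ := rd_natDegree_sub_le h12 h21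
  have ca : (p₁ * p₂).coeff (d₁ + d₂) = p₁.coeff d₁ * p₂.coeff d₂ :=
    coeff_mul_add_eq_of_natDegree_le hp₁ hp₂
  have cb : (q₁ * q₂).coeff (d₁ + d₂) = q₁.coeff d₁ * q₂.coeff d₂ :=
    coeff_mul_add_eq_of_natDegree_le hq₁ hq₂
  have c12 : (p₁ * q₂).coeff (d₁ + d₂) = p₁.coeff d₁ * q₂.coeff d₂ :=
    coeff_mul_add_eq_of_natDegree_le hp₁ hq₂
  have c21 : (p₂ * q₁).coeff (d₁ + d₂) = p₂.coeff d₂ * q₁.coeff d₁ := by
    rw [add_comm]; exact coeff_mul_add_eq_of_natDegree_le hp₂ hq₁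
  have cs : (p₁ * q₂ + p₂ * q₁).coeff (d₁ + d₂) =
      p₁.coeff d₁ * q₂.coeff d₂ + p₂.coeff d₂ * q₁.coeff d₁ := by rw [coeff_add, c12, c21]
  have ct : (p₁ * q₂ - p₂ * q₁).coeff (d₁ + d₂) =
      p₁.coeff d₁ * q₂.coeff d₂ - p₂.coeff d₂ * q₁.coeff d₁ := by rw [coeff_sub, c12, c21]
  have u0 : (rdB0 p₁ q₁ p₂ q₂).natDegree ≤ (d₁ + d₂) + (d₁ + d₂) := by
    rw [rdB0, pow_two]; exact natDegree_mul_le_of_le ht ht
  have u1 : (rdB1 b₂ b₄ b₆ p₁ q₁ p₂ q₂).natDegree ≤ (d₁ + d₂) + (d₁ + d₂) :=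
    rdFormS_natDegree_le ha hb hs
  have u2 : (rdB2 b₄ b₆ b₈ p₁ q₁ p₂ q₂).natDegree ≤ (d₁ + d₂) + (d₁ + d₂) :=
    rdFormT_natDegree_le ha hb hs
  have k0 : (rdB0 p₁ q₁ p₂ q₂).coeff ((d₁ + d₂) + (d₁ + d₂)) =
      (p₁.coeff d₁ * q₂.coeff d₂ - p₂.coeff d₂ * q₁.coeff d₁) ^ 2 := by
    rw [rdB0, pow_two, coeff_mul_add_eq_of_natDegree_le ht ht, ct, pow_two]
  have k1 : (rdB1 b₂ b₄ b₆ p₁ q₁ p₂ q₂).coeff ((d₁ + d₂) + (d₁ + d₂)) =
      rdFormS b₂ b₄ b₆ (p₁.coeff d₁ * p₂.coeff d₂) (q₁.coeff d₁ * q₂.coeff d₂)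
        (p₁.coeff d₁ * q₂.coeff d₂ + p₂.coeff d₂ * q₁.coeff d₁) := by
    rw [rdB1, rdFormS_coeff ha hb hs, ca, cb, cs]
  have k2 : (rdB2 b₄ b₆ b₈ p₁ q₁ p₂ q₂).coeff ((d₁ + d₂) + (d₁ + d₂)) =
      rdFormT b₄ b₆ b₈ (p₁.coeff d₁ * p₂.coeff d₂) (q₁.coeff d₁ * q₂.coeff d₂)
        (p₁.coeff d₁ * q₂.coeff d₂ + p₂.coeff d₂ * q₁.coeff d₁) := by
    rw [rdB2, rdFormT_coeff ha hb hs, ca, cb, cs]
  have hge : (d₁ + d₂) + (d₁ + d₂) ≤
      max (max (rdB2 b₄ b₆ b₈ p₁ q₁ p₂ q₂).natDegree (rdB1 b₂ b₄ b₆ p₁ q₁ p₂ q₂).natDegree)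
        (rdB0 p₁ q₁ p₂ q₂).natDegree := by
    by_contra hlt
    replace hlt := not_le.mp hlt
    have l2 := lt_of_le_of_lt (le_max_left _ _) (lt_of_le_of_lt (le_max_left _ _) hlt)
    have l1 := lt_of_le_of_lt (le_max_right _ _) (lt_of_le_of_lt (le_max_left _ _) hlt)
    have l0 := lt_of_le_of_lt (le_max_right _ _) hlt
    rw [coeff_eq_zero_of_natDegree_lt l0] at k0
    rw [coeff_eq_zero_of_natDegree_lt l1] at k1
    rw [coeff_eq_zero_of_natDegree_lt l2] at k2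
    exact rd_forms_ne_zero hcop (RingHom.id k) t₁ t₂ k0.symm k1.symm k2.symm
  have hle := max_le (max_le u2 u1) u0
  omega

end Triple

/-! ### The parallelogram engine -/

section Main

variable {k : Type*} [Field k]

/-- (B2), core form: coprimality hypothesis, no algebraic closedness, every characteristic. -/
theorem ratDeg_add_sub_of_isCoprime {b₂ b₄ b₆ b₈ : k}
    (hcop : IsCoprime (rdF b₂ b₄ b₆) (rdG b₄ b₆ b₈)) {r₁ r₂ r₃ r₄ : RatFunc k}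
    (hS : (r₃ + r₄) * (r₁ - r₂) ^ 2 = 2 * (r₁ + r₂) * (r₁ * r₂) +
      algebraMap k (RatFunc k) b₂ * (r₁ * r₂) + algebraMap k (RatFunc k) b₄ * (r₁ + r₂) +
      algebraMap k (RatFunc k) b₆)
    (hT : r₃ * r₄ * (r₁ - r₂) ^ 2 = (r₁ * r₂) ^ 2 - algebraMap k (RatFunc k) b₄ * (r₁ * r₂) -
      algebraMap k (RatFunc k) b₆ * (r₁ + r₂) - algebraMap k (RatFunc k) b₈) :
    ratDeg r₃ + ratDeg r₄ = 2 * ratDeg r₁ + 2 * ratDeg r₂ := by
  have hnum : ∀ r : RatFunc k, algebraMap k[X] (RatFunc k) r.num =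
      r * algebraMap k[X] (RatFunc k) r.denom := by
    intro r
    have h0 : algebraMap k[X] (RatFunc k) r.denom ≠ 0 :=
      RatFunc.algebraMap_ne_zero (RatFunc.denom_ne_zero r)
    exact (div_eq_iff h0).mp (RatFunc.num_div_denom r)
  rw [RatFunc.algebraMap_eq_C] at hS hT
  have hA : (r₃.num * r₄.num) * rdB0 r₁.num r₁.denom r₂.num r₂.denom =
      rdB2 b₄ b₆ b₈ r₁.num r₁.denom r₂.num r₂.denom * (r₃.denom * r₄.denom) := by
    apply RatFunc.algebraMap_injective k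
    simp only [rdB0, rdB2, map_rdFormT, map_mul, map_add, map_sub, map_pow, RatFunc.algebraMap_C,
      hnum]
    simp only [rdFormT]
    linear_combination (algebraMap k[X] (RatFunc k) r₃.denom * algebraMap k[X] (RatFunc k) r₄.denom *
      (algebraMap k[X] (RatFunc k) r₁.denom) ^ 2 * (algebraMap k[X] (RatFunc k) r₂.denom) ^ 2) * hT
  have hB : (r₃.num * r₄.denom + r₄.num * r₃.denom) * rdB0 r₁.num r₁.denom r₂.num r₂.denom =
      rdB1 b₂ b₄ b₆ r₁.num r₁.denom r₂.num r₂.denom * (r₃.denom * r₄.denom) := by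
    apply RatFunc.algebraMap_injective k
    simp only [rdB0, rdB1, map_rdFormS, map_mul, map_add, map_sub, map_pow, RatFunc.algebraMap_C,
      hnum]
    simp only [rdFormS]
    linear_combination (algebraMap k[X] (RatFunc k) r₃.denom * algebraMap k[X] (RatFunc k) r₄.denom *
      (algebraMap k[X] (RatFunc k) r₁.denom) ^ 2 * (algebraMap k[X] (RatFunc k) r₂.denom) ^ 2) * hS
  have copA := S58.xparCop_sym (RatFunc.isCoprime_num_denom r₃) (RatFunc.isCoprime_num_denom r₄)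
  have copB := rdB_cop hcop (RatFunc.isCoprime_num_denom r₁) (RatFunc.isCoprime_num_denom r₂)
  have hC : r₃.denom * r₄.denom ≠ 0 :=
    mul_ne_zero (RatFunc.denom_ne_zero r₃) (RatFunc.denom_ne_zero r₄)
  obtain ⟨u, e2, e1, e0⟩ := S58.xparCop_proportional copA copB hC hA hB
  have hdegB := rdB_deg hcop (RatFunc.isCoprime_num_denom r₁) (RatFunc.isCoprime_num_denom r₂)
  rw [e2, e1, e0, S58.xpar_natDegree_unit_mul, S58.xpar_natDegree_unit_mul,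
    S58.xpar_natDegree_unit_mul,
    S58.xpar_deg_sym (RatFunc.denom_ne_zero r₃) (RatFunc.denom_ne_zero r₄)] at hdegB
  exact hdegB

theorem natDegree_rdG (b₄ b₆ b₈ : k) : (rdG b₄ b₆ b₈).natDegree = 4 := by
  rw [rdG]
  compute_degree!

theorem natDegree_rdF_le (b₂ b₄ b₆ : k) : (rdF b₂ b₄ b₆).natDegree ≤ 3 := by
  rw [rdF]
  compute_degree

/-- duplication, core form -/
theorem ratDeg_double_of_isCoprime {b₂ b₄ b₆ b₈ : k}
    (hcop : IsCoprime (rdF b₂ b₄ b₆) (rdG b₄ b₆ b₈)) {r₁ r₃ : RatFunc k}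
    (hne : 4 * r₁ ^ 3 + algebraMap k (RatFunc k) b₂ * r₁ ^ 2 +
      2 * algebraMap k (RatFunc k) b₄ * r₁ + algebraMap k (RatFunc k) b₆ ≠ 0)
    (h : r₃ * (4 * r₁ ^ 3 + algebraMap k (RatFunc k) b₂ * r₁ ^ 2 +
      2 * algebraMap k (RatFunc k) b₄ * r₁ + algebraMap k (RatFunc k) b₆) =
      r₁ ^ 4 - algebraMap k (RatFunc k) b₄ * r₁ ^ 2 - 2 * algebraMap k (RatFunc k) b₆ * r₁ -
        algebraMap k (RatFunc k) b₈) :
    ratDeg r₃ = 4 * ratDeg r₁ := by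
  have eF : aeval r₁ (rdF b₂ b₄ b₆) = 4 * r₁ ^ 3 + algebraMap k (RatFunc k) b₂ * r₁ ^ 2 +
      2 * algebraMap k (RatFunc k) b₄ * r₁ + algebraMap k (RatFunc k) b₆ := by
    simp [rdF, map_ofNat]
  have eG : aeval r₁ (rdG b₄ b₆ b₈) = r₁ ^ 4 - algebraMap k (RatFunc k) b₄ * r₁ ^ 2 -
      2 * algebraMap k (RatFunc k) b₆ * r₁ - algebraMap k (RatFunc k) b₈ := by
    simp [rdG, map_ofNat]
  rw [← eF] at hne h
  rw [← eG] at h
  rw [ratDeg_of_mul_aeval_eq hcop.symm hne h, natDegree_rdG,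
    max_eq_left ((natDegree_rdF_le b₂ b₄ b₆).trans (by norm_num))]

/-- coprimality of `rdF`, `rdG` from the absence of common roots over an algebraically closed
field -/
theorem rd_isCoprime_of_no_common_root [IsAlgClosed k] {b₂ b₄ b₆ b₈ : k}
    (hND : ∀ u : k, ¬ (4 * u ^ 3 + b₂ * u ^ 2 + 2 * b₄ * u + b₆ = 0 ∧
      u ^ 4 - b₄ * u ^ 2 - 2 * b₆ * u - b₈ = 0)) :
    IsCoprime (rdF b₂ b₄ b₆) (rdG b₄ b₆ b₈) := by
  rw [Polynomial.isCoprime_iff_aeval_ne_zero_of_isAlgClosed (k := k) k]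
  intro u
  by_contra hcon
  rw [not_or, not_not, not_not] at hcon
  apply hND u
  refine ⟨?_, ?_⟩
  · have := hcon.1
    simpa [rdF, map_ofNat] using this
  · have := hcon.2
    simpa [rdG, map_ofNat] using this

/-- (B2) in the literal form requested for the Frobenius-trace computation -/
theorem ratDeg_add_sub [IsAlgClosed k] (b₂ b₄ b₆ b₈ : k)
    (hND : ∀ u : k, ¬ (4 * u ^ 3 + b₂ * u ^ 2 + 2 * b₄ * u + b₆ = 0 ∧
      u ^ 4 - b₄ * u ^ 2 - 2 * b₆ * u - b₈ = 0))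
    (r₁ r₂ r₃ r₄ : RatFunc k) (_h12 : r₁ ≠ r₂)
    (hS : (r₃ + r₄) * (r₁ - r₂) ^ 2 = 2 * (r₁ + r₂) * (r₁ * r₂) +
      algebraMap k (RatFunc k) b₂ * (r₁ * r₂) + algebraMap k (RatFunc k) b₄ * (r₁ + r₂) +
      algebraMap k (RatFunc k) b₆)
    (hT : r₃ * r₄ * (r₁ - r₂) ^ 2 = (r₁ * r₂) ^ 2 - algebraMap k (RatFunc k) b₄ * (r₁ * r₂) -
      algebraMap k (RatFunc k) b₆ * (r₁ + r₂) - algebraMap k (RatFunc k) b₈) :
    ratDeg r₃ + ratDeg r₄ = 2 * ratDeg r₁ + 2 * ratDeg r₂ :=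
  ratDeg_add_sub_of_isCoprime (rd_isCoprime_of_no_common_root hND) hS hT

/-- duplication in the literal form -/
theorem ratDeg_double [IsAlgClosed k] (b₂ b₄ b₆ b₈ : k)
    (hND : ∀ u : k, ¬ (4 * u ^ 3 + b₂ * u ^ 2 + 2 * b₄ * u + b₆ = 0 ∧
      u ^ 4 - b₄ * u ^ 2 - 2 * b₆ * u - b₈ = 0))
    (r₁ r₃ : RatFunc k)
    (hne : 4 * r₁ ^ 3 + algebraMap k (RatFunc k) b₂ * r₁ ^ 2 +
      2 * algebraMap k (RatFunc k) b₄ * r₁ + algebraMap k (RatFunc k) b₆ ≠ 0)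
    (h : r₃ * (4 * r₁ ^ 3 + algebraMap k (RatFunc k) b₂ * r₁ ^ 2 +
      2 * algebraMap k (RatFunc k) b₄ * r₁ + algebraMap k (RatFunc k) b₆) =
      r₁ ^ 4 - algebraMap k (RatFunc k) b₄ * r₁ ^ 2 - 2 * algebraMap k (RatFunc k) b₆ * r₁ -
        algebraMap k (RatFunc k) b₈) :
    ratDeg r₃ = 4 * ratDeg r₁ :=
  ratDeg_double_of_isCoprime (rd_isCoprime_of_no_common_root hND) hne h

/-- coprimality of `rdF`, `rdG` from `Δ ≠ 0` (every characteristic) -/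
theorem rd_isCoprime_of_Δ (W : WeierstrassCurve k) (hΔ : W.Δ ≠ 0) :
    IsCoprime (rdF W.b₂ W.b₄ W.b₆) (rdG W.b₄ W.b₆ W.b₈) :=
  (S58.xpar_isCoprime_of_Δ W hΔ).symm

/-- (B2) for a Weierstrass curve with `Δ ≠ 0`: no algebraic closedness, every characteristic -/
theorem ratDeg_add_sub_of_Δ (W : WeierstrassCurve k) (hΔ : W.Δ ≠ 0) {r₁ r₂ r₃ r₄ : RatFunc k}
    (hS : (r₃ + r₄) * (r₁ - r₂) ^ 2 = 2 * (r₁ + r₂) * (r₁ * r₂) +
      algebraMap k (RatFunc k) W.b₂ * (r₁ * r₂) + algebraMap k (RatFunc k) W.b₄ * (r₁ + r₂) +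
      algebraMap k (RatFunc k) W.b₆)
    (hT : r₃ * r₄ * (r₁ - r₂) ^ 2 = (r₁ * r₂) ^ 2 - algebraMap k (RatFunc k) W.b₄ * (r₁ * r₂) -
      algebraMap k (RatFunc k) W.b₆ * (r₁ + r₂) - algebraMap k (RatFunc k) W.b₈) :
    ratDeg r₃ + ratDeg r₄ = 2 * ratDeg r₁ + 2 * ratDeg r₂ :=
  ratDeg_add_sub_of_isCoprime (rd_isCoprime_of_Δ W hΔ) hS hT

/-- duplication for a Weierstrass curve with `Δ ≠ 0` -/
theorem ratDeg_double_of_Δ (W : WeierstrassCurve k) (hΔ : W.Δ ≠ 0) {r₁ r₃ : RatFunc k}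
    (hne : 4 * r₁ ^ 3 + algebraMap k (RatFunc k) W.b₂ * r₁ ^ 2 +
      2 * algebraMap k (RatFunc k) W.b₄ * r₁ + algebraMap k (RatFunc k) W.b₆ ≠ 0)
    (h : r₃ * (4 * r₁ ^ 3 + algebraMap k (RatFunc k) W.b₂ * r₁ ^ 2 +
      2 * algebraMap k (RatFunc k) W.b₄ * r₁ + algebraMap k (RatFunc k) W.b₆) =
      r₁ ^ 4 - algebraMap k (RatFunc k) W.b₄ * r₁ ^ 2 - 2 * algebraMap k (RatFunc k) W.b₆ * r₁ -
        algebraMap k (RatFunc k) W.b₈) :
    ratDeg r₃ = 4 * ratDeg r₁ :=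
  ratDeg_double_of_isCoprime (rd_isCoprime_of_Δ W hΔ) hne h

end Main

end Fermat.Agent.EC
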