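import Mathlib
import Fermat.Agent.EC.Tors_helper6_Points

set_option autoImplicit false
set_option linter.unusedSectionVars false

/-!
# The generic point of a Weierstrass curve over its function field and substitution homomorphisms

`W₀` is a Weierstrass curve over a commutative ring `R₀`, `k` a field which is an `R₀`-algebra,
`Kf W₀ k` the function field of `W₀⁄k`.  We construct the generic point `(gX, gY)` of `W₀` over
`Kf W₀ k`, and for every point `(x, y)` of `W₀` over `Kf W₀ k` with `x` transcendental over `k`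
the `k`-algebra endomorphism `substK` of `Kf W₀ k` with `gX ↦ x`, `gY ↦ y`.
-/

namespace Fermat.Agent.EC.Frob

open WeierstrassCurve WeierstrassCurve.Affine Polynomial
open scoped Polynomial.Bivariate

variable {R₀ : Type*} [CommRing R₀] (W₀ : WeierstrassCurve R₀) (k : Type*) [Field k] [Algebra R₀ k]

/-- the function field of `W₀` over `k` -/
noncomputable abbrev Kf := (W₀⁄k).toAffine.FunctionField

/-- the coordinate ring of `W₀` over `k` -/
noncomputable abbrev Cr := (W₀⁄k).toAffine.CoordinateRing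

/-- the `x`-coordinate of the generic point -/
noncomputable def gX : Kf W₀ k :=
  algebraMap (Cr W₀ k) (Kf W₀ k) (CoordinateRing.mk (W₀⁄k).toAffine (C X))

/-- the `y`-coordinate of the generic point -/
noncomputable def gY : Kf W₀ k :=
  algebraMap (Cr W₀ k) (Kf W₀ k) (CoordinateRing.mk (W₀⁄k).toAffine Y)

section evalLemma

variable {k} {A : Type*} [CommRing A] [Algebra k A]

theorem evalEval_map_eq_eval₂ (x y : A) (p : k[X][Y]) :
    (p.map (mapRingHom (algebraMap k A))).evalEval x y =
      p.eval₂ ((aeval x : k[X] →ₐ[k] A) : k[X] →+* A) y := by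
  have key : ((evalEvalRingHom x y).comp (mapRingHom (mapRingHom (algebraMap k A)))) =
      Polynomial.eval₂RingHom ((aeval x : k[X] →ₐ[k] A) : k[X] →+* A) y := by
    apply Polynomial.ringHom_ext
    · intro q
      have : ((evalEvalRingHom x y).comp (mapRingHom (mapRingHom (algebraMap k A)))).comp C
          = (Polynomial.eval₂RingHom ((aeval x : k[X] →ₐ[k] A) : k[X] →+* A) y).comp C := by
        apply Polynomial.ringHom_ext
        · intro a
          simp [evalEvalRingHom]
        · simp [evalEvalRingHom]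
      exact congrArg (fun f => f q) this
    · simp [evalEvalRingHom]
  exact congrArg (fun f => f p) key

end evalLemma

theorem algebraMap_mk_eq (p : k[X][Y]) :
    algebraMap (Cr W₀ k) (Kf W₀ k) (CoordinateRing.mk (W₀⁄k).toAffine p) =
      (p.map (mapRingHom (algebraMap k (Kf W₀ k)))).evalEval (gX W₀ k) (gY W₀ k) := by
  have key : ((evalEvalRingHom (gX W₀ k) (gY W₀ k)).comp
      (mapRingHom (mapRingHom (algebraMap k (Kf W₀ k))))) =
      (algebraMap (Cr W₀ k) (Kf W₀ k)).comp (CoordinateRing.mk (W₀⁄k).toAffine) := by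
    apply Polynomial.ringHom_ext
    · intro q
      have : ((evalEvalRingHom (gX W₀ k) (gY W₀ k)).comp
          (mapRingHom (mapRingHom (algebraMap k (Kf W₀ k))))).comp C
          = ((algebraMap (Cr W₀ k) (Kf W₀ k)).comp (CoordinateRing.mk (W₀⁄k).toAffine)).comp C := by
        apply Polynomial.ringHom_ext
        · intro a
          have e : CoordinateRing.mk (W₀⁄k).toAffine (C (C a)) = algebraMap k (Cr W₀ k) a := rfl
          simp only [RingHom.coe_comp, Function.comp_apply, coe_mapRingHom, map_C, e]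
          rw [IsScalarTower.algebraMap_apply k (Cr W₀ k) (Kf W₀ k)]
          simp
        · simp [gX, evalEvalRingHom]
      exact congrArg (fun f => f q) this
    · simp [gY, evalEvalRingHom]
  exact (congrArg (fun f => f p) key).symm

/-- the generic point lies on the curve -/
theorem gen_equation : (W₀⁄(Kf W₀ k)).toAffine.Equation (gX W₀ k) (gY W₀ k) := by
  unfold Affine.Equation
  rw [baseChange_polynomial (W := W₀) (Algebra.ofId k (Kf W₀ k))]
  have := algebraMap_mk_eq W₀ k (W₀⁄k).toAffine.polynomial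
  rw [show (Algebra.ofId k (Kf W₀ k) : k →+* Kf W₀ k) = algebraMap k (Kf W₀ k) from rfl]
  rw [← this]
  simp

theorem aeval_gX (p : k[X]) :
    aeval (gX W₀ k) p = algebraMap (Cr W₀ k) (Kf W₀ k) (algebraMap k[X] (Cr W₀ k) p) := by
  have e : algebraMap k[X] (Cr W₀ k) p = CoordinateRing.mk (W₀⁄k).toAffine (C p) := rfl
  rw [e, algebraMap_mk_eq]
  simp only [Polynomial.map_C, coe_mapRingHom, evalEval_C]
  rw [aeval_def, eval₂_eq_eval_map]

theorem algebraMap_polyX_injective : Function.Injective (algebraMap k[X] (Cr W₀ k)) := by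
  rw [injective_iff_map_eq_zero]
  intro p hp
  have e : p • (1 : Cr W₀ k) + (0 : k[X]) • CoordinateRing.mk (W₀⁄k).toAffine Y = 0 := by
    rw [zero_smul, add_zero, Algebra.smul_def, mul_one]
    exact hp
  exact (CoordinateRing.smul_basis_eq_zero e).1

theorem gX_transcendental : Transcendental k (gX W₀ k) := by
  rw [transcendental_iff_injective]
  intro p q hpq
  rw [aeval_gX, aeval_gX] at hpq
  exact algebraMap_polyX_injective W₀ k
    (IsFractionRing.injective (Cr W₀ k) (Kf W₀ k) hpq)

theorem gX_not_mem_range : gX W₀ k ∉ Set.range (algebraMap k (Kf W₀ k)) := by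
  rintro ⟨c, hc⟩
  have h := gX_transcendental W₀ k
  rw [← hc] at h
  exact h (isAlgebraic_algebraMap c)

theorem gen_polynomialY_ne (hΔ : (W₀⁄k).toAffine.Δ ≠ 0) :
    (W₀⁄(Kf W₀ k)).toAffine.polynomialY.evalEval (gX W₀ k) (gY W₀ k) ≠ 0 := by
  rw [baseChange_polynomialY (W := W₀) (Algebra.ofId k (Kf W₀ k))]
  rw [show (Algebra.ofId k (Kf W₀ k) : k →+* Kf W₀ k) = algebraMap k (Kf W₀ k) from rfl]
  rw [← algebraMap_mk_eq]
  intro h
  have h0 : CoordinateRing.mk (W₀⁄k).toAffine (W₀⁄k).toAffine.polynomialY = 0 :=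
    IsFractionRing.injective (Cr W₀ k) (Kf W₀ k) (by rw [h, map_zero])
  have e : CoordinateRing.mk (W₀⁄k).toAffine (W₀⁄k).toAffine.polynomialY =
      (C (W₀⁄k).toAffine.a₁ * X + C (W₀⁄k).toAffine.a₃ : k[X]) • (1 : Cr W₀ k)
        + (2 : k[X]) • CoordinateRing.mk (W₀⁄k).toAffine Y := by
    rw [CoordinateRing.smul, CoordinateRing.smul, Affine.polynomialY]
    simp only [map_add, map_mul, map_ofNat, mul_one]
    ring
  rw [e] at h0
  obtain ⟨h1, h3⟩ := CoordinateRing.smul_basis_eq_zero h0
  have h2 : (2 : k) = 0 := by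
    have := congrArg (fun p : k[X] => p.coeff 0) h3
    simpa using this
  have ha₁ : (W₀⁄k).toAffine.a₁ = 0 := by
    have := congrArg (fun p : k[X] => p.coeff 1) h1
    simpa using this
  have ha₃ : (W₀⁄k).toAffine.a₃ = 0 := by
    have := congrArg (fun p : k[X] => p.coeff 0) h1
    simpa using this
  apply hΔ
  have h4 : (4 : k) = 0 := by linear_combination 2 * h2
  have hb₂ : (W₀⁄k).toAffine.b₂ = 0 := by
    rw [WeierstrassCurve.b₂, ha₁]; linear_combination (W₀⁄k).toAffine.a₂ * h4
  have hb₄ : (W₀⁄k).toAffine.b₄ = 0 := by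
    rw [WeierstrassCurve.b₄, ha₁]; linear_combination (W₀⁄k).toAffine.a₄ * h2
  have hb₆ : (W₀⁄k).toAffine.b₆ = 0 := by
    rw [WeierstrassCurve.b₆, ha₃]; linear_combination (W₀⁄k).toAffine.a₆ * h4
  rw [WeierstrassCurve.Δ, hb₂, hb₄, hb₆]
  ring

/-- the generic point is nonsingular -/
theorem gen_nonsingular (hΔ : (W₀⁄k).toAffine.Δ ≠ 0) :
    (W₀⁄(Kf W₀ k)).toAffine.Nonsingular (gX W₀ k) (gY W₀ k) :=
  ⟨gen_equation W₀ k, Or.inr (gen_polynomialY_ne W₀ k hΔ)⟩

variable {W₀ k}

section subst

variable {x y : Kf W₀ k} (h : (W₀⁄(Kf W₀ k)).toAffine.Equation x y)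

/-- substitution homomorphism on the coordinate ring -/
noncomputable def substCR : Cr W₀ k →ₐ[k] Kf W₀ k :=
  AdjoinRoot.liftAlgHom _ (aeval x) y (by
    rw [← evalEval_map_eq_eval₂]
    have := h
    unfold Affine.Equation at this
    rw [baseChange_polynomial (W := W₀) (Algebra.ofId k (Kf W₀ k))] at this
    exact this)

theorem substCR_mk (p : k[X][Y]) :
    substCR h (CoordinateRing.mk (W₀⁄k).toAffine p) =
      (p.map (mapRingHom (algebraMap k (Kf W₀ k)))).evalEval x y := by
  rw [evalEval_map_eq_eval₂]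
  rfl

theorem substCR_algebraMap (p : k[X]) : substCR h (algebraMap k[X] (Cr W₀ k) p) = aeval x p := by
  have e : algebraMap k[X] (Cr W₀ k) p = CoordinateRing.mk (W₀⁄k).toAffine (C p) := rfl
  rw [e, substCR_mk]
  simp only [Polynomial.map_C, coe_mapRingHom, evalEval_C]
  rw [aeval_def, eval₂_eq_eval_map]

theorem substCR_injective (hx : Transcendental k x) : Function.Injective (substCR h) := by
  rw [injective_iff_map_eq_zero]
  intro f hf
  obtain ⟨p, q, rfl⟩ := CoordinateRing.exists_smul_basis_eq f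
  have hN := CoordinateRing.coe_norm_smul_basis (W' := (W₀⁄k).toAffine) p q
  have e1 : CoordinateRing.mk (W₀⁄k).toAffine (C p + C q * Y) =
      p • (1 : Cr W₀ k) + q • CoordinateRing.mk (W₀⁄k).toAffine Y := by
    rw [CoordinateRing.smul, CoordinateRing.smul]
    simp only [map_add, map_mul, mul_one]
  rw [map_mul, e1] at hN
  have h0 : substCR h (AdjoinRoot.of (W₀⁄k).toAffine.polynomial
      (Algebra.norm k[X] (p • (1 : Cr W₀ k) + q • CoordinateRing.mk (W₀⁄k).toAffine Y))) = 0 := by
    rw [hN, map_mul, hf, zero_mul]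
  have h1 : aeval x (Algebra.norm k[X]
      (p • (1 : Cr W₀ k) + q • CoordinateRing.mk (W₀⁄k).toAffine Y)) = 0 := by
    rw [← substCR_algebraMap h]
    exact h0
  have h2 : Algebra.norm k[X]
      (p • (1 : Cr W₀ k) + q • CoordinateRing.mk (W₀⁄k).toAffine Y) = 0 := by
    by_contra hne
    exact hx ⟨_, hne, h1⟩
  have : Module.Free k[X] (Cr W₀ k) := Module.Free.of_basis (CoordinateRing.basis _)
  have : Module.Finite k[X] (Cr W₀ k) := Module.Finite.of_basis (CoordinateRing.basis _)
  exact Algebra.norm_eq_zero_iff.mp h2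

/-- substitution endomorphism of the function field: `gX ↦ x`, `gY ↦ y` -/
noncomputable def substK (hx : Transcendental k x) : Kf W₀ k →ₐ[k] Kf W₀ k :=
  IsFractionRing.liftAlgHom (g := substCR h) (substCR_injective h hx)

theorem substK_algebraMap (hx : Transcendental k x) (f : Cr W₀ k) :
    substK h hx (algebraMap (Cr W₀ k) (Kf W₀ k) f) = substCR h f := by
  unfold substK
  rw [IsFractionRing.coe_liftAlgHom, IsFractionRing.lift_algebraMap]
  rfl

theorem substK_gX (hx : Transcendental k x) : substK h hx (gX W₀ k) = x := by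
  unfold gX
  rw [substK_algebraMap, substCR_mk]
  simp [evalEval]

theorem substK_gY (hx : Transcendental k x) : substK h hx (gY W₀ k) = y := by
  unfold gY
  rw [substK_algebraMap, substCR_mk]
  simp [evalEval]

end subst

/-- `k`-algebra endomorphisms of the function field are determined by the images of `gX`, `gY` -/
theorem algHom_ext_gen {L : Type*} [Field L] [Algebra k L] {f g : Kf W₀ k →ₐ[k] L}
    (hX : f (gX W₀ k) = g (gX W₀ k)) (hY : f (gY W₀ k) = g (gY W₀ k)) : f = g := by
  have key : ∀ φ : Kf W₀ k →ₐ[k] L, ∀ p : k[X][Y],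
      φ (algebraMap (Cr W₀ k) (Kf W₀ k) (CoordinateRing.mk (W₀⁄k).toAffine p)) =
        (p.map (mapRingHom (algebraMap k L))).evalEval (φ (gX W₀ k)) (φ (gY W₀ k)) := by
    intro φ p
    rw [algebraMap_mk_eq]
    have := map_mapRingHom_evalEval (φ : Kf W₀ k →+* L)
      (p.map (mapRingHom (algebraMap k (Kf W₀ k)))) (gX W₀ k) (gY W₀ k)
    rw [Polynomial.map_map, mapRingHom_comp] at this
    have e : (φ : Kf W₀ k →+* L).comp (algebraMap k (Kf W₀ k)) = algebraMap k L := by
      ext a
      simp
    rw [e] at this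
    exact this.symm
  have hring : (f : Kf W₀ k →+* L) = (g : Kf W₀ k →+* L) := by
    apply IsLocalization.ringHom_ext (nonZeroDivisors (Cr W₀ k))
    refine RingHom.ext fun z => ?_
    obtain ⟨p, rfl⟩ := AdjoinRoot.mk_surjective z
    have e1 := key f p
    have e2 := key g p
    simp only [RingHom.coe_comp, Function.comp_apply, RingHom.coe_coe]
    change f (algebraMap (Cr W₀ k) (Kf W₀ k) (CoordinateRing.mk (W₀⁄k).toAffine p)) =
      g (algebraMap (Cr W₀ k) (Kf W₀ k) (CoordinateRing.mk (W₀⁄k).toAffine p))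
    rw [e1, e2, hX, hY]
  exact AlgHom.ext fun z => congrArg (fun φ : Kf W₀ k →+* L => φ z) hring

end Fermat.Agent.EC.Frob
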