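import Mathlib
import Fermat.Agent.EC.Frob_helper6_Gen

set_option autoImplicit false
set_option linter.unusedSectionVars false

/-!
# Points over the function field: generic point, constant points, substitution maps
-/

namespace Fermat.Agent.EC.Frob

open WeierstrassCurve WeierstrassCurve.Affine Polynomial
open scoped Polynomial.Bivariate

variable {R₀ : Type*} [CommRing R₀] (W₀ : WeierstrassCurve R₀) (k : Type*) [Field k] [Algebra R₀ k]

/-- classical decidable equality on the function field -/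
@[instance_reducible] noncomputable def decK : DecidableEq (Kf W₀ k) := Classical.decEq _

attribute [local instance] decK

variable [DecidableEq k]

/-- the generic point -/
noncomputable def genPt (hΔ : (W₀⁄k).toAffine.Δ ≠ 0) : (W₀⁄(Kf W₀ k)).toAffine.Point :=
  Point.some _ _ (gen_nonsingular W₀ k hΔ)

/-- constant points -/
noncomputable def constPt : (W₀⁄k).toAffine.Point →+ (W₀⁄(Kf W₀ k)).toAffine.Point :=
  Point.map (W' := W₀) (Algebra.ofId k (Kf W₀ k))

theorem constPt_injective : Function.Injective (constPt W₀ k) :=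
  Point.map_injective _

variable {W₀ k}

theorem xOf_constPt (S : (W₀⁄k).toAffine.Point) :
    xOf (constPt W₀ k S) = algebraMap k (Kf W₀ k) (xOf S) := by
  rcases S with _ | ⟨x, y, h⟩
  · simp [xOf, constPt]
    rfl
  · rfl

theorem xOf_map {L : Type*} [Field L] [DecidableEq L] [Algebra R₀ L] [Algebra k L]
    [IsScalarTower R₀ k L] (f : Kf W₀ k →ₐ[k] L) (Q : (W₀⁄(Kf W₀ k)).toAffine.Point) :
    xOf (Point.map (W' := W₀) f Q) = f (xOf Q) := by
  rcases Q with _ | ⟨x, y, h⟩
  · simp [xOf]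
    rfl
  · rfl

section algClosed

variable [IsAlgClosed k]

theorem mem_range_of_isAlgebraic {L : Type*} [Field L] [Algebra k L] {z : L}
    (hz : IsAlgebraic k z) : z ∈ Set.range (algebraMap k L) := by
  have hint : IsIntegral k z := hz.isIntegral
  have hirr := minpoly.irreducible hint
  have hdeg := IsAlgClosed.degree_eq_one_of_irreducible k hirr
  exact minpoly.mem_range_of_degree_eq_one k z hdeg

theorem transcendental_of_not_mem_range {L : Type*} [Field L] [Algebra k L] {z : L}
    (hz : z ∉ Set.range (algebraMap k L)) : Transcendental k z :=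
  fun h => hz (mem_range_of_isAlgebraic h)

/-- a point whose `x`-coordinate is a constant is a constant point -/
theorem mem_range_constPt_of_xOf {Q : (W₀⁄(Kf W₀ k)).toAffine.Point}
    (hx : xOf Q ∈ Set.range (algebraMap k (Kf W₀ k))) : Q ∈ Set.range (constPt W₀ k) := by
  rcases Q with _ | ⟨x, y, h⟩
  · exact ⟨0, map_zero _⟩
  · obtain ⟨x₀, hx₀⟩ := hx
    simp only [xOf_some] at hx₀
    subst hx₀
    -- `y` is algebraic over `k`
    have hy : IsAlgebraic k y := by
      have heq := (equation_iff ..).mp h.1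
      refine ⟨X ^ 2 + C ((W₀⁄k).toAffine.a₁ * x₀ + (W₀⁄k).toAffine.a₃) * X
        - C (x₀ ^ 3 + (W₀⁄k).toAffine.a₂ * x₀ ^ 2 + (W₀⁄k).toAffine.a₄ * x₀ + (W₀⁄k).toAffine.a₆),
        ?_, ?_⟩
      · intro h0
        have hd : (X ^ 2 + C ((W₀⁄k).toAffine.a₁ * x₀ + (W₀⁄k).toAffine.a₃) * X
          - C (x₀ ^ 3 + (W₀⁄k).toAffine.a₂ * x₀ ^ 2 + (W₀⁄k).toAffine.a₄ * x₀
            + (W₀⁄k).toAffine.a₆) : k[X]).natDegree = 2 := by
          compute_degree!
        rw [h0] at hd
        simp at hd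
      · simp only [map_sub, map_add, map_mul, map_pow, aeval_X, aeval_C]
        have e1 : (W₀⁄(Kf W₀ k)).toAffine.a₁ = algebraMap k (Kf W₀ k) (W₀⁄k).toAffine.a₁ :=
          (IsScalarTower.algebraMap_apply R₀ k (Kf W₀ k) _)
        have e2 : (W₀⁄(Kf W₀ k)).toAffine.a₂ = algebraMap k (Kf W₀ k) (W₀⁄k).toAffine.a₂ :=
          (IsScalarTower.algebraMap_apply R₀ k (Kf W₀ k) _)
        have e3 : (W₀⁄(Kf W₀ k)).toAffine.a₃ = algebraMap k (Kf W₀ k) (W₀⁄k).toAffine.a₃ :=
          (IsScalarTower.algebraMap_apply R₀ k (Kf W₀ k) _)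
        have e4 : (W₀⁄(Kf W₀ k)).toAffine.a₄ = algebraMap k (Kf W₀ k) (W₀⁄k).toAffine.a₄ :=
          (IsScalarTower.algebraMap_apply R₀ k (Kf W₀ k) _)
        have e6 : (W₀⁄(Kf W₀ k)).toAffine.a₆ = algebraMap k (Kf W₀ k) (W₀⁄k).toAffine.a₆ :=
          (IsScalarTower.algebraMap_apply R₀ k (Kf W₀ k) _)
        rw [e1, e2, e3, e4, e6] at heq
        linear_combination heq
    obtain ⟨y₀, hy₀⟩ := mem_range_of_isAlgebraic hy
    subst hy₀
    have h' : (W₀⁄k).toAffine.Nonsingular x₀ y₀ :=
      (baseChange_nonsingular (W := W₀) (f := Algebra.ofId k (Kf W₀ k))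
        (Algebra.ofId k (Kf W₀ k)).injective x₀ y₀).mp h
    exact ⟨Point.some _ _ h', rfl⟩

end algClosed

/-- the substitution endomorphism attached to a point with transcendental `x`-coordinate -/
noncomputable def substAlg : (Q : (W₀⁄(Kf W₀ k)).toAffine.Point) → Transcendental k (xOf Q) →
    (Kf W₀ k →ₐ[k] Kf W₀ k)
  | .zero, _ => AlgHom.id k _
  | .some _ _ h, hx => substK h.1 hx

theorem substAlg_gX (Q : (W₀⁄(Kf W₀ k)).toAffine.Point) (hx : Transcendental k (xOf Q)) :
    substAlg Q hx (gX W₀ k) = xOf Q := by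
  rcases Q with _ | ⟨x, y, h⟩
  · exact absurd (by simpa [xOf] using isAlgebraic_zero) hx
  · exact substK_gX h.1 hx

theorem map_substAlg_genPt (hΔ : (W₀⁄k).toAffine.Δ ≠ 0) (Q : (W₀⁄(Kf W₀ k)).toAffine.Point)
    (hx : Transcendental k (xOf Q)) :
    Point.map (W' := W₀) (substAlg Q hx) (genPt W₀ k hΔ) = Q := by
  rcases Q with _ | ⟨x, y, h⟩
  · exact absurd (by simpa [xOf] using isAlgebraic_zero) hx
  · unfold genPt
    rw [Point.map_some]
    have e1 : substAlg (Point.some x y h) hx (gX W₀ k) = x := substK_gX h.1 hx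
    have e2 : substAlg (Point.some x y h) hx (gY W₀ k) = y := substK_gY h.1 hx
    simp only [e1, e2]

theorem map_constPt (f : Kf W₀ k →ₐ[k] Kf W₀ k) (S : (W₀⁄k).toAffine.Point) :
    Point.map (W' := W₀) f (constPt W₀ k S) = constPt W₀ k S := by
  exact Point.map_baseChange (W' := W₀) f S

end Fermat.Agent.EC.Frob
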