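import Mathlib
import Fermat.Agent.EC.Frob_helper6_Pts

set_option autoImplicit false
set_option linter.unusedSectionVars false

/-!
# The involution of the function field and its fixed field `k(x)`
-/

namespace Fermat.Agent.EC.Frob

open WeierstrassCurve WeierstrassCurve.Affine Polynomial
open scoped Polynomial.Bivariate

variable {R₀ : Type*} [CommRing R₀] (W₀ : WeierstrassCurve R₀) (k : Type*) [Field k] [Algebra R₀ k]

/-- the embedding `k(x) → K` -/
noncomputable def embR : RatFunc k →ₐ[k] Kf W₀ k :=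
  IsFractionRing.liftAlgHom (g := (aeval (gX W₀ k) : k[X] →ₐ[k] Kf W₀ k))
    (transcendental_iff_injective.mp (gX_transcendental W₀ k))

theorem embR_algebraMap (p : k[X]) :
    embR W₀ k (algebraMap k[X] (RatFunc k) p) = aeval (gX W₀ k) p := by
  unfold embR
  rw [IsFractionRing.coe_liftAlgHom, IsFractionRing.lift_algebraMap]
  rfl

theorem embR_X : embR W₀ k RatFunc.X = gX W₀ k := by
  rw [← RatFunc.algebraMap_X, embR_algebraMap, aeval_X]

theorem embR_injective : Function.Injective (embR W₀ k) := (embR W₀ k).toRingHom.injective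

/-- the involution `y ↦ -y - a₁x - a₃` of the function field -/
noncomputable def iotaAlg : Kf W₀ k →ₐ[k] Kf W₀ k :=
  substK ((equation_neg ..).mpr (gen_equation W₀ k)) (gX_transcendental W₀ k)

theorem iotaAlg_gX : iotaAlg W₀ k (gX W₀ k) = gX W₀ k := substK_gX _ _

theorem iotaAlg_gY : iotaAlg W₀ k (gY W₀ k) =
    (W₀⁄(Kf W₀ k)).toAffine.negY (gX W₀ k) (gY W₀ k) := substK_gY _ _

theorem iotaAlg_aeval (p : k[X]) :
    iotaAlg W₀ k (aeval (gX W₀ k) p) = aeval (gX W₀ k) p := by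
  rw [← aeval_algHom_apply, iotaAlg_gX]

theorem gY_sub_negY_ne (hΔ : (W₀⁄k).toAffine.Δ ≠ 0) :
    gY W₀ k - (W₀⁄(Kf W₀ k)).toAffine.negY (gX W₀ k) (gY W₀ k) ≠ 0 := by
  have h := gen_polynomialY_ne W₀ k hΔ
  rw [evalEval_polynomialY] at h
  intro h0
  apply h
  rw [negY] at h0
  linear_combination h0

theorem algebraMap_smul_basis (p q : k[X]) :
    algebraMap (Cr W₀ k) (Kf W₀ k)
      (p • (1 : Cr W₀ k) + q • CoordinateRing.mk (W₀⁄k).toAffine Y) =
      aeval (gX W₀ k) p + aeval (gX W₀ k) q * gY W₀ k := by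
  rw [Algebra.smul_def, Algebra.smul_def, mul_one, map_add, map_mul, aeval_gX, aeval_gX]
  rfl

/-- the fixed field of the involution is `k(x)` -/
theorem mem_range_embR_of_iotaAlg_eq (hΔ : (W₀⁄k).toAffine.Δ ≠ 0) (z : Kf W₀ k)
    (hz : iotaAlg W₀ k z = z) : z ∈ Set.range (embR W₀ k) := by
  obtain ⟨a, b, hb, rfl⟩ := IsFractionRing.div_surjective (A := Cr W₀ k) z
  obtain ⟨p', q', rfl⟩ := CoordinateRing.exists_smul_basis_eq b
  set b := p' • (1 : Cr W₀ k) + q' • CoordinateRing.mk (W₀⁄k).toAffine Y with hbdef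
  set bbar : Cr W₀ k := CoordinateRing.mk (W₀⁄k).toAffine
    (C p' + C q' * (-(Y : k[X][Y]) - C (C (W₀⁄k).toAffine.a₁ * X + C (W₀⁄k).toAffine.a₃)))
    with hbbar
  have hN : algebraMap k[X] (Cr W₀ k) (Algebra.norm k[X] b) = b * bbar := by
    have := CoordinateRing.coe_norm_smul_basis (W' := (W₀⁄k).toAffine) p' q'
    have e1 : CoordinateRing.mk (W₀⁄k).toAffine (C p' + C q' * Y) = b := by
      rw [hbdef, CoordinateRing.smul, CoordinateRing.smul]
      simp only [map_add, map_mul, mul_one]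
    rw [map_mul, e1] at this
    exact this
  have hb0 : b ≠ 0 := nonZeroDivisors.ne_zero hb
  have hn0 : Algebra.norm k[X] b ≠ 0 := by
    have : Module.Free k[X] (Cr W₀ k) := Module.Free.of_basis (CoordinateRing.basis _)
    have : Module.Finite k[X] (Cr W₀ k) := Module.Finite.of_basis (CoordinateRing.basis _)
    exact fun h => hb0 (Algebra.norm_eq_zero_iff.mp h)
  obtain ⟨p, q, hpq⟩ := CoordinateRing.exists_smul_basis_eq (a * bbar)
  have hbK : algebraMap (Cr W₀ k) (Kf W₀ k) b ≠ 0 :=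
    (map_ne_zero_iff _ (IsFractionRing.injective (Cr W₀ k) (Kf W₀ k))).mpr hb0
  have hNK : aeval (gX W₀ k) (Algebra.norm k[X] b) ≠ 0 := by
    rw [aeval_gX]
    exact (map_ne_zero_iff _ (IsFractionRing.injective (Cr W₀ k) (Kf W₀ k))).mpr
      ((map_ne_zero_iff _ (algebraMap_polyX_injective W₀ k)).mpr hn0)
  have hz' : algebraMap (Cr W₀ k) (Kf W₀ k) a / algebraMap (Cr W₀ k) (Kf W₀ k) b =
      (aeval (gX W₀ k) p + aeval (gX W₀ k) q * gY W₀ k) /
        aeval (gX W₀ k) (Algebra.norm k[X] b) := by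
    rw [div_eq_div_iff hbK hNK, ← algebraMap_smul_basis, hpq, aeval_gX, hN, map_mul, map_mul]
    ring
  rw [hz'] at hz ⊢
  rw [map_div₀, map_add, map_mul, iotaAlg_aeval, iotaAlg_aeval, iotaAlg_aeval, iotaAlg_gY] at hz
  have h3 := (div_left_inj' hNK).mp hz
  have h4 : aeval (gX W₀ k) q *
      (gY W₀ k - (W₀⁄(Kf W₀ k)).toAffine.negY (gX W₀ k) (gY W₀ k)) = 0 := by
    linear_combination -h3
  have h5 : aeval (gX W₀ k) q = 0 := by
    rcases mul_eq_zero.mp h4 with h | h
    · exact h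
    · exact absurd h (gY_sub_negY_ne W₀ k hΔ)
  refine ⟨algebraMap k[X] (RatFunc k) p / algebraMap k[X] (RatFunc k) (Algebra.norm k[X] b), ?_⟩
  rw [map_div₀, embR_algebraMap, embR_algebraMap, h5, zero_mul, add_zero]

end Fermat.Agent.EC.Frob
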