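import Mathlib
import Fermat.Agent.EC.Frob_helper6_Fix
import Fermat.Agent.EC.Deg_helper5_AddSub
import Fermat.Agent.EC.Deg_helper5_Hom

set_option autoImplicit false
set_option linter.unusedSectionVars false

/-!
# The anti-invariant subgroup, the degree function and the parallelogram law
-/

namespace Fermat.Agent.EC.Frob

open WeierstrassCurve WeierstrassCurve.Affine Polynomial
open scoped Polynomial.Bivariate

/-- the duplication polynomials have no common zero when `Δ ≠ 0` -/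
theorem hND_of_Δ {F : Type*} [Field F] (W : WeierstrassCurve F) (hΔ : W.Δ ≠ 0) (u : F) :
    ¬ (4 * u ^ 3 + W.b₂ * u ^ 2 + 2 * W.b₄ * u + W.b₆ = 0 ∧
      u ^ 4 - W.b₄ * u ^ 2 - 2 * W.b₆ * u - W.b₈ = 0) := by
  rintro ⟨h1, h2⟩
  apply hΔ
  have hrel := W.b_relation
  rw [WeierstrassCurve.Δ]
  linear_combination (12 * u ^ 3 - W.b₂ * u ^ 2 - 10 * W.b₄ * u + W.b₂ * W.b₄ - 27 * W.b₆) * h1
    + (-48 * u ^ 2 - 8 * W.b₂ * u - 32 * W.b₄ + W.b₂ ^ 2) * h2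
    - (12 * u ^ 2 + 2 * W.b₂ * u + 8 * W.b₄) * hrel

variable {R₀ : Type*} [CommRing R₀] (W₀ : WeierstrassCurve R₀) (k : Type*) [Field k] [Algebra R₀ k]

attribute [local instance] decK

variable [DecidableEq k]

/-- the involution on points -/
noncomputable def iotaPt :
    (W₀⁄(Kf W₀ k)).toAffine.Point →+ (W₀⁄(Kf W₀ k)).toAffine.Point :=
  Point.map (W' := W₀) (iotaAlg W₀ k)

/-- the subgroup of anti-invariant points -/
noncomputable def antiG : AddSubgroup (W₀⁄(Kf W₀ k)).toAffine.Point :=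
  (iotaPt W₀ k + AddMonoidHom.id _).ker

variable {W₀ k}

theorem mem_antiG_iff (Q : (W₀⁄(Kf W₀ k)).toAffine.Point) :
    Q ∈ antiG W₀ k ↔ iotaPt W₀ k Q = -Q := by
  simp [antiG, AddMonoidHom.mem_ker, add_eq_zero_iff_eq_neg]

theorem genPt_mem_antiG (hΔ : (W₀⁄k).toAffine.Δ ≠ 0) : genPt W₀ k hΔ ∈ antiG W₀ k := by
  rw [mem_antiG_iff]
  unfold genPt iotaPt
  rw [Point.map_some, Point.neg_some]
  simp only [iotaAlg_gX, iotaAlg_gY]

variable (W₀ k)

/-- preimage in `k(x)` of an element of the function field (`0` if there is none) -/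
noncomputable def ratOf (z : Kf W₀ k) : RatFunc k := by
  classical exact if h : z ∈ Set.range (embR W₀ k) then h.choose else 0

/-- the `x`-coordinate as a rational function -/
noncomputable def xRat (Q : (W₀⁄(Kf W₀ k)).toAffine.Point) : RatFunc k := ratOf W₀ k (xOf Q)

/-- the degree function -/
noncomputable def dG (Q : (W₀⁄(Kf W₀ k)).toAffine.Point) : ℕ := ratDeg (xRat W₀ k Q)

variable {W₀ k}

theorem embR_ratOf {z : Kf W₀ k} (h : z ∈ Set.range (embR W₀ k)) :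
    embR W₀ k (ratOf W₀ k z) = z := by
  unfold ratOf
  rw [dif_pos h]
  exact h.choose_spec

theorem ratOf_embR (r : RatFunc k) : ratOf W₀ k (embR W₀ k r) = r :=
  embR_injective W₀ k (embR_ratOf ⟨r, rfl⟩)

theorem xRat_eq {Q : (W₀⁄(Kf W₀ k)).toAffine.Point} {r : RatFunc k}
    (h : embR W₀ k r = xOf Q) : xRat W₀ k Q = r := by
  unfold xRat
  rw [← h, ratOf_embR]

theorem xOf_mem_range_of_mem_antiG (hΔ : (W₀⁄k).toAffine.Δ ≠ 0)
    {Q : (W₀⁄(Kf W₀ k)).toAffine.Point} (hQ : Q ∈ antiG W₀ k) :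
    xOf Q ∈ Set.range (embR W₀ k) := by
  apply mem_range_embR_of_iotaAlg_eq W₀ k hΔ
  have h1 := xOf_map (iotaAlg W₀ k) Q
  have h2 : Point.map (W' := W₀) (iotaAlg W₀ k) Q = -Q := (mem_antiG_iff Q).mp hQ
  rw [h2, xOf_neg] at h1
  exact h1.symm

theorem embR_xRat (hΔ : (W₀⁄k).toAffine.Δ ≠ 0)
    {Q : (W₀⁄(Kf W₀ k)).toAffine.Point} (hQ : Q ∈ antiG W₀ k) :
    embR W₀ k (xRat W₀ k Q) = xOf Q :=
  embR_ratOf (xOf_mem_range_of_mem_antiG hΔ hQ)

theorem xRat_neg (Q : (W₀⁄(Kf W₀ k)).toAffine.Point) : xRat W₀ k (-Q) = xRat W₀ k Q := by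
  unfold xRat
  rw [xOf_neg]

theorem dG_neg (Q : (W₀⁄(Kf W₀ k)).toAffine.Point) : dG W₀ k (-Q) = dG W₀ k Q := by
  unfold dG
  rw [xRat_neg]

theorem xRat_constPt (S : (W₀⁄k).toAffine.Point) :
    xRat W₀ k (constPt W₀ k S) = algebraMap k (RatFunc k) (xOf S) := by
  apply xRat_eq
  rw [xOf_constPt, AlgHom.commutes]

theorem dG_constPt (S : (W₀⁄k).toAffine.Point) : dG W₀ k (constPt W₀ k S) = 0 := by
  unfold dG
  rw [xRat_constPt, ratDeg_eq_zero_iff]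
  exact ⟨_, rfl⟩

theorem dG_zero : dG W₀ k 0 = 0 := by
  have := dG_constPt (W₀ := W₀) (k := k) 0
  rwa [map_zero] at this

theorem xRat_genPt (hΔ : (W₀⁄k).toAffine.Δ ≠ 0) : xRat W₀ k (genPt W₀ k hΔ) = RatFunc.X := by
  apply xRat_eq
  rw [embR_X]
  rfl

theorem dG_genPt (hΔ : (W₀⁄k).toAffine.Δ ≠ 0) : dG W₀ k (genPt W₀ k hΔ) = 1 := by
  unfold dG
  rw [xRat_genPt, ratDeg_X]

theorem b₂_Kf : (W₀⁄(Kf W₀ k)).toAffine.b₂ = algebraMap k (Kf W₀ k) (W₀⁄k).toAffine.b₂ := by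
  simp only [WeierstrassCurve.b₂, baseChange_a₁, baseChange_a₂, map_add, map_mul, map_pow,
    map_ofNat, IsScalarTower.algebraMap_apply R₀ k (Kf W₀ k)]

theorem b₄_Kf : (W₀⁄(Kf W₀ k)).toAffine.b₄ = algebraMap k (Kf W₀ k) (W₀⁄k).toAffine.b₄ := by
  simp only [WeierstrassCurve.b₄, baseChange_a₁, baseChange_a₃, baseChange_a₄, map_add, map_mul,
    map_ofNat, IsScalarTower.algebraMap_apply R₀ k (Kf W₀ k)]

theorem b₆_Kf : (W₀⁄(Kf W₀ k)).toAffine.b₆ = algebraMap k (Kf W₀ k) (W₀⁄k).toAffine.b₆ := by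
  simp only [WeierstrassCurve.b₆, baseChange_a₃, baseChange_a₆, map_add, map_mul, map_pow,
    map_ofNat, IsScalarTower.algebraMap_apply R₀ k (Kf W₀ k)]

theorem b₈_Kf : (W₀⁄(Kf W₀ k)).toAffine.b₈ = algebraMap k (Kf W₀ k) (W₀⁄k).toAffine.b₈ := by
  simp only [WeierstrassCurve.b₈, baseChange_a₁, baseChange_a₂, baseChange_a₃, baseChange_a₄,
    baseChange_a₆, map_add, map_sub, map_mul, map_pow, map_ofNat,
    IsScalarTower.algebraMap_apply R₀ k (Kf W₀ k)]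

theorem psi2Of_sq_eq {P : (W₀⁄(Kf W₀ k)).toAffine.Point} (hP : P ≠ 0) :
    psi2Of P ^ 2 = 4 * xOf P ^ 3 + (W₀⁄(Kf W₀ k)).toAffine.b₂ * xOf P ^ 2
      + 2 * (W₀⁄(Kf W₀ k)).toAffine.b₄ * xOf P + (W₀⁄(Kf W₀ k)).toAffine.b₆ := by
  rcases P with _ | ⟨x, y, h⟩
  · exact absurd rfl hP
  rw [psi2Of_sq h]
  simp only [WeierstrassCurve.Ψ₂Sq, xOf_some, eval_add, eval_mul, eval_pow, eval_X, eval_C]

section parallelogram

variable [IsAlgClosed k]

/-- a nonzero `2`-torsion point in the anti-invariant subgroup has degree `0` -/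
theorem dG_eq_zero_of_two_torsion (hΔ : (W₀⁄k).toAffine.Δ ≠ 0)
    {P : (W₀⁄(Kf W₀ k)).toAffine.Point} (hP0 : P ≠ 0) (h2 : P + P = 0) : dG W₀ k P = 0 := by
  have hpsi : psi2Of P = 0 := (psi2Of_eq_zero_iff hP0).mpr h2
  have hsq := psi2Of_sq_eq hP0
  rw [hpsi, b₂_Kf, b₄_Kf, b₆_Kf] at hsq
  -- the `x`-coordinate is algebraic over `k`
  set p : k[X] := C 4 * X ^ 3 + C (W₀⁄k).toAffine.b₂ * X ^ 2 + C (2 * (W₀⁄k).toAffine.b₄) * X
    + C (W₀⁄k).toAffine.b₆ with hp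
  have hp0 : p ≠ 0 := by
    intro h0
    obtain ⟨u, hu⟩ := IsAlgClosed.exists_root
      (X ^ 4 - C (W₀⁄k).toAffine.b₄ * X ^ 2 - C (2 * (W₀⁄k).toAffine.b₆) * X
        - C (W₀⁄k).toAffine.b₈ : k[X]) (by
        have : (X ^ 4 - C (W₀⁄k).toAffine.b₄ * X ^ 2 - C (2 * (W₀⁄k).toAffine.b₆) * X
          - C (W₀⁄k).toAffine.b₈ : k[X]).degree = 4 := by compute_degree!
        rw [this]; norm_num)
    refine hND_of_Δ (W₀⁄k).toAffine hΔ u ⟨?_, ?_⟩
    · have := congrArg (fun q : k[X] => q.eval u) h0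
      simp only [hp, eval_add, eval_mul, eval_pow, eval_X, eval_C, eval_zero] at this
      linear_combination this
    · simp only [IsRoot.def, eval_sub, eval_mul, eval_pow, eval_X, eval_C] at hu
      linear_combination hu
  have halg : IsAlgebraic k (xOf P) := by
    refine ⟨p, hp0, ?_⟩
    simp only [hp, map_add, map_mul, map_pow, aeval_X, aeval_C, map_ofNat]
    linear_combination -hsq
  obtain ⟨c, hc⟩ := mem_range_of_isAlgebraic halg
  have : xRat W₀ k P = algebraMap k (RatFunc k) c := by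
    apply xRat_eq
    rw [AlgHom.commutes, hc]
  unfold dG
  rw [this, ratDeg_eq_zero_iff]
  exact ⟨c, rfl⟩

theorem dG_double (hΔ : (W₀⁄k).toAffine.Δ ≠ 0)
    {P : (W₀⁄(Kf W₀ k)).toAffine.Point} (hP : P ∈ antiG W₀ k) :
    dG W₀ k (P + P) = 4 * dG W₀ k P := by
  by_cases hP0 : P = 0
  · subst hP0
    rw [add_zero, dG_zero]
  by_cases h2 : P + P = 0
  · rw [h2, dG_zero, dG_eq_zero_of_two_torsion hΔ hP0 h2]
  have hPP : P + P ∈ antiG W₀ k := (antiG W₀ k).add_mem hP hP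
  have hpsi : psi2Of P ≠ 0 := fun h => h2 ((psi2Of_eq_zero_iff hP0).mp h)
  have hsq := psi2Of_sq_eq hP0
  have hdup := symQ_two hP0 h2 (0 : Kf W₀ k)
  rw [hsq, sub_zero] at hdup
  have e1 := embR_xRat hΔ hP
  have e3 := embR_xRat hΔ hPP
  unfold dG
  refine ratDeg_double (W₀⁄k).toAffine.b₂ (W₀⁄k).toAffine.b₄ (W₀⁄k).toAffine.b₆
    (W₀⁄k).toAffine.b₈ (hND_of_Δ (W₀⁄k).toAffine hΔ) _ _ ?_ ?_
  · intro h0
    apply hpsi
    have := congrArg (embR W₀ k) h0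
    simp only [map_add, map_mul, map_pow, map_ofNat, AlgHom.commutes, map_zero, e1] at this
    rw [← b₂_Kf, ← b₄_Kf, ← b₆_Kf, ← hsq] at this
    exact pow_eq_zero_iff (two_ne_zero) |>.mp this
  · apply embR_injective W₀ k
    simp only [map_add, map_sub, map_mul, map_pow, map_ofNat, AlgHom.commutes, e1, e3]
    rw [← b₂_Kf, ← b₄_Kf, ← b₆_Kf, ← b₈_Kf, hdup]
    unfold symQ
    ring

/-- **the exact parallelogram law** on the anti-invariant subgroup -/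
theorem dG_parallelogram (hΔ : (W₀⁄k).toAffine.Δ ≠ 0)
    {P Q : (W₀⁄(Kf W₀ k)).toAffine.Point} (hP : P ∈ antiG W₀ k) (hQ : Q ∈ antiG W₀ k) :
    dG W₀ k (P + Q) + dG W₀ k (P - Q) = 2 * dG W₀ k P + 2 * dG W₀ k Q := by
  by_cases hP0 : P = 0
  · subst hP0
    rw [zero_add, zero_sub, dG_neg, dG_zero]
    ring
  by_cases hQ0 : Q = 0
  · subst hQ0
    rw [add_zero, sub_zero, dG_zero]
    ring
  by_cases hx : xOf P = xOf Q
  · rcases (xOf_eq_iff hP0 hQ0).mp hx with h | h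
    · subst h
      rw [sub_self, dG_zero, dG_double hΔ hP]
      ring
    · subst h
      rw [neg_add_cancel, dG_zero, dG_neg, ← neg_add', dG_neg, dG_double hΔ hQ]
      ring
  have hPQ : P + Q ∈ antiG W₀ k := (antiG W₀ k).add_mem hP hQ
  have hPQ' : P - Q ∈ antiG W₀ k := (antiG W₀ k).sub_mem hP hQ
  have e1 := embR_xRat hΔ hP
  have e2 := embR_xRat hΔ hQ
  have e3 := embR_xRat hΔ hPQ
  have e4 := embR_xRat hΔ hPQ'
  have hS := symS_add_sub hP0 hQ0 hx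
  have hT := symQ_add_sub hP0 hQ0 hx (0 : Kf W₀ k)
  unfold dG
  refine ratDeg_add_sub (W₀⁄k).toAffine.b₂ (W₀⁄k).toAffine.b₄ (W₀⁄k).toAffine.b₆
    (W₀⁄k).toAffine.b₈ (hND_of_Δ (W₀⁄k).toAffine hΔ) _ _ _ _ ?_ ?_ ?_
  · intro h
    apply hx
    rw [← e1, ← e2, h]
  · apply embR_injective W₀ k
    simp only [map_add, map_sub, map_mul, map_pow, map_ofNat, AlgHom.commutes, e1, e2, e3, e4]
    rw [← b₂_Kf, ← b₄_Kf, ← b₆_Kf, hS]
    unfold symS
    ring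
  · apply embR_injective W₀ k
    simp only [map_add, map_sub, map_mul, map_pow, map_ofNat, AlgHom.commutes, e1, e2, e3, e4]
    rw [← b₄_Kf, ← b₆_Kf, ← b₈_Kf]
    simp only [sub_zero] at hT
    rw [hT]
    unfold symQ
    ring

end parallelogram

end Fermat.Agent.EC.Frob
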