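import Mathlib
import Fermat.Agent.EC.Frob_helper6_Deg

set_option autoImplicit false
set_option linter.unusedSectionVars false

/-!
# Frobenius on the points over the function field
-/

namespace Fermat.Agent.EC.Frob

open WeierstrassCurve WeierstrassCurve.Affine Polynomial
open scoped Polynomial.Bivariate

/-- `x`-coordinate of the image of a point under `Point.map` (general tower) -/
theorem xOf_map' {R S F K : Type*} [CommRing R] [CommRing S] [Field F] [Field K]
    [DecidableEq F] [DecidableEq K] (W' : WeierstrassCurve R)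
    [Algebra R S] [Algebra R F] [Algebra S F] [IsScalarTower R S F] [Algebra R K] [Algebra S K]
    [IsScalarTower R S K] (f : F →ₐ[S] K) (P : (W'⁄F).toAffine.Point) :
    xOf (Point.map (W' := W') f P) = f (xOf P) := by
  rcases P with _ | ⟨x, y, h⟩
  · simp [xOf]
    rfl
  · rfl

variable (ℓ : ℕ) [Fact ℓ.Prime] (W₀ : WeierstrassCurve (ZMod ℓ)) (k : Type*) [Field k]
  [Algebra (ZMod ℓ) k]

attribute [local instance] decK

variable [DecidableEq k]

/-- the `ℓ`-Frobenius of a `ZMod ℓ`-algebra as an algebra endomorphism -/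
noncomputable def frobAlg (A : Type*) [CommRing A] [Algebra (ZMod ℓ) A] : A →ₐ[ZMod ℓ] A :=
  FiniteField.frobeniusAlgHom (ZMod ℓ) A

theorem frobAlg_apply (A : Type*) [CommRing A] [Algebra (ZMod ℓ) A] (z : A) :
    frobAlg ℓ A z = z ^ ℓ := by
  unfold frobAlg
  rw [FiniteField.coe_frobeniusAlgHom, ZMod.card]

/-- Frobenius on the points over the function field -/
noncomputable def frobPtK :
    (W₀⁄(Kf W₀ k)).toAffine.Point →+ (W₀⁄(Kf W₀ k)).toAffine.Point :=
  Point.map (W' := W₀) (frobAlg ℓ (Kf W₀ k))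

/-- Frobenius on the points over `k` -/
noncomputable def frobPtk : (W₀⁄k).toAffine.Point →+ (W₀⁄k).toAffine.Point :=
  Point.map (W' := W₀) (frobAlg ℓ k)

variable {ℓ W₀ k}

theorem xOf_frobPtK (Q : (W₀⁄(Kf W₀ k)).toAffine.Point) :
    xOf (frobPtK ℓ W₀ k Q) = xOf Q ^ ℓ := by
  unfold frobPtK
  rw [xOf_map', frobAlg_apply]

/-- Frobenius commutes with the maps induced by `k`-algebra endomorphisms -/
theorem frobPtK_map (σ : Kf W₀ k →ₐ[k] Kf W₀ k) (Q : (W₀⁄(Kf W₀ k)).toAffine.Point) :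
    frobPtK ℓ W₀ k (Point.map (W' := W₀) σ Q) = Point.map (W' := W₀) σ (frobPtK ℓ W₀ k Q) := by
  rcases Q with _ | ⟨x, y, h⟩
  · rfl
  · unfold frobPtK
    simp only [Point.map_some, frobAlg_apply, map_pow]

theorem frobPtK_constPt (S : (W₀⁄k).toAffine.Point) :
    frobPtK ℓ W₀ k (constPt W₀ k S) = constPt W₀ k (frobPtk ℓ W₀ k S) := by
  rcases S with _ | ⟨x, y, h⟩
  · rfl
  · unfold frobPtK frobPtk constPt
    simp only [Point.map_some, frobAlg_apply, map_pow]

theorem frobPtK_mem_antiG {Q : (W₀⁄(Kf W₀ k)).toAffine.Point} (hQ : Q ∈ antiG W₀ k) :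
    frobPtK ℓ W₀ k Q ∈ antiG W₀ k := by
  rw [mem_antiG_iff] at hQ ⊢
  unfold iotaPt at hQ ⊢
  rw [← frobPtK_map, hQ, map_neg]

theorem xRat_frobPtK (hΔ : (W₀⁄k).toAffine.Δ ≠ 0) {Q : (W₀⁄(Kf W₀ k)).toAffine.Point}
    (hQ : Q ∈ antiG W₀ k) : xRat W₀ k (frobPtK ℓ W₀ k Q) = xRat W₀ k Q ^ ℓ := by
  apply xRat_eq
  rw [map_pow, embR_xRat hΔ hQ, xOf_frobPtK]

theorem dG_frobPtK (hΔ : (W₀⁄k).toAffine.Δ ≠ 0) {Q : (W₀⁄(Kf W₀ k)).toAffine.Point}
    (hQ : Q ∈ antiG W₀ k) : dG W₀ k (frobPtK ℓ W₀ k Q) = ℓ * dG W₀ k Q := by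
  unfold dG
  rw [xRat_frobPtK hΔ hQ, ratDeg_pow]

section subst

/-- `k`-algebra homomorphisms out of `k(x)` are determined by the image of `X` -/
theorem ratFunc_algHom_ext {k : Type*} [Field k] {L : Type*} [Field L] [Algebra k L]
    {f g : RatFunc k →ₐ[k] L} (h : f RatFunc.X = g RatFunc.X) : f = g := by
  have hpoly : ∀ p : k[X], f (algebraMap k[X] (RatFunc k) p) = g (algebraMap k[X] (RatFunc k) p) := by
    intro p
    have e : (f.comp (IsScalarTower.toAlgHom k k[X] (RatFunc k))) =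
        (g.comp (IsScalarTower.toAlgHom k k[X] (RatFunc k))) := by
      apply Polynomial.algHom_ext
      simpa [RatFunc.algebraMap_X] using h
    exact congrArg (fun φ : k[X] →ₐ[k] L => φ p) e
  apply AlgHom.ext
  intro r
  rw [← RatFunc.num_div_denom r, map_div₀, map_div₀, hpoly, hpoly]

/-- the substitution endomorphism `X ↦ r` of `k(x)` -/
noncomputable def ratSubstT {k : Type*} [Field k] (r : RatFunc k) (hr : Transcendental k r) :
    RatFunc k →ₐ[k] RatFunc k :=
  IsFractionRing.liftAlgHom (g := (aeval r : k[X] →ₐ[k] RatFunc k))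
    (transcendental_iff_injective.mp hr)

theorem ratSubstT_X {k : Type*} [Field k] (r : RatFunc k) (hr : Transcendental k r) :
    ratSubstT r hr RatFunc.X = r := by
  unfold ratSubstT
  rw [← RatFunc.algebraMap_X, IsFractionRing.coe_liftAlgHom, IsFractionRing.lift_algebraMap]
  simp

variable {R₀ : Type*} [CommRing R₀] {W₀ : WeierstrassCurve R₀} {k : Type*} [Field k]
  [Algebra R₀ k] [DecidableEq k]

theorem transcendental_xRat {Q : (W₀⁄(Kf W₀ k)).toAffine.Point}
    (hx : Transcendental k (xOf Q)) (hQ : xOf Q ∈ Set.range (embR W₀ k)) :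
    Transcendental k (xRat W₀ k Q) := by
  intro halg
  apply hx
  have := halg.algHom (embR W₀ k)
  unfold xRat at this
  rwa [embR_ratOf hQ] at this

theorem embR_ratSubstT {Q : (W₀⁄(Kf W₀ k)).toAffine.Point}
    (hx : Transcendental k (xOf Q)) (hQ : xOf Q ∈ Set.range (embR W₀ k)) (r : RatFunc k) :
    embR W₀ k (ratSubstT (xRat W₀ k Q) (transcendental_xRat hx hQ) r) =
      substAlg Q hx (embR W₀ k r) := by
  have e : (embR W₀ k).comp (ratSubstT (xRat W₀ k Q) (transcendental_xRat hx hQ)) =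
      (substAlg Q hx).comp (embR W₀ k) := by
    apply ratFunc_algHom_ext
    simp only [AlgHom.comp_apply, ratSubstT_X, embR_X, substAlg_gX]
    unfold xRat
    rw [embR_ratOf hQ]
  exact congrArg (fun φ : RatFunc k →ₐ[k] Kf W₀ k => φ r) e

theorem xRat_map_substAlg {Q : (W₀⁄(Kf W₀ k)).toAffine.Point}
    (hx : Transcendental k (xOf Q)) (hQ : xOf Q ∈ Set.range (embR W₀ k))
    {P' : (W₀⁄(Kf W₀ k)).toAffine.Point} (hP' : xOf P' ∈ Set.range (embR W₀ k)) :
    xRat W₀ k (Point.map (W' := W₀) (substAlg Q hx) P') =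
      ratSubstT (xRat W₀ k Q) (transcendental_xRat hx hQ) (xRat W₀ k P') := by
  apply xRat_eq
  rw [embR_ratSubstT hx hQ, xOf_map]
  unfold xRat
  rw [embR_ratOf hP']

/-- multiplicativity of the degree under substitution -/
theorem dG_map_substAlg {Q : (W₀⁄(Kf W₀ k)).toAffine.Point}
    (hx : Transcendental k (xOf Q)) (hQ : xOf Q ∈ Set.range (embR W₀ k))
    {P' : (W₀⁄(Kf W₀ k)).toAffine.Point} (hP' : xOf P' ∈ Set.range (embR W₀ k)) :
    dG W₀ k (Point.map (W' := W₀) (substAlg Q hx) P') = dG W₀ k P' * dG W₀ k Q := by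
  unfold dG
  rw [xRat_map_substAlg hx hQ hP', ratDeg_algHom, ratSubstT_X]

end subst

end Fermat.Agent.EC.Frob
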