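import Mathlib

set_option autoImplicit false
set_option linter.unusedSectionVars false

/-!
# Functions satisfying the parallelogram law on an abelian group; the Frobenius Gram computation
-/

namespace Fermat.Agent.EC.Frob

section quad

variable {A : Type*} [AddCommGroup A] (d : A → ℤ)
  (hpar : ∀ P Q : A, d (P + Q) + d (P - Q) = 2 * d P + 2 * d Q)

include hpar

theorem quad_zero : d 0 = 0 := by
  have := hpar 0 0
  simp only [add_zero, sub_zero] at this
  linarith

theorem quad_neg (P : A) : d (-P) = d P := by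
  have := hpar 0 P
  rw [zero_add, zero_sub, quad_zero d hpar] at this
  linarith

theorem quad_two (P : A) : d (P + P) = 4 * d P := by
  have := hpar P P
  rw [sub_self, quad_zero d hpar] at this
  linarith

theorem quad_three (P Q R : A) :
    d (P + Q + R) = d (P + Q) + d (P + R) + d (Q + R) - d P - d Q - d R := by
  have h1 := hpar (P + Q) R
  have h2 := hpar P (Q - R)
  have h3 := hpar (P + R) Q
  have h4 := hpar Q R
  have e1 : P + (Q - R) = P + Q - R := by abel
  have e2 : P - (Q - R) = P + R - Q := by abel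
  have e3 : P + R + Q = P + Q + R := by abel
  rw [e1, e2] at h2
  rw [e3] at h3
  linarith

/-- the associated bilinear form -/
def quadB (P Q : A) : ℤ := d (P + Q) - d P - d Q

omit hpar in
theorem quadB_comm (P Q : A) : quadB d P Q = quadB d Q P := by
  unfold quadB
  rw [add_comm]
  ring

theorem quadB_add_right (P Q R : A) : quadB d P (Q + R) = quadB d P Q + quadB d P R := by
  unfold quadB
  rw [← add_assoc, quad_three d hpar]
  ring

theorem quadB_add_left (P Q R : A) : quadB d (P + Q) R = quadB d P R + quadB d Q R := by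
  rw [quadB_comm, quadB_add_right d hpar, quadB_comm d R P, quadB_comm d R Q]

theorem quadB_self (P : A) : quadB d P P = 2 * d P := by
  unfold quadB
  rw [quad_two d hpar]
  ring

/-- the bilinear form as a bi-additive map -/
def quadBHom : A →+ A →+ ℤ :=
  AddMonoidHom.mk' (fun P => AddMonoidHom.mk' (fun Q => quadB d P Q) (quadB_add_right d hpar P))
    (fun P Q => by
      ext R
      simp only [AddMonoidHom.mk'_apply, AddMonoidHom.add_apply]
      exact quadB_add_left d hpar P Q R)

theorem quadBHom_apply (P Q : A) : quadBHom d hpar P Q = quadB d P Q := rfl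

theorem quad_add (P Q : A) : d (P + Q) = d P + d Q + quadB d P Q := by
  unfold quadB
  ring

/-- the value on a combination of two elements -/
theorem quad_lin2 (P Q : A) (m n : ℤ) :
    d (m • P + n • Q) = m ^ 2 * d P + m * n * quadB d P Q + n ^ 2 * d Q := by
  have h2 : 2 * d (m • P + n • Q) = 2 * (m ^ 2 * d P + m * n * quadB d P Q + n ^ 2 * d Q) := by
    rw [← quadB_self d hpar, ← quadBHom_apply d hpar]
    simp only [map_add, map_zsmul, AddMonoidHom.add_apply, AddMonoidHom.coe_smul, Pi.smul_apply,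
      smul_eq_mul, quadBHom_apply]
    rw [quadB_self d hpar, quadB_self d hpar, quadB_comm d Q P]
    ring
  linarith

end quad

section gram

variable {A : Type*} [AddCommGroup A] (d : A → ℤ)
  (hpar : ∀ P Q : A, d (P + Q) + d (P - Q) = 2 * d P + 2 * d Q)
  (φ : A →+ A) (ℓ : ℤ) (hφ : ∀ P, d (φ P) = ℓ * d P) (u : A) (hu : d u = 1)
  (hmul : d ((u + φ u) - φ (u + φ u)) = d (u - φ u) * d (u + φ u))

include hpar hφ hu

theorem gram_form (m n : ℤ) :
    d (m • u + n • φ u) = m ^ 2 + (1 + ℓ - d (u - φ u)) * m * n + ℓ * n ^ 2 := by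
  rw [quad_lin2 d hpar, hφ, hu]
  have h1 := quad_lin2 d hpar u (φ u) 1 (-1)
  rw [one_smul, neg_smul, one_smul, ← sub_eq_add_neg, hφ, hu] at h1
  rw [h1]
  ring

include hmul

/-- the Gram computation: `φ² - aφ + ℓ` kills the degree of `u`, `a = 1 + ℓ - d(u - φu)` -/
theorem gram_relation :
    d (φ (φ u) - (1 + ℓ - d (u - φ u)) • φ u + ℓ • u) = 0 := by
  set t := quadB d u (φ u) with ht
  have hBφ : ∀ P Q, quadB d (φ P) (φ Q) = ℓ * quadB d P Q := by
    intro P Q
    unfold quadB
    rw [← map_add, hφ, hφ, hφ]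
    ring
  have h1 := quad_lin2 d hpar u (φ u) 1 (-1)
  rw [one_smul, neg_smul, one_smul, ← sub_eq_add_neg, hφ, hu, ← ht] at h1
  have h2 := quad_lin2 d hpar u (φ u) 1 1
  rw [one_smul, one_smul, hφ, hu, ← ht] at h2
  have e : (u + φ u) - φ (u + φ u) = u - φ (φ u) := by
    rw [map_add]; abel
  rw [e, h1, h2] at hmul
  have h3 := quad_lin2 d hpar u (φ (φ u)) 1 (-1)
  rw [one_smul, neg_smul, one_smul, ← sub_eq_add_neg, hφ, hφ, hu, hmul] at h3
  -- `b = t² - 2ℓ`
  have hb : quadB d u (φ (φ u)) = t ^ 2 - 2 * ℓ := by linarith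
  have ha : 1 + ℓ - d (u - φ u) = t := by rw [h1]; ring
  rw [ha]
  have h4 : 2 * d (φ (φ u) - t • φ u + ℓ • u) = 0 := by
    rw [← quadB_self d hpar, ← quadBHom_apply d hpar]
    simp only [map_add, map_sub, map_zsmul, AddMonoidHom.add_apply, AddMonoidHom.sub_apply,
      AddMonoidHom.coe_smul, Pi.smul_apply, smul_eq_mul, quadBHom_apply]
    rw [quadB_self d hpar, quadB_self d hpar, quadB_self d hpar]
    simp only [hφ, hu]
    rw [quadB_comm d (φ (φ u)) (φ u), quadB_comm d (φ (φ u)) u, quadB_comm d (φ u) u,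
      hBφ u (φ u), hb, ← ht]
    ring
  linarith

end gram

end Fermat.Agent.EC.Frob
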