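import Mathlib
import Fermat.Agent.EC.Frob_helper6_Frob
import Fermat.Agent.EC.Frob_helper6_Quad

set_option autoImplicit false
set_option linter.unusedSectionVars false

/-!
# The quadratic relation satisfied by Frobenius on an elliptic curve over a finite prime field
-/

namespace Fermat.Agent.EC.Frob

open WeierstrassCurve WeierstrassCurve.Affine Polynomial
open scoped Polynomial.Bivariate

variable {ℓ : ℕ} [Fact ℓ.Prime] {W₀ : WeierstrassCurve (ZMod ℓ)} {k : Type*} [Field k]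
  [Algebra (ZMod ℓ) k]

attribute [local instance] decK

variable [DecidableEq k] [IsAlgClosed k]

/-- a point with algebraic `x`-coordinate is constant -/
theorem mem_range_constPt_of_not_transcendental {Q : (W₀⁄(Kf W₀ k)).toAffine.Point}
    (hx : ¬ Transcendental k (xOf Q)) : Q ∈ Set.range (constPt W₀ k) := by
  apply mem_range_constPt_of_xOf
  apply mem_range_of_isAlgebraic
  by_contra h
  exact hx h

theorem genPt_not_mem_range_constPt (hΔ : (W₀⁄k).toAffine.Δ ≠ 0) :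
    genPt W₀ k hΔ ∉ Set.range (constPt W₀ k) := by
  rintro ⟨S, hS⟩
  have h1 := xOf_constPt (W₀ := W₀) (k := k) S
  rw [hS] at h1
  exact gX_not_mem_range W₀ k ⟨_, h1.symm⟩

/-- multiplicativity for `1 - φ` -/
theorem dG_one_sub_frob_mul (hΔ : (W₀⁄k).toAffine.Δ ≠ 0)
    {Q : (W₀⁄(Kf W₀ k)).toAffine.Point} (hQ : Q ∈ antiG W₀ k) :
    dG W₀ k (Q - frobPtK ℓ W₀ k Q) =
      dG W₀ k (genPt W₀ k hΔ - frobPtK ℓ W₀ k (genPt W₀ k hΔ)) * dG W₀ k Q := by
  by_cases hx : Transcendental k (xOf Q)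
  · have hQr := xOf_mem_range_of_mem_antiG hΔ hQ
    have hP' : genPt W₀ k hΔ - frobPtK ℓ W₀ k (genPt W₀ k hΔ) ∈ antiG W₀ k :=
      (antiG W₀ k).sub_mem (genPt_mem_antiG hΔ) (frobPtK_mem_antiG (genPt_mem_antiG hΔ))
    have key : Point.map (W' := W₀) (substAlg Q hx)
        (genPt W₀ k hΔ - frobPtK ℓ W₀ k (genPt W₀ k hΔ)) = Q - frobPtK ℓ W₀ k Q := by
      rw [map_sub, ← frobPtK_map, map_substAlg_genPt]
    rw [← key]
    exact dG_map_substAlg hx hQr (xOf_mem_range_of_mem_antiG hΔ hP')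
  · obtain ⟨S, rfl⟩ := mem_range_constPt_of_not_transcendental hx
    rw [frobPtK_constPt, ← map_sub, dG_constPt, dG_constPt, mul_zero]

variable (ℓ W₀ k)

/-- the anti-invariant subgroup as a type, with Frobenius acting on it -/
noncomputable def frobG : ↥(antiG W₀ k) →+ ↥(antiG W₀ k) :=
  AddMonoidHom.codRestrict ((frobPtK ℓ W₀ k).comp (antiG W₀ k).subtype) (antiG W₀ k)
    (fun P => frobPtK_mem_antiG P.2)

variable {ℓ W₀ k}

theorem coe_frobG (P : ↥(antiG W₀ k)) :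
    ((frobG ℓ W₀ k P : ↥(antiG W₀ k)) : (W₀⁄(Kf W₀ k)).toAffine.Point) = frobPtK ℓ W₀ k P.1 := rfl

/-- the degree of `(φ² - aφ + ℓ) P₀` vanishes, `a = 1 + ℓ - deg (P₀ - φ P₀)` -/
theorem dG_char_genPt (hΔ : (W₀⁄k).toAffine.Δ ≠ 0) :
    dG W₀ k (frobPtK ℓ W₀ k (frobPtK ℓ W₀ k (genPt W₀ k hΔ))
      - (1 + (ℓ : ℤ) - (dG W₀ k (genPt W₀ k hΔ - frobPtK ℓ W₀ k (genPt W₀ k hΔ)) : ℤ)) •
        frobPtK ℓ W₀ k (genPt W₀ k hΔ) + (ℓ : ℤ) • genPt W₀ k hΔ) = 0 := by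
  set d : ↥(antiG W₀ k) → ℤ := fun P => (dG W₀ k P.1 : ℤ) with hd
  have hpar : ∀ P Q : ↥(antiG W₀ k), d (P + Q) + d (P - Q) = 2 * d P + 2 * d Q := by
    intro P Q
    have := dG_parallelogram hΔ P.2 Q.2
    simp only [hd, AddSubgroup.coe_add, AddSubgroup.coe_sub]
    exact_mod_cast this
  have hφ : ∀ P, d (frobG ℓ W₀ k P) = (ℓ : ℤ) * d P := by
    intro P
    simp only [hd, coe_frobG]
    exact_mod_cast dG_frobPtK hΔ P.2
  set u : ↥(antiG W₀ k) := ⟨genPt W₀ k hΔ, genPt_mem_antiG hΔ⟩ with hu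
  have hu1 : d u = 1 := by
    simp only [hd, hu]
    exact_mod_cast dG_genPt hΔ
  have hmul : d ((u + frobG ℓ W₀ k u) - frobG ℓ W₀ k (u + frobG ℓ W₀ k u)) =
      d (u - frobG ℓ W₀ k u) * d (u + frobG ℓ W₀ k u) := by
    have := dG_one_sub_frob_mul (ℓ := ℓ) hΔ (u + frobG ℓ W₀ k u).2
    simp only [hd, AddSubgroup.coe_add, AddSubgroup.coe_sub, coe_frobG]
    exact_mod_cast this
  have key := gram_relation d hpar (frobG ℓ W₀ k) (ℓ : ℤ) hφ u hu1 hmul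
  simp only [hd, AddSubgroup.coe_add, AddSubgroup.coe_sub, coe_frobG, AddSubgroup.coe_zsmul]
    at key
  exact_mod_cast key

/-- **The quadratic relation for Frobenius**, in terms of the degree of `x(P₀ - φP₀)`. -/
theorem frob_relation_of_dG (hΔ : (W₀⁄k).toAffine.Δ ≠ 0) (S : (W₀⁄k).toAffine.Point) :
    frobPtk ℓ W₀ k (frobPtk ℓ W₀ k S)
      - (1 + (ℓ : ℤ) - (dG W₀ k (genPt W₀ k hΔ - frobPtK ℓ W₀ k (genPt W₀ k hΔ)) : ℤ)) •
        frobPtk ℓ W₀ k S + (ℓ : ℤ) • S = 0 := by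
  set a : ℤ := 1 + (ℓ : ℤ) - (dG W₀ k (genPt W₀ k hΔ - frobPtK ℓ W₀ k (genPt W₀ k hΔ)) : ℤ)
    with ha
  -- the endomorphism `χ = φ² - aφ + ℓ` over the function field
  set χ : (W₀⁄(Kf W₀ k)).toAffine.Point →+ (W₀⁄(Kf W₀ k)).toAffine.Point :=
    (frobPtK ℓ W₀ k).comp (frobPtK ℓ W₀ k) - a • frobPtK ℓ W₀ k + (ℓ : ℤ) • AddMonoidHom.id _
    with hχ
  have hχ_apply : ∀ P, χ P = frobPtK ℓ W₀ k (frobPtK ℓ W₀ k P) - a • frobPtK ℓ W₀ k P
      + (ℓ : ℤ) • P := by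
    intro P
    simp [hχ]
  -- `χ P₀` is a constant point
  have hG : χ (genPt W₀ k hΔ) ∈ antiG W₀ k := by
    rw [hχ_apply]
    have h0 := genPt_mem_antiG (W₀ := W₀) (k := k) hΔ
    have h1 := frobPtK_mem_antiG (ℓ := ℓ) h0
    have h2 := frobPtK_mem_antiG (ℓ := ℓ) h1
    exact (antiG W₀ k).add_mem ((antiG W₀ k).sub_mem h2 ((antiG W₀ k).zsmul_mem h1 _))
      ((antiG W₀ k).zsmul_mem h0 _)
  have hd0 : dG W₀ k (χ (genPt W₀ k hΔ)) = 0 := by
    rw [hχ_apply]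
    exact dG_char_genPt hΔ
  obtain ⟨c, hc⟩ : χ (genPt W₀ k hΔ) ∈ Set.range (constPt W₀ k) := by
    apply mem_range_constPt_of_xOf
    unfold dG at hd0
    rw [ratDeg_eq_zero_iff] at hd0
    obtain ⟨c₀, hc₀⟩ := hd0
    refine ⟨c₀, ?_⟩
    rw [← embR_xRat hΔ hG, ← hc₀, AlgHom.commutes]
  -- translation trick
  set Q := genPt W₀ k hΔ + constPt W₀ k S with hQ
  have hx : Transcendental k (xOf Q) := by
    by_contra hx
    obtain ⟨S', hS'⟩ := mem_range_constPt_of_not_transcendental hx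
    apply genPt_not_mem_range_constPt (W₀ := W₀) (k := k) hΔ
    refine ⟨S' - S, ?_⟩
    rw [map_sub, hS', hQ]
    abel
  have hcomm : ∀ P, χ (Point.map (W' := W₀) (substAlg Q hx) P) =
      Point.map (W' := W₀) (substAlg Q hx) (χ P) := by
    intro P
    rw [hχ_apply, hχ_apply, frobPtK_map, frobPtK_map, map_add, map_sub, map_zsmul, map_zsmul]
  have h1 : χ Q = χ (genPt W₀ k hΔ) := by
    have := hcomm (genPt W₀ k hΔ)
    rw [map_substAlg_genPt, ← hc, map_constPt] at this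
    rw [this, hc]
  have h2 : χ (constPt W₀ k S) = 0 := by
    have : χ Q = χ (genPt W₀ k hΔ) + χ (constPt W₀ k S) := by rw [hQ, map_add]
    rw [h1] at this
    exact (add_eq_left.mp this.symm)
  apply constPt_injective W₀ k
  rw [map_zero, map_add, map_sub, map_zsmul, map_zsmul, ← frobPtK_constPt, ← frobPtK_constPt,
    ← hχ_apply]
  exact h2

end Fermat.Agent.EC.Frob
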