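import Mathlib
import Fermat.Agent.EC.Frob_helper6_Main
import Fermat.Agent.EC.FrobCount_helper8_Bridge
import Fermat.Agent.EC.FrobCount2_helper1_Bridge

set_option autoImplicit false
set_option linter.unusedSectionVars false

/-!
# The Frobenius relation `φ² - aφ + ℓ = 0` with `a = ℓ + 1 - #E(𝔽_ℓ)`
-/

namespace Fermat.Agent.EC.Frob

open WeierstrassCurve WeierstrassCurve.Affine Polynomial
open scoped Polynomial.Bivariate

variable {ℓ : ℕ} [Fact ℓ.Prime] {W₀ : WeierstrassCurve (ZMod ℓ)} {k : Type*} [Field k]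
  [Algebra (ZMod ℓ) k]

attribute [local instance] decK

variable [DecidableEq k]

theorem baseChange_Δ_ne (hΔ : W₀.Δ ≠ 0) : (W₀⁄k).toAffine.Δ ≠ 0 := by
  have : (W₀⁄k).toAffine.Δ = algebraMap (ZMod ℓ) k W₀.Δ := by
    simp [WeierstrassCurve.baseChange, WeierstrassCurve.map_Δ]
  rw [this]
  exact (map_ne_zero_iff _ (algebraMap (ZMod ℓ) k).injective).mpr hΔ

theorem gX_ne_pow : gX W₀ k ≠ gX W₀ k ^ ℓ := by
  intro h
  have hℓ : 1 < ℓ := (Fact.out : ℓ.Prime).one_lt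
  apply gX_transcendental W₀ k
  refine ⟨X ^ ℓ - X, ?_, ?_⟩
  · exact FiniteField.X_pow_card_sub_X_ne_zero k hℓ
  · simp only [map_sub, map_pow, aeval_X]
    rw [← h, sub_self]

/-- the `x`-coordinate of `P₀ - φP₀` by the addition formula -/
theorem xOf_genPt_sub_frob (hΔ : (W₀⁄k).toAffine.Δ ≠ 0) :
    xOf (genPt W₀ k hΔ - frobPtK ℓ W₀ k (genPt W₀ k hΔ)) =
      (W₀⁄(Kf W₀ k)).toAffine.addX (gX W₀ k) (gX W₀ k ^ ℓ)
        ((W₀⁄(Kf W₀ k)).toAffine.slope (gX W₀ k) (gX W₀ k ^ ℓ) (gY W₀ k)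
          ((W₀⁄(Kf W₀ k)).toAffine.negY (gX W₀ k ^ ℓ) (gY W₀ k ^ ℓ))) := by
  unfold genPt frobPtK
  rw [Point.map_some, sub_eq_add_neg, Point.neg_some]
  simp only [frobAlg_apply]
  rw [Point.add_of_X_ne (gX_ne_pow (ℓ := ℓ) (W₀ := W₀) (k := k))]
  rfl

/-- the degree of `x(P₀ - φP₀)` is the number of rational points -/
theorem dG_genPt_sub_frob (hΔ₀ : W₀.Δ ≠ 0) :
    dG W₀ k (genPt W₀ k (baseChange_Δ_ne hΔ₀)
      - frobPtK ℓ W₀ k (genPt W₀ k (baseChange_Δ_ne hΔ₀))) = Nat.card W₀.toAffine.Point := by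
  unfold dG
  by_cases hℓ2 : ℓ = 2
  · subst hℓ2
    have : xRat W₀ k (genPt W₀ k (baseChange_Δ_ne hΔ₀)
        - frobPtK 2 W₀ k (genPt W₀ k (baseChange_Δ_ne hΔ₀))) =
        frob2Formula (algebraMap (ZMod 2) (RatFunc k) W₀.a₁)
          (algebraMap (ZMod 2) (RatFunc k) W₀.a₂) (algebraMap (ZMod 2) (RatFunc k) W₀.a₃)
          (algebraMap (ZMod 2) (RatFunc k) W₀.a₄) (algebraMap (ZMod 2) (RatFunc k) W₀.a₆)
          (RatFunc.X : RatFunc k) := by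
      apply xRat_eq
      rw [frob2Formula_algHom k (Kf W₀ k) (embR W₀ k), embR_X, xOf_genPt_sub_frob]
      exact (frob2_addX_baseChange W₀ (Kf W₀ k) (gen_equation W₀ k) gX_ne_pow).symm
    rw [this, ratDeg_frob2Formula k W₀ hΔ₀]
  · have : xRat W₀ k (genPt W₀ k (baseChange_Δ_ne hΔ₀)
        - frobPtK ℓ W₀ k (genPt W₀ k (baseChange_Δ_ne hΔ₀))) =
        frobFormula ℓ (algebraMap (ZMod ℓ) (RatFunc k) W₀.b₂)
          (algebraMap (ZMod ℓ) (RatFunc k) W₀.b₄) (algebraMap (ZMod ℓ) (RatFunc k) W₀.b₆)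
          (RatFunc.X : RatFunc k) := by
      apply xRat_eq
      rw [frobFormula_algHom ℓ k (Kf W₀ k) (embR W₀ k), embR_X, xOf_genPt_sub_frob]
      exact (frob_addX_baseChange ℓ hℓ2 W₀ (Kf W₀ k) (gen_equation W₀ k) gX_ne_pow).symm
    rw [this, ratDeg_frobFormula ℓ hℓ2 W₀ hΔ₀ k]

end Fermat.Agent.EC.Frob

namespace Fermat.Agent.EC

open WeierstrassCurve WeierstrassCurve.Affine

/-- **(E3) The Frobenius relation.**  For an elliptic curve `W₀` over `𝔽_ℓ` (any prime `ℓ`) and an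
algebraically closed field `k ⊇ 𝔽_ℓ`, the `ℓ`-Frobenius `φ` of `W₀(k)` satisfies
`φ² - a φ + ℓ = 0` with `a = ℓ + 1 - #W₀(𝔽_ℓ)`. -/
theorem frob_relation (ℓ : ℕ) [Fact ℓ.Prime] (W₀ : WeierstrassCurve (ZMod ℓ)) (hΔ : W₀.Δ ≠ 0)
    (k : Type*) [Field k] [DecidableEq k] [Algebra (ZMod ℓ) k] [IsAlgClosed k]
    (φ : k →ₐ[ZMod ℓ] k) (hφ : ∀ x, φ x = x ^ ℓ) (T : (W₀⁄k).toAffine.Point) :
    Point.map (W' := W₀) φ (Point.map (W' := W₀) φ T)
      - ((ℓ : ℤ) + 1 - (Nat.card W₀.toAffine.Point : ℤ)) • Point.map (W' := W₀) φ T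
      + (ℓ : ℤ) • T = 0 := by
  have hφ' : φ = Frob.frobAlg ℓ k := AlgHom.ext fun x => by rw [hφ, Frob.frobAlg_apply]
  subst hφ'
  have := Frob.frob_relation_of_dG (ℓ := ℓ) (W₀ := W₀) (k := k) (Frob.baseChange_Δ_ne hΔ) T
  rw [Frob.dG_genPt_sub_frob hΔ] at this
  have e : (1 : ℤ) + (ℓ : ℤ) - (Nat.card W₀.toAffine.Point : ℤ) =
      (ℓ : ℤ) + 1 - (Nat.card W₀.toAffine.Point : ℤ) := by ring
  rw [e] at this
  exact this

end Fermat.Agent.EC
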