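import Mathlib
import Fermat.Agent.EC.Frob_helper6_Final

set_option autoImplicit false
set_option linter.unusedSectionVars false

/-!
# The kernel bound `#ker (φ - c) ≤ c² - a c + ℓ`
-/

namespace Fermat.Agent.EC.Frob

open WeierstrassCurve WeierstrassCurve.Affine Polynomial
open scoped Polynomial.Bivariate

variable {ℓ : ℕ} [Fact ℓ.Prime] {W₀ : WeierstrassCurve (ZMod ℓ)} {k : Type*} [Field k]
  [Algebra (ZMod ℓ) k]

attribute [local instance] decK

variable [DecidableEq k] [IsAlgClosed k]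

/-- the translate of the generic point by a constant point has transcendental `x`-coordinate -/
theorem transcendental_xOf_genPt_add (hΔ : (W₀⁄k).toAffine.Δ ≠ 0) (S : (W₀⁄k).toAffine.Point) :
    Transcendental k (xOf (genPt W₀ k hΔ + constPt W₀ k S)) := by
  by_contra hx
  obtain ⟨S', hS'⟩ := mem_range_constPt_of_not_transcendental hx
  apply genPt_not_mem_range_constPt (W₀ := W₀) (k := k) hΔ
  refine ⟨S' - S, ?_⟩
  rw [map_sub, hS']
  abel

/-- the Gram form: `deg (m + nφ) = m² + a m n + ℓ n²` -/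
theorem dG_lin_genPt (hΔ : (W₀⁄k).toAffine.Δ ≠ 0) (m n : ℤ) :
    (dG W₀ k (m • genPt W₀ k hΔ + n • frobPtK ℓ W₀ k (genPt W₀ k hΔ)) : ℤ) =
      m ^ 2 + (1 + (ℓ : ℤ) -
        (dG W₀ k (genPt W₀ k hΔ - frobPtK ℓ W₀ k (genPt W₀ k hΔ)) : ℤ)) * m * n
        + (ℓ : ℤ) * n ^ 2 := by
  set d : ↥(antiG W₀ k) → ℤ := fun P => (dG W₀ k P.1 : ℤ) with hd
  have hpar : ∀ P Q : ↥(antiG W₀ k), d (P + Q) + d (P - Q) = 2 * d P + 2 * d Q := by
    intro P Q
    have := dG_parallelogram hΔ P.2 Q.2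
    simp only [hd, AddSubgroup.coe_add, AddSubgroup.coe_sub]
    exact_mod_cast this
  have hφ : ∀ P, d (frobG ℓ W₀ k P) = (ℓ : ℤ) * d P := by
    intro P
    simp only [hd, coe_frobG]
    exact_mod_cast dG_frobPtK hΔ P.2
  set u : ↥(antiG W₀ k) := ⟨genPt W₀ k hΔ, genPt_mem_antiG hΔ⟩ with hu
  have hu1 : d u = 1 := by
    simp only [hd, hu]
    exact_mod_cast dG_genPt hΔ
  have key := gram_form d hpar (frobG ℓ W₀ k) (ℓ : ℤ) hφ u hu1 m n
  simp only [hd, AddSubgroup.coe_add, AddSubgroup.coe_sub, coe_frobG, AddSubgroup.coe_zsmul]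
    at key
  exact_mod_cast key

/-- positivity: `c² - a c + ℓ ≥ 1` (Hasse + `ℓ` is not a square) -/
theorem one_le_dG_frob_sub (hΔ : (W₀⁄k).toAffine.Δ ≠ 0) (c : ℤ) :
    1 ≤ dG W₀ k (frobPtK ℓ W₀ k (genPt W₀ k hΔ) - c • genPt W₀ k hΔ) := by
  set a : ℤ := 1 + (ℓ : ℤ) -
    (dG W₀ k (genPt W₀ k hΔ - frobPtK ℓ W₀ k (genPt W₀ k hΔ)) : ℤ) with ha
  by_contra hlt
  have h0 : dG W₀ k (frobPtK ℓ W₀ k (genPt W₀ k hΔ) - c • genPt W₀ k hΔ) = 0 := by omega
  have e1 := dG_lin_genPt (ℓ := ℓ) hΔ (-c) 1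
  rw [one_smul, neg_smul, neg_add_eq_sub, h0, ← ha] at e1
  have e2 := dG_lin_genPt (ℓ := ℓ) hΔ (-a) 2
  rw [← ha] at e2
  have h2 : (0 : ℤ) ≤ (-a) ^ 2 + a * (-a) * 2 + (ℓ : ℤ) * 2 ^ 2 := by
    rw [← e2]; positivity
  have e1' : c ^ 2 - a * c + (ℓ : ℤ) = 0 := by
    push_cast at e1
    linarith
  have h2' : (0 : ℤ) ≤ 4 * (ℓ : ℤ) - a ^ 2 := by
    calc (0 : ℤ) ≤ (-a) ^ 2 + a * (-a) * 2 + (ℓ : ℤ) * 2 ^ 2 := h2
      _ = 4 * (ℓ : ℤ) - a ^ 2 := by ring
  have h3 : (2 * c - a) ^ 2 = 0 := by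
    have hsq := sq_nonneg (2 * c - a)
    have : (2 * c - a) ^ 2 = -(4 * (ℓ : ℤ) - a ^ 2) := by linear_combination 4 * e1'
    linarith
  have h4 : a = 2 * c := by
    have := pow_eq_zero_iff (two_ne_zero) |>.mp h3
    linarith
  have h5 : (ℓ : ℤ) = c * c := by
    rw [h4] at e1'
    linarith
  have hp : ℓ.Prime := Fact.out
  have h6 : ℓ = c.natAbs * c.natAbs := by
    have : (ℓ : ℤ) = ((c.natAbs * c.natAbs : ℕ) : ℤ) := by
      rw [h5, Nat.cast_mul, Int.natAbs_mul_self' c]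
    exact_mod_cast this
  rcases hp.eq_one_or_self_of_dvd c.natAbs ⟨c.natAbs, h6⟩ with h1 | h1
  · rw [h1] at h6
    have := hp.one_lt
    omega
  · rw [h1] at h6
    have := hp.two_le
    nlinarith

/-- translation by a constant point is injective on `x`-coordinates -/
theorem xOf_genPt_add_injective (hΔ : (W₀⁄k).toAffine.Δ ≠ 0) :
    Function.Injective (fun S : (W₀⁄k).toAffine.Point =>
      xOf (genPt W₀ k hΔ + constPt W₀ k S)) := by
  intro S S' h
  simp only at h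
  have hne : ∀ S₁ : (W₀⁄k).toAffine.Point, genPt W₀ k hΔ + constPt W₀ k S₁ ≠ 0 := by
    intro S₁ h0
    have := transcendental_xOf_genPt_add (W₀ := W₀) (k := k) hΔ S₁
    rw [h0] at this
    exact this (by simpa [xOf] using isAlgebraic_zero)
  rcases (xOf_eq_iff (hne S) (hne S')).mp h with h1 | h1
  · exact constPt_injective W₀ k (add_left_cancel h1)
  · exfalso
    have h2 : genPt W₀ k hΔ + genPt W₀ k hΔ = constPt W₀ k (-(S + S')) := by
      rw [map_neg, map_add]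
      have : genPt W₀ k hΔ + genPt W₀ k hΔ =
          (genPt W₀ k hΔ + constPt W₀ k S) + (genPt W₀ k hΔ - constPt W₀ k S) := by abel
      rw [this, h1]
      abel
    have h3 := dG_double hΔ (genPt_mem_antiG (W₀ := W₀) (k := k) hΔ)
    rw [h2, dG_constPt, dG_genPt] at h3
    omega

/-- **the kernel bound** in terms of the degree -/
theorem ker_card_le_dG (hΔ : (W₀⁄k).toAffine.Δ ≠ 0) (c : ℤ) (T : Finset (W₀⁄k).toAffine.Point)
    (hT : ∀ S ∈ T, frobPtk ℓ W₀ k S = c • S) :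
    T.card ≤ dG W₀ k (frobPtK ℓ W₀ k (genPt W₀ k hΔ) - c • genPt W₀ k hΔ) := by
  classical
  set Qc := frobPtK ℓ W₀ k (genPt W₀ k hΔ) - c • genPt W₀ k hΔ with hQc
  have hQcG : Qc ∈ antiG W₀ k :=
    (antiG W₀ k).sub_mem (frobPtK_mem_antiG (genPt_mem_antiG hΔ))
      ((antiG W₀ k).zsmul_mem (genPt_mem_antiG hΔ) c)
  have hdpos : 1 ≤ dG W₀ k Qc := one_le_dG_frob_sub hΔ c
  set R := xRat W₀ k Qc with hRdef
  have hR : embR W₀ k R = xOf Qc := embR_xRat hΔ hQcG
  have hq0 : R.denom ≠ 0 := R.denom_ne_zero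
  have hinj : Function.Injective (aeval (gX W₀ k) : k[X] →ₐ[k] Kf W₀ k) :=
    transcendental_iff_injective.mp (gX_transcendental W₀ k)
  have hembR : embR W₀ k R = aeval (gX W₀ k) R.num / aeval (gX W₀ k) R.denom := by
    conv_lhs => rw [← RatFunc.num_div_denom R]
    rw [map_div₀, embR_algebraMap, embR_algebraMap]
  have hA : aeval (gX W₀ k) R.denom ≠ 0 := by
    intro h0
    exact hq0 (hinj (by rw [h0, map_zero]))
  set Pi : (Kf W₀ k)[X] := C (aeval (gX W₀ k) R.denom) * R.num.map (algebraMap k (Kf W₀ k))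
    - C (aeval (gX W₀ k) R.num) * R.denom.map (algebraMap k (Kf W₀ k)) with hPi
  have hPi_deg : Pi.natDegree ≤ dG W₀ k Qc := by
    unfold dG ratDeg
    rw [← hRdef]
    refine (natDegree_sub_le _ _).trans (max_le_max ?_ ?_)
    · exact (natDegree_C_mul_le _ _).trans natDegree_map_le
    · exact (natDegree_C_mul_le _ _).trans natDegree_map_le
  have hPi_ne : Pi ≠ 0 := by
    intro h0
    have hc := congrArg (fun P : (Kf W₀ k)[X] => P.coeff R.denom.natDegree) h0
    simp only [hPi, coeff_sub, coeff_C_mul, coeff_map, coeff_zero] at hc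
    rw [show R.denom.coeff R.denom.natDegree = 1 from R.monic_denom.coeff_natDegree, map_one,
      mul_one, sub_eq_zero] at hc
    have hpq : R.num = R.denom * C (R.num.coeff R.denom.natDegree) := by
      apply hinj
      rw [map_mul, aeval_C, ← hc]
    have hcop : IsCoprime R.num R.denom := R.isCoprime_num_denom
    have hunit : IsUnit R.denom := by
      have hdvd : R.denom ∣ R.num := ⟨_, hpq⟩
      exact hcop.isUnit_of_dvd' hdvd (dvd_refl _)
    have hd0 : R.denom.natDegree = 0 := natDegree_eq_zero_of_isUnit hunit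
    have hn0 : R.num.natDegree = 0 := by
      have h1 : R.num.natDegree ≤
          R.denom.natDegree + (C (R.num.coeff R.denom.natDegree) : k[X]).natDegree := by
        conv_lhs => rw [hpq]
        exact natDegree_mul_le
      rw [hd0, natDegree_C] at h1
      omega
    have : dG W₀ k Qc = 0 := by
      unfold dG ratDeg
      rw [← hRdef, hd0, hn0]
      rfl
    omega
  have hroot : ∀ S ∈ T, xOf (genPt W₀ k hΔ + constPt W₀ k S) ∈ Pi.roots.toFinset := by
    intro S hS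
    rw [Multiset.mem_toFinset, mem_roots hPi_ne, IsRoot.def]
    set QS := genPt W₀ k hΔ + constPt W₀ k S with hQS
    have hx := transcendental_xOf_genPt_add (W₀ := W₀) (k := k) hΔ S
    have key1 : Point.map (W' := W₀) (substAlg QS hx) Qc = Qc := by
      rw [hQc, map_sub, map_zsmul, ← frobPtK_map, map_substAlg_genPt, hQS, map_add,
        frobPtK_constPt, hT S hS, map_zsmul, smul_add]
      abel
    have key2 : substAlg QS hx (xOf Qc) = xOf Qc := by
      rw [← xOf_map, key1]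
    rw [← hR, hembR, map_div₀, ← aeval_algHom_apply, ← aeval_algHom_apply, substAlg_gX] at key2
    have hA' : aeval (xOf QS) R.denom ≠ 0 := by
      intro h0
      exact hq0 (transcendental_iff_injective.mp hx (by rw [h0, map_zero]))
    rw [div_eq_div_iff hA' hA] at key2
    simp only [hPi, eval_sub, eval_mul, eval_C, eval_map_algebraMap]
    linear_combination key2
  calc T.card = (T.image (fun S => xOf (genPt W₀ k hΔ + constPt W₀ k S))).card :=
        (Finset.card_image_of_injective T (xOf_genPt_add_injective hΔ)).symm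
    _ ≤ Pi.roots.toFinset.card := Finset.card_le_card (by
        intro z hz
        obtain ⟨S, hS, rfl⟩ := Finset.mem_image.mp hz
        exact hroot S hS)
    _ ≤ Multiset.card Pi.roots := Multiset.toFinset_card_le _
    _ ≤ Pi.natDegree := Polynomial.card_roots' Pi
    _ ≤ dG W₀ k Qc := hPi_deg

end Fermat.Agent.EC.Frob

namespace Fermat.Agent.EC

open WeierstrassCurve WeierstrassCurve.Affine

attribute [local instance] Frob.decK

/-- **(N1) The kernel bound.**  On an elliptic curve `W₀` over `𝔽_ℓ`, a finite set of points of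
`W₀(k)` (`k ⊇ 𝔽_ℓ` algebraically closed) on which the `ℓ`-Frobenius acts as the integer `c` has at
most `c² - a c + ℓ` elements, `a = ℓ + 1 - #W₀(𝔽_ℓ)`. -/
theorem frob_ker_card_le (ℓ : ℕ) [Fact ℓ.Prime] (W₀ : WeierstrassCurve (ZMod ℓ)) (hΔ : W₀.Δ ≠ 0)
    (k : Type*) [Field k] [DecidableEq k] [Algebra (ZMod ℓ) k] [IsAlgClosed k]
    (φ : k →ₐ[ZMod ℓ] k) (hφ : ∀ x, φ x = x ^ ℓ) (c : ℤ) (T : Finset (W₀⁄k).toAffine.Point)
    (hT : ∀ S ∈ T, Point.map (W' := W₀) φ S = c • S) :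
    (T.card : ℤ) ≤ c ^ 2 - ((ℓ : ℤ) + 1 - (Nat.card W₀.toAffine.Point : ℤ)) * c + (ℓ : ℤ) := by
  have hφ' : φ = Frob.frobAlg ℓ k := AlgHom.ext fun x => by rw [hφ, Frob.frobAlg_apply]
  subst hφ'
  have h1 := Frob.ker_card_le_dG (ℓ := ℓ) (W₀ := W₀) (k := k) (Frob.baseChange_Δ_ne hΔ) c T hT
  have h2 := Frob.dG_lin_genPt (ℓ := ℓ) (W₀ := W₀) (k := k) (Frob.baseChange_Δ_ne hΔ) (-c) 1
  rw [one_smul, neg_smul, neg_add_eq_sub, Frob.dG_genPt_sub_frob hΔ] at h2
  have h3 : (T.card : ℤ) ≤ (Frob.dG W₀ k (Frob.frobPtK ℓ W₀ k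
      (Frob.genPt W₀ k (Frob.baseChange_Δ_ne hΔ)) - c • Frob.genPt W₀ k
        (Frob.baseChange_Δ_ne hΔ)) : ℤ) := by exact_mod_cast h1
  rw [h2] at h3
  linarith

end Fermat.Agent.EC
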