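import Mathlib
import Fermat.Agent.CFT.S14.Inertia_helper5

/-!
# S13 package (5) MINKOWSKI (helper5)

An open normal subgroup of `G_ℚ = Gal(ℚ̄/ℚ)` containing the inertia subgroups of all valuation
subrings of `ℚ̄` (over all primes) is the whole group: its fixed field is a number field, Galois
over `ℚ` and unramified at every prime, hence equal to `ℚ` by Minkowski's theorem
(`NumberField.exists_not_isUnramifiedAt_int`).
-/

set_option autoImplicit false

open IntermediateField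
open scoped NumberField

namespace Fermat.Agent.EC

open Fermat.Agent.CFT.S14

/-- A number field which is Galois over `ℚ` and all of whose inertia groups are trivial
is `ℚ` (Minkowski). -/
theorem finrank_eq_one_of_inertia_trivial (L : Type*) [Field L] [NumberField L] [IsGalois ℚ L]
    (h : ∀ (Q : Ideal (𝓞 L)), Q.IsPrime → Q ≠ ⊥ →
      ∀ σ : L ≃ₐ[ℚ] L, (∀ x : 𝓞 L, σ • x - x ∈ Q) → σ = 1) :
    Module.finrank ℚ L = 1 := by
  by_contra H
  obtain ⟨P, hPmax, hP⟩ := NumberField.exists_not_isUnramifiedAt_int (K := L) (𝒪 := 𝓞 L) H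
  apply hP
  have : P.IsPrime := hPmax.isPrime
  have hP0 : P ≠ ⊥ := by
    intro h0
    exact NumberField.RingOfIntegers.not_isField L (Ring.isField_iff_maximal_bot.mpr (h0 ▸ hPmax))
  have := IsGaloisGroup.of_isFractionRing (L ≃ₐ[ℚ] L) ℤ (𝓞 L) ℚ L
  rw [← Ideal.ramificationIdx_eq_one_iff,
    ← Ideal.ramificationIdxIn_eq_ramificationIdx (P.under ℤ) P (L ≃ₐ[ℚ] L),
    ← Ideal.card_inertia_eq_ramificationIdxIn (G := L ≃ₐ[ℚ] L) (P.under ℤ) P]
  rw [Nat.card_eq_one_iff_unique]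
  refine ⟨⟨fun a b => ?_⟩, ⟨1⟩⟩
  have ha : (a : L ≃ₐ[ℚ] L) = 1 := h P inferInstance hP0 a (fun x => a.2 x)
  have hb : (b : L ≃ₐ[ℚ] L) = 1 := h P inferInstance hP0 b (fun x => b.2 x)
  exact Subtype.ext (ha.trans hb.symm)

/-- **MINKOWSKI for `G_ℚ`**: an open normal subgroup of `G_ℚ` containing all inertia subgroups
is everything. -/
theorem eq_top_of_inertia_le (H : Subgroup GQ) [H.Normal] (hopen : IsOpen (H : Set GQ))
    (hI : ∀ (ℓ : ℕ) (A : ValuationSubring Qbar), ℓ.Prime → A.LiesOverPrime ℓ →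
      A.inertiaSubgroupIn ℚ ≤ H) : H = ⊤ := by
  have : Fact (IsOpen (H : Set GQ)) := ⟨hopen⟩
  have hNK : H ≤ (⊥ : IntermediateField ℚ Qbar).fixingSubgroup := by
    rw [IntermediateField.fixingSubgroup_bot]; exact le_top
  have : IsGalois ℚ (LK hNK) := ⟨⟩
  have hmemK : ∀ σ : GQ, σ ∈ (⊥ : IntermediateField ℚ Qbar).fixingSubgroup := fun σ => by
    rw [IntermediateField.fixingSubgroup_bot]; exact Subgroup.mem_top σ
  have h1 : Module.finrank ℚ (LK hNK) = 1 := by
    apply finrank_eq_one_of_inertia_trivial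
    intro Q hQ hQ0 σ hσ
    have := hQ
    -- `σ` as an automorphism over `⊥`
    let s : (LK hNK) ≃ₐ[(⊥ : IntermediateField ℚ Qbar)] (LK hNK) :=
      AlgEquiv.ofRingEquiv (f := σ.toRingEquiv) (by
        intro x
        obtain ⟨q, hq⟩ := IntermediateField.mem_bot.mp x.2
        have hx : algebraMap (⊥ : IntermediateField ℚ Qbar) (LK hNK) x =
            algebraMap ℚ (LK hNK) q := by
          apply Subtype.ext
          exact hq.symm
        rw [hx]
        exact σ.commutes q)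
    have hs : ∀ x : 𝓞 (LK hNK), s • x - x ∈ Q := fun x => hσ x
    obtain ⟨ℓ, A, τ, hτ, hℓ, hA, hτA, hτs⟩ := exists_lift_mem_inertiaSubgroupIn hNK Q hQ0 s hs
    have hτH : τ ∈ H := hI ℓ A hℓ hA hτA
    have hs1 : s = 1 := by rw [← hτs]; exact (resLK_eq_one_iff hNK τ hτ).mpr hτH
    ext x
    have := congrArg (fun e : (LK hNK) ≃ₐ[(⊥ : IntermediateField ℚ Qbar)] (LK hNK) => e x) hs1
    exact congrArg Subtype.val this
  rw [eq_top_iff]
  intro σ _
  rw [← resLK_eq_one_iff hNK σ (hmemK σ)]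
  ext x
  obtain ⟨q, hq⟩ := (Algebra.finrank_eq_one_iff_bijective_algebraMap.mp h1).2 x
  rw [← hq]
  have h2 : algebraMap ℚ (LK hNK) q =
      algebraMap (⊥ : IntermediateField ℚ Qbar) (LK hNK) (algebraMap ℚ _ q) := rfl
  rw [h2, AlgEquiv.commutes]
  rfl

/-- **MINKOWSKI, character form**: a homomorphism from `G_ℚ` with open kernel which is trivial on
all inertia subgroups is trivial. -/
theorem monoidHom_eq_one_of_inertia {M : Type*} [Group M] (χ : GQ →* M)
    (hopen : IsOpen (χ.ker : Set GQ))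
    (hI : ∀ (ℓ : ℕ) (A : ValuationSubring Qbar), ℓ.Prime → A.LiesOverPrime ℓ →
      ∀ σ ∈ A.inertiaSubgroupIn ℚ, χ σ = 1) : χ = 1 := by
  have h := eq_top_of_inertia_le χ.ker hopen
    (fun ℓ A hℓ hA σ hσ => MonoidHom.mem_ker.mpr (hI ℓ A hℓ hA σ hσ))
  ext σ
  have : σ ∈ χ.ker := h ▸ Subgroup.mem_top σ
  simpa using MonoidHom.mem_ker.mp this

/-- **MINKOWSKI, continuous character form** (discrete target). -/
theorem monoidHom_eq_one_of_continuous_of_inertia {M : Type*} [Group M] [TopologicalSpace M]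
    [DiscreteTopology M] (χ : GQ →* M) (hcont : Continuous χ)
    (hI : ∀ (ℓ : ℕ) (A : ValuationSubring Qbar), ℓ.Prime → A.LiesOverPrime ℓ →
      ∀ σ ∈ A.inertiaSubgroupIn ℚ, χ σ = 1) : χ = 1 := by
  refine monoidHom_eq_one_of_inertia χ ?_ hI
  have : (χ.ker : Set GQ) = χ ⁻¹' {1} := by
    ext σ; simp [MonoidHom.mem_ker]
  rw [this]
  exact (isOpen_discrete _).preimage hcont

end Fermat.Agent.EC
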