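import Mathlib
import Fermat.Prelude.Def_FLTPrelim_CofixedLine
import Fermat.Prelude.Def_FLTPrelim_Ramification
import Fermat.Agent.EC.Minkowski_helper5

/-!
# S13 assembly inputs: from "unramified everywhere" to "trivial" (helper5)

For `V = E[n](ℚ̄)` (finite) and a Galois stable submodule `N ≤ V`:

* `isOpen_stabilizer_point`, `isOpen_torsionKernel`: the stabiliser of a point of `E(ℚ̄)` is open, and
  so is the kernel of the action on the finite group `V`;
* `sub_mem_of_inertia` (**χ₂ = 1**): if every inertia subgroup acts trivially on `V/N`, then `G_ℚ`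
  acts trivially on `V/N`;
* `smul_eq_of_inertia` (**χ₁ = 1**): if every inertia subgroup acts trivially on `N`, then `G_ℚ`
  acts trivially on `N`.

Both are applications of `eq_top_of_inertia_le` (Minkowski).
-/

set_option autoImplicit false

open WeierstrassCurve WeierstrassCurve.Affine WeierstrassCurve.Affine.Point

namespace Fermat.Agent.EC

open Fermat.Agent.CFT.S14

variable {W' : Affine ℚ}

/-- The stabiliser of a point of `E(ℚ̄)` is open in `G_ℚ`. -/
theorem isOpen_stabilizer_point (P : (W'⁄Qbar).Point) :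
    IsOpen ((MulAction.stabilizer GQ P : Subgroup GQ) : Set GQ) := by
  rcases P with _ | ⟨x, y, h⟩
  · have : (MulAction.stabilizer GQ (0 : (W'⁄Qbar).Point) : Subgroup GQ) = ⊤ := by
      rw [eq_top_iff]
      intro σ _
      exact MulAction.mem_stabilizer_iff.mpr rfl
    have h0 : (Point.zero : (W'⁄Qbar).Point) = 0 := rfl
    rw [h0, this]
    exact isOpen_univ
  · have hx := stabilizer_isOpen_of_isIntegral (K := ℚ) x
    have hy := stabilizer_isOpen_of_isIntegral (K := ℚ) y
    have hsub : (MulAction.stabilizer GQ x ⊓ MulAction.stabilizer GQ y : Subgroup GQ) ≤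
        MulAction.stabilizer GQ (Point.some x y h : (W'⁄Qbar).Point) := by
      intro σ hσ
      rw [Subgroup.mem_inf, MulAction.mem_stabilizer_iff, MulAction.mem_stabilizer_iff] at hσ
      rw [MulAction.mem_stabilizer_iff]
      have hx' : σ x = x := hσ.1
      have hy' : σ y = y := hσ.2
      show Point.map σ.toAlgHom (Point.some x y h) = Point.some x y h
      simp only [Point.map_some]
      congr 1
    exact Subgroup.isOpen_mono hsub (hx.inter hy)

variable {n : ℕ}

/-- The kernel of the action of `G_ℚ` on `E[n](ℚ̄)`. -/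
def torsionKernel (W' : Affine ℚ) (n : ℕ) : Subgroup GQ where
  carrier := {σ | ∀ x : Submodule.torsionBy ℤ (W'⁄Qbar).Point n, σ • x = x}
  mul_mem' {σ τ} hσ hτ x := by rw [mul_smul, hτ x, hσ x]
  one_mem' x := one_smul _ x
  inv_mem' {σ} hσ x := by
    have := congrArg (fun y => σ⁻¹ • y) (hσ x)
    simpa using this.symm

theorem mem_torsionKernel {σ : GQ} :
    σ ∈ torsionKernel W' n ↔ ∀ x : Submodule.torsionBy ℤ (W'⁄Qbar).Point n, σ • x = x := Iff.rfl

theorem isOpen_torsionKernel [Finite (Submodule.torsionBy ℤ (W'⁄Qbar).Point n)] :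
    IsOpen ((torsionKernel W' n : Subgroup GQ) : Set GQ) := by
  have h : ((torsionKernel W' n : Subgroup GQ) : Set GQ) =
      ⋂ x : Submodule.torsionBy ℤ (W'⁄Qbar).Point n,
        ((MulAction.stabilizer GQ (x : (W'⁄Qbar).Point) : Subgroup GQ) : Set GQ) := by
    ext σ
    simp only [SetLike.mem_coe, mem_torsionKernel, Set.mem_iInter, MulAction.mem_stabilizer_iff]
    constructor
    · intro h x
      exact congrArg Subtype.val (h x)
    · intro h x
      exact Subtype.ext (h x)
  rw [h]
  exact isOpen_iInter_of_finite fun x => isOpen_stabilizer_point _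

variable [Finite (Submodule.torsionBy ℤ (W'⁄Qbar).Point n)]
variable (N : Submodule (ZMod n) (Submodule.torsionBy ℤ (W'⁄Qbar).Point n))

/-- **`χ₂ = 1` from local triviality**: if `N` is Galois stable and every inertia subgroup acts
trivially on `V/N`, then `G_ℚ` acts trivially on `V/N`. -/
theorem sub_mem_of_inertia (hN : IsGaloisStable ℚ N)
    (hI : ∀ (ℓ : ℕ) (A : ValuationSubring Qbar), ℓ.Prime → A.LiesOverPrime ℓ →
      ∀ σ ∈ A.inertiaSubgroupIn ℚ, ∀ x : Submodule.torsionBy ℤ (W'⁄Qbar).Point n,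
        σ • x - x ∈ N)
    (σ : GQ) (x : Submodule.torsionBy ℤ (W'⁄Qbar).Point n) : σ • x - x ∈ N := by
  let H : Subgroup GQ :=
    { carrier := {σ | ∀ x : Submodule.torsionBy ℤ (W'⁄Qbar).Point n, σ • x - x ∈ N}
      mul_mem' := by
        intro σ τ hσ hτ x
        have h1 : (σ * τ) • x - x = σ • (τ • x - x) + (σ • x - x) := by
          rw [mul_smul, smul_sub]; abel
        rw [h1]
        exact N.add_mem (hN σ _ (hτ x)) (hσ x)
      one_mem' := by
        intro x
        rw [one_smul, sub_self]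
        exact N.zero_mem
      inv_mem' := by
        intro σ hσ x
        have h1 : σ⁻¹ • x - x = -(σ⁻¹ • (σ • x - x)) := by
          rw [smul_sub, inv_smul_smul]; abel
        rw [h1]
        exact N.neg_mem (hN σ⁻¹ _ (hσ x)) }
  have hHmem : ∀ τ : GQ, τ ∈ H ↔
      ∀ x : Submodule.torsionBy ℤ (W'⁄Qbar).Point n, τ • x - x ∈ N := fun _ => Iff.rfl
  have : H.Normal := by
    refine ⟨fun τ hτ g => ?_⟩
    rw [hHmem] at hτ ⊢
    intro x
    have h1 : (g * τ * g⁻¹) • x - x = g • (τ • (g⁻¹ • x) - g⁻¹ • x) := by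
      rw [mul_smul, mul_smul, smul_sub, smul_inv_smul]
    rw [h1]
    exact hN g _ (hτ _)
  have hle : torsionKernel W' n ≤ H := by
    intro τ hτ
    rw [hHmem]
    intro x
    rw [mem_torsionKernel.mp hτ x, sub_self]
    exact N.zero_mem
  have hopen : IsOpen (H : Set GQ) := Subgroup.isOpen_mono hle isOpen_torsionKernel
  have htop := eq_top_of_inertia_le H hopen (fun ℓ A hℓ hA τ hτ => (hHmem τ).mpr (hI ℓ A hℓ hA τ hτ))
  have : σ ∈ H := htop ▸ Subgroup.mem_top σ
  exact (hHmem σ).mp this x

/-- **`χ₁ = 1` from local triviality**: if `N` is Galois stable and every inertia subgroup acts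
trivially on `N`, then `G_ℚ` acts trivially on `N`. -/
theorem smul_eq_of_inertia (hN : IsGaloisStable ℚ N)
    (hI : ∀ (ℓ : ℕ) (A : ValuationSubring Qbar), ℓ.Prime → A.LiesOverPrime ℓ →
      ∀ σ ∈ A.inertiaSubgroupIn ℚ, ∀ x ∈ N, σ • x = x)
    (σ : GQ) (x : Submodule.torsionBy ℤ (W'⁄Qbar).Point n) (hx : x ∈ N) : σ • x = x := by
  let H : Subgroup GQ :=
    { carrier := {σ | ∀ x ∈ N, σ • x = x}
      mul_mem' := by
        intro σ τ hσ hτ x hx
        rw [mul_smul, hτ x hx, hσ x hx]
      one_mem' := fun x _ => one_smul _ x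
      inv_mem' := by
        intro σ hσ x hx
        have := congrArg (fun y => σ⁻¹ • y) (hσ x hx)
        simpa using this.symm }
  have hHmem : ∀ τ : GQ, τ ∈ H ↔ ∀ x ∈ N, τ • x = x := fun _ => Iff.rfl
  have : H.Normal := by
    refine ⟨fun τ hτ g => ?_⟩
    rw [hHmem] at hτ ⊢
    intro x hx
    rw [mul_smul, mul_smul, hτ _ (hN g⁻¹ x hx), smul_inv_smul]
  have hle : torsionKernel W' n ≤ H := fun τ hτ x _ => mem_torsionKernel.mp hτ x
  have hopen : IsOpen (H : Set GQ) := Subgroup.isOpen_mono hle isOpen_torsionKernel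
  have htop := eq_top_of_inertia_le H hopen (fun ℓ A hℓ hA τ hτ => (hHmem τ).mpr (hI ℓ A hℓ hA τ hτ))
  have : σ ∈ H := htop ▸ Subgroup.mem_top σ
  exact (hHmem σ).mp this x hx

end Fermat.Agent.EC
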