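import Mathlib
import Fermat.Prelude.Def_FLTPrelim_GaloisRep
import Fermat.Agent.EC.Tors_helper6_CountGe

set_option autoImplicit false
set_option linter.unusedSectionVars false

/-!
# `E[p]` has `p²` elements: packaged for `Submodule.torsionBy` and the `ZMod p`-module structure
-/

namespace Fermat.Agent.EC

open WeierstrassCurve WeierstrassCurve.Affine

variable {K : Type*} [Field K] [DecidableEq K]

/-- the `p`-torsion as a subtype -/
noncomputable def torsionEquiv (W : Affine K) (p : ℕ) :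
    {P : W.Point // p • P = 0} ≃ Submodule.torsionBy ℤ W.Point (p : ℤ) where
  toFun P := ⟨P.1, by rw [Submodule.mem_torsionBy_iff, natCast_zsmul]; exact P.2⟩
  invFun P := ⟨P.1, by
    have := P.2
    rw [Submodule.mem_torsionBy_iff, natCast_zsmul] at this
    exact this⟩
  left_inv _ := rfl
  right_inv _ := rfl

/-- **`#E[p] = p²`**, `torsionBy` form. -/
theorem card_torsionBy_eq_sq [IsAlgClosed K] [CharZero K] {W : Affine K} (hΔ : W.Δ ≠ 0) {p : ℕ}
    (hp : p.Prime) (hodd : p ≠ 2) :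
    Nat.card (Submodule.torsionBy ℤ W.Point (p : ℤ)) = p ^ 2 := by
  rw [← Nat.card_congr (torsionEquiv W p)]
  exact card_torsion_eq hΔ hp hodd

/-- **`#E[p] ≤ p²`** over any field in which `p ≠ 0`, `torsionBy` form. -/
theorem card_torsionBy_le_sq {W : Affine K} {p : ℕ} (hp : p.Prime) (hodd : p ≠ 2)
    (hpK : (p : K) ≠ 0) :
    Finite (Submodule.torsionBy ℤ W.Point (p : ℤ)) ∧
      Nat.card (Submodule.torsionBy ℤ W.Point (p : ℤ)) ≤ p ^ 2 := by
  obtain ⟨hfin, hle⟩ := card_torsion_le (W := W) hp hodd hpK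
  refine ⟨Finite.of_equiv _ (torsionEquiv W p), ?_⟩
  rw [← Nat.card_congr (torsionEquiv W p)]
  exact hle

section zmod

open WeierstrassCurve.Affine.Point

variable {R : Type*} [CommRing R] [Algebra R K] (W' : Affine R)

theorem finite_torsionBy [CharZero K] {p : ℕ} (hp : p.Prime) (hodd : p ≠ 2) :
    Finite (Submodule.torsionBy ℤ (W'⁄K).Point (p : ℤ)) :=
  (card_torsionBy_le_sq hp hodd (Nat.cast_ne_zero.mpr hp.ne_zero)).1

/-- `E[p]` is a two-dimensional `𝔽_p`-vector space. -/
theorem finrank_torsionBy_eq_two [IsAlgClosed K] [CharZero K] (hΔ : (W'⁄K).Δ ≠ 0) {p : ℕ}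
    (hp : p.Prime) (hodd : p ≠ 2) :
    Module.finrank (ZMod p) (Submodule.torsionBy ℤ (W'⁄K).Point (p : ℤ)) = 2 := by
  have _ : Fact p.Prime := ⟨hp⟩
  have hfin := finite_torsionBy (K := K) W' hp hodd
  have hcard := card_torsionBy_eq_sq hΔ hp hodd
  have h1 := Module.natCard_eq_pow_finrank (K := ZMod p)
    (V := Submodule.torsionBy ℤ (W'⁄K).Point (p : ℤ))
  rw [hcard, Nat.card_zmod] at h1
  exact (Nat.pow_right_injective hp.two_le h1).symm

theorem nontrivial_torsionBy [IsAlgClosed K] [CharZero K] (hΔ : (W'⁄K).Δ ≠ 0) {p : ℕ}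
    (hp : p.Prime) (hodd : p ≠ 2) :
    Nontrivial (Submodule.torsionBy ℤ (W'⁄K).Point (p : ℤ)) := by
  have hfin := finite_torsionBy (K := K) W' hp hodd
  have hcard := card_torsionBy_eq_sq hΔ hp hodd
  rw [← Finite.one_lt_card_iff_nontrivial, hcard]
  exact Nat.one_lt_pow (by norm_num) hp.one_lt

end zmod

end Fermat.Agent.EC
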