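import Mathlib
import Fermat.Prelude.Def_FLTPrelim_FreyPackage
import Fermat.Prelude.Def_FLTPrelim_GaloisRep
import Fermat.Agent.EC.Tors_helper6_Main
import Fermat.Agent.Tate.Frey_helper7

set_option autoImplicit false
set_option linter.unusedSectionVars false

/-!
# The `p`-torsion of the Frey curve is two-dimensional
-/

namespace Fermat.Agent.EC

open WeierstrassCurve WeierstrassCurve.Affine WeierstrassCurve.Affine.Point

variable (P : FreyPackage) {K : Type*} [Field K] [DecidableEq K] [Algebra ℚ K]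

theorem freyCurve_baseChange_Δ_ne [CharZero K] : ((P.freyCurve : Affine ℚ)⁄K).Δ ≠ 0 := by
  have h : ((P.freyCurve : Affine ℚ)⁄K).Δ = algebraMap ℚ K P.freyCurve.Δ :=
    WeierstrassCurve.map_Δ _ _
  rw [h, Fermat.Agent.Tate.freyCurve_Δ]
  have habc : ((P.a * P.b * P.c : ℤ) : ℚ) ≠ 0 := by exact_mod_cast P.habc0
  intro h0
  have := (map_eq_zero (algebraMap ℚ K)).mp h0
  exact div_ne_zero (pow_ne_zero _ habc) (by norm_num) this

theorem frey_p_ne_two : P.p ≠ 2 := by have := P.hp5; omega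

variable [IsAlgClosed K] [CharZero K]

theorem frey_card_torsionBy :
    Nat.card (Submodule.torsionBy ℤ ((P.freyCurve : Affine ℚ)⁄K).Point (P.p : ℤ)) = P.p ^ 2 :=
  card_torsionBy_eq_sq (freyCurve_baseChange_Δ_ne P) P.pp (frey_p_ne_two P)

theorem frey_finite_torsionBy :
    Finite (Submodule.torsionBy ℤ ((P.freyCurve : Affine ℚ)⁄K).Point (P.p : ℤ)) :=
  finite_torsionBy (K := K) (P.freyCurve : Affine ℚ) P.pp (frey_p_ne_two P)

theorem frey_finrank_torsionBy :
    Module.finrank (ZMod P.p)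
      (Submodule.torsionBy ℤ ((P.freyCurve : Affine ℚ)⁄K).Point (P.p : ℤ)) = 2 :=
  finrank_torsionBy_eq_two (P.freyCurve : Affine ℚ) (freyCurve_baseChange_Δ_ne P) P.pp
    (frey_p_ne_two P)

theorem frey_nontrivial_torsionBy :
    Nontrivial (Submodule.torsionBy ℤ ((P.freyCurve : Affine ℚ)⁄K).Point (P.p : ℤ)) :=
  nontrivial_torsionBy (P.freyCurve : Affine ℚ) (freyCurve_baseChange_Δ_ne P) P.pp
    (frey_p_ne_two P)

end Fermat.Agent.EC
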