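import Mathlib
import Fermat.Agent.EC.Tors_helper6_CountLe
import Fermat.Agent.Tate.Integral_helper8
import Fermat.Agent.Tate.LogVal

set_option autoImplicit false
set_option linter.unusedSectionVars false

/-!
# `(†')`: the non-integral `p`-torsion points of an integral Weierstrass curve

For a valuation subring `A` of an algebraically closed field `K`, an integral Weierstrass curve `W`
and an odd prime `p`: `p² ∏_{Q ∈ S} x(Q) ∈ A` for every finite set `S` of nonzero `p`-torsion
points with non-integral `x`-coordinate.  Proof: `preΨ_p ∈ A[X]` has leading coefficient `p` and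
the `x(Q)` among its roots; peel off the factors `1 - X / x(Q)`.
-/

namespace Fermat.Agent.EC

open WeierstrassCurve WeierstrassCurve.Affine Polynomial

variable {K : Type*} [Field K]

/-- if `(1 - u X) h ∈ A[X]` with `u ∈ A` then `h ∈ A[X]` -/
theorem coeff_mem_of_one_sub_mul (A : Subring K) {u : K} (hu : u ∈ A) (h : K[X])
    (H : ∀ k, ((1 - C u * X) * h).coeff k ∈ A) : ∀ k, h.coeff k ∈ A := by
  have e : (1 - C u * X) * h = h - C u * (X * h) := by ring
  intro k
  induction k with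
  | zero =>
    have := H 0
    rw [e, coeff_sub, coeff_C_mul, coeff_X_mul_zero, mul_zero, sub_zero] at this
    exact this
  | succ k ih =>
    have := H (k + 1)
    rw [e, coeff_sub, coeff_C_mul, coeff_X_mul] at this
    have h2 : h.coeff (k + 1) = (h.coeff (k + 1) - u * h.coeff k) + u * h.coeff k := by ring
    rw [h2]
    exact A.add_mem this (A.mul_mem hu ih)

/-- **Content lemma**: if `a ∏_{r ∈ M₁} (X - r) ∏_{s ∈ M₂} (X - s) ∈ A[X]` and every `s ∈ M₂` has
`s⁻¹ ∈ A`, then `a ∏_{s ∈ M₂} (-s) ∈ A`. -/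
theorem mul_prod_neg_mem (A : Subring K) (M₁ : Multiset K) :
    ∀ (M₂ : Multiset K) (a : K), (∀ s ∈ M₂, s ≠ 0 ∧ s⁻¹ ∈ A) →
      (∀ k, (C a * (M₁.map (fun r => X - C r)).prod * (M₂.map (fun r => X - C r)).prod).coeff k
        ∈ A) → a * (M₂.map (fun s => -s)).prod ∈ A := by
  intro M₂
  induction M₂ using Multiset.induction_on with
  | empty =>
    intro a _ H
    simp only [Multiset.map_zero, Multiset.prod_zero, mul_one] at H ⊢
    have hmonic : (M₁.map (fun r => X - C r)).prod.Monic :=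
      monic_multiset_prod_of_monic _ _ (fun r _ => monic_X_sub_C r)
    have := H (M₁.map (fun r => X - C r)).prod.natDegree
    rwa [coeff_C_mul, coeff_natDegree, hmonic.leadingCoeff, mul_one] at this
  | cons s M₂ ih =>
    intro a hM H
    obtain ⟨hs0, hsA⟩ := hM s (Multiset.mem_cons_self s M₂)
    rw [Multiset.map_cons, Multiset.prod_cons, ← mul_assoc]
    apply ih (a * -s) (fun t ht => hM t (Multiset.mem_cons_of_mem ht))
    apply coeff_mem_of_one_sub_mul A hsA
    intro k
    have e : (1 - C s⁻¹ * X) * (C (a * -s) * (M₁.map (fun r => X - C r)).prod *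
        (M₂.map (fun r => X - C r)).prod) =
        C a * (M₁.map (fun r => X - C r)).prod *
          ((s ::ₘ M₂).map (fun r => X - C r)).prod := by
      rw [Multiset.map_cons, Multiset.prod_cons]
      have e1 : (X - C s : K[X]) = C (-s) * (1 - C s⁻¹ * X) := by
        rw [mul_sub, mul_one, ← mul_assoc, ← C_mul, neg_mul, mul_inv_cancel₀ hs0]
        simp only [C_neg, C_1, neg_mul, one_mul, sub_neg_eq_add]
        ring
      rw [e1, C_mul]
      ring
    rw [e]
    exact H k

/-- division polynomials of a curve with coefficients in a subring have coefficients there -/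
theorem preΨ_coeff_mem (A : Subring K) (W : WeierstrassCurve K) (h₁ : W.a₁ ∈ A) (h₂ : W.a₂ ∈ A)
    (h₃ : W.a₃ ∈ A) (h₄ : W.a₄ ∈ A) (h₆ : W.a₆ ∈ A) (n : ℤ) (k : ℕ) :
    (W.preΨ n).coeff k ∈ A := by
  let WA : WeierstrassCurve A := ⟨⟨W.a₁, h₁⟩, ⟨W.a₂, h₂⟩, ⟨W.a₃, h₃⟩, ⟨W.a₄, h₄⟩, ⟨W.a₆, h₆⟩⟩
  have hW : W = WA.map A.subtype := by
    ext <;> rfl
  rw [hW, WeierstrassCurve.map_preΨ, coeff_map]
  exact ((WA.preΨ n).coeff k).2

section main

variable [DecidableEq K] [IsAlgClosed K] (A : ValuationSubring K) {W : Affine K}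
  (hW : Fermat.Agent.Tate.IsIntegralCurve A W) {p : ℕ} (hp : p.Prime) (hodd : p ≠ 2)

include hW hp hodd in
/-- `p ∏_{r ∈ X'} (-r) ∈ A` for a finite set `X'` of non-integral `x`-coordinates of nonzero
`p`-torsion points -/
theorem natCast_mul_prod_neg_mem (X' : Finset K)
    (hX : ∀ r ∈ X', r ∉ A ∧ ∃ Q : W.Point, Q ≠ 0 ∧ p • Q = 0 ∧ xOf Q = r) :
    (p : K) * ∏ r ∈ X', (-r) ∈ A := by
  by_cases hpK : (p : K) = 0
  · rw [hpK, zero_mul]; exact A.zero_mem
  have hpK' : ((p : ℤ) : K) ≠ 0 := by exact_mod_cast hpK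
  set f := W.preΨ (p : ℤ) with hf
  have hf0 : f ≠ 0 := WeierstrassCurve.preΨ_ne_zero W hpK'
  have hoddp : ¬ Even (p : ℤ) := by
    rw [Int.even_coe_nat]
    exact fun he => hodd ((Nat.Prime.even_iff hp).mp he)
  have hlead : f.leadingCoeff = (p : K) := by
    rw [hf, WeierstrassCurve.leadingCoeff_preΨ W hpK', if_neg hoddp]
    simp
  have hsplit := (IsAlgClosed.splits f).eq_prod_roots
  rw [hlead] at hsplit
  have hle : X'.val ≤ f.roots := by
    rw [Multiset.le_iff_subset X'.nodup]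
    intro r hr
    obtain ⟨-, Q, hQ0, hpQ, rfl⟩ := hX r (Finset.mem_val.mp hr)
    rw [mem_roots hf0]
    exact preΨ_eval_xOf_eq_zero hp hodd hQ0 hpQ
  have hM : f.roots = (f.roots - X'.val) + X'.val := (Multiset.sub_add_cancel hle).symm
  have key := mul_prod_neg_mem A.toSubring (f.roots - X'.val) X'.val (p : K)
    (fun s hs => by
      have hsA := (hX s (Finset.mem_val.mp hs)).1
      have hs0 : s ≠ 0 := fun h0 => hsA (h0 ▸ A.zero_mem)
      refine ⟨hs0, ?_⟩
      rcases A.mem_or_inv_mem s with h | h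
      · exact absurd h hsA
      · exact h)
    (fun k => by
      have : C (p : K) * ((f.roots - X'.val).map (fun r => X - C r)).prod *
          (X'.val.map (fun r => X - C r)).prod = f := by
        rw [mul_assoc, ← Multiset.prod_add, ← Multiset.map_add, ← hM]
        exact hsplit.symm
      rw [this]
      exact preΨ_coeff_mem A.toSubring W hW.a₁ hW.a₂ hW.a₃ hW.a₄ hW.a₆ _ k)
  exact key

include hW hp hodd in
/-- **`(†')`, product form.** -/
theorem natCast_sq_mul_prod_xOf_mem (S : Finset W.Point)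
    (hS : ∀ Q ∈ S, p • Q = 0 ∧ Q ≠ 0 ∧ xOf Q ∉ A) : (p : K) ^ 2 * ∏ Q ∈ S, xOf Q ∈ A := by
  classical
  set X' := S.image xOf with hX'
  have hX : ∀ r ∈ X', r ∉ A ∧ ∃ Q : W.Point, Q ≠ 0 ∧ p • Q = 0 ∧ xOf Q = r := by
    intro r hr
    obtain ⟨Q, hQ, rfl⟩ := Finset.mem_image.mp hr
    exact ⟨(hS Q hQ).2.2, Q, (hS Q hQ).2.1, (hS Q hQ).1, rfl⟩
  have hc := natCast_mul_prod_neg_mem A hW hp hodd X' hX
  rw [← A.valuation_le_one_iff] at hc ⊢
  rw [map_mul, map_prod] at hc
  rw [map_mul, map_pow, map_prod]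
  have hc' : A.valuation (p : K) * ∏ r ∈ X', A.valuation r ≤ 1 := by
    refine le_trans (le_of_eq ?_) hc
    congr 1
    exact Finset.prod_congr rfl (fun r _ => (Valuation.map_neg _ r).symm)
  have hv1 : ∀ r ∈ X', 1 ≤ A.valuation r := by
    intro r hr
    by_contra hlt
    exact (hX r hr).1 ((A.valuation_le_one_iff r).mp (le_of_lt (not_le.mp hlt)))
  -- fibres of `xOf` on `S` have at most two elements
  have hfib : ∀ r ∈ X', (S.filter (fun Q => xOf Q = r)).card ≤ 2 := by
    intro r hr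
    obtain ⟨Q₀, hQ₀, rfl⟩ := Finset.mem_image.mp hr
    have hsub : S.filter (fun Q => xOf Q = xOf Q₀) ⊆ {Q₀, -Q₀} := by
      intro Q hQ
      rw [Finset.mem_filter] at hQ
      rw [Finset.mem_insert, Finset.mem_singleton]
      exact (xOf_eq_iff (hS Q hQ.1).2.1 (hS Q₀ hQ₀).2.1).mp hQ.2
    exact le_trans (Finset.card_le_card hsub) Finset.card_le_two
  have hprod : ∏ Q ∈ S, A.valuation (xOf Q) ≤ ∏ r ∈ X', A.valuation r ^ 2 := by
    rw [← Finset.prod_fiberwise_of_maps_to (s := S) (t := X') (g := xOf)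
      (fun Q hQ => Finset.mem_image_of_mem _ hQ)]
    apply Finset.prod_le_prod'
    intro r hr
    have : ∏ Q ∈ S with xOf Q = r, A.valuation (xOf Q) =
        A.valuation r ^ (S.filter (fun Q => xOf Q = r)).card := by
      rw [← Finset.prod_const]
      exact Finset.prod_congr rfl (fun Q hQ => by rw [(Finset.mem_filter.mp hQ).2])
    rw [this]
    exact pow_le_pow_right₀ (hv1 r hr) (hfib r hr)
  calc A.valuation (p : K) ^ 2 * ∏ Q ∈ S, A.valuation (xOf Q)
      ≤ A.valuation (p : K) ^ 2 * ∏ r ∈ X', A.valuation r ^ 2 := by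
        gcongr
    _ = (A.valuation (p : K) * ∏ r ∈ X', A.valuation r) ^ 2 := by
        rw [Finset.prod_pow, mul_pow]
    _ ≤ 1 := pow_le_one₀ zero_le hc'

/-- logarithmic valuation of a finite product of nonzero elements -/
theorem logVal_prod {ι : Type*} (L : Fermat.Agent.Tate.LogVal A) (s : Finset ι) (g : ι → K)
    (hg : ∀ i ∈ s, g i ≠ 0) : L.w (∏ i ∈ s, g i) = ∑ i ∈ s, L.w (g i) := by
  classical
  induction s using Finset.induction_on with
  | empty => simp
  | insert a s ha ih =>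
    rw [Finset.prod_insert ha, Finset.sum_insert ha,
      L.map_mul (hg a (Finset.mem_insert_self a s))
        (Finset.prod_ne_zero_iff.mpr (fun i hi => hg i (Finset.mem_insert_of_mem hi))),
      ih (fun i hi => hg i (Finset.mem_insert_of_mem hi))]

include hW hp hodd in
/-- **`(†')`, logarithmic form.** -/
theorem neg_two_mul_logVal_le_sum [CharZero K] (L : Fermat.Agent.Tate.LogVal A)
    (S : Finset W.Point) (hS : ∀ Q ∈ S, p • Q = 0 ∧ Q ≠ 0 ∧ xOf Q ∉ A) :
    -2 * L.w (p : K) ≤ ∑ Q ∈ S, L.w (xOf Q) := by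
  have hmem := natCast_sq_mul_prod_xOf_mem A hW hp hodd S hS
  have hpK : (p : K) ≠ 0 := Nat.cast_ne_zero.mpr hp.ne_zero
  have hx0 : ∀ Q ∈ S, xOf Q ≠ 0 := fun Q hQ h0 => (hS Q hQ).2.2 (h0 ▸ A.zero_mem)
  have hprod0 : ∏ Q ∈ S, xOf Q ≠ 0 := Finset.prod_ne_zero_iff.mpr hx0
  have h1 := (L.nonneg_iff (mul_ne_zero (pow_ne_zero 2 hpK) hprod0)).mpr hmem
  rw [L.map_mul (pow_ne_zero 2 hpK) hprod0, L.map_pow hpK, logVal_prod A L S _ hx0] at h1
  push_cast at h1
  linarith

end main

end Fermat.Agent.EC
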