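/-
S58 (E3), package (E₂) — helper1 — **the point count at `ℓ = 2`, part 2: the numerator of
`x(P₀ - φ P₀)`.**

In characteristic `2`, for a Weierstrass curve with coefficients `aᵢ ∈ 𝔽₂` and the generic point
`P₀ = (x, y)`, `x(P₀ - φ P₀) = n(x) / (x - x²)²` with
`n = A (A + a₁ D) + B² f - (a₂ + x + x²) D²`, `f = x³ + a₂ x² + a₄ x + a₆`, `A = f + a₁ x² + a₃`,
`B = a₁ x + a₃ + 1`, `D = x - x²`.  Here: the polynomial `n`, its expansion, its values and the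
values of its derivative at `0` and `1`, its degree.
-/
import Mathlib

set_option autoImplicit false

namespace Fermat.Agent.EC

open Polynomial

section general

variable {R : Type*} [CommRing R]

/-- the numerator `n` of `x(P₀ - φ P₀)` at `ℓ = 2`. -/
noncomputable def frob2Num (a₁ a₂ a₃ a₄ a₆ : R) : R[X] :=
  (X ^ 3 + C a₂ * X ^ 2 + C a₄ * X + C a₆ + C a₁ * X ^ 2 + C a₃) *
      ((X ^ 3 + C a₂ * X ^ 2 + C a₄ * X + C a₆ + C a₁ * X ^ 2 + C a₃) + C a₁ * (X - X ^ 2)) +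
    (C a₁ * X + C a₃ + 1) ^ 2 * (X ^ 3 + C a₂ * X ^ 2 + C a₄ * X + C a₆) -
    (C a₂ + X + X ^ 2) * (X - X ^ 2) ^ 2

/-- the coefficients of `frob2Num`. -/
def frob2Coeff (a₁ a₂ a₃ a₄ a₆ : R) : ℕ → R
  | 0 => a₃ ^ 2 * a₆ + a₃ ^ 2 + 4 * a₃ * a₆ + a₆ ^ 2 + a₆
  | 1 => 2 * a₁ * a₃ * a₆ + a₁ * a₃ + 3 * a₁ * a₆ + a₃ ^ 2 * a₄ + 4 * a₃ * a₄ + 2 * a₄ * a₆ + a₄
  | 2 => a₁ ^ 2 * a₆ + 2 * a₁ * a₃ * a₄ + a₁ * a₃ + 3 * a₁ * a₄ + a₁ * a₆ + a₂ * a₃ ^ 2 +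
      4 * a₂ * a₃ + 2 * a₂ * a₆ + a₄ ^ 2
  | 3 => a₁ ^ 2 * a₄ + a₁ ^ 2 + 2 * a₁ * a₂ * a₃ + 3 * a₁ * a₂ + a₁ * a₄ + 2 * a₂ * a₄ + 2 * a₂ +
      a₃ ^ 2 + 4 * a₃ + 2 * a₆
  | 4 => a₁ ^ 2 * a₂ + a₁ * a₂ + 2 * a₁ * a₃ + 3 * a₁ + a₂ ^ 2 - a₂ + 2 * a₄ + 1
  | 5 => a₁ ^ 2 + a₁ + 2 * a₂ + 1
  | _ => 0

theorem frob2Num_eq (a₁ a₂ a₃ a₄ a₆ : R) :
    frob2Num a₁ a₂ a₃ a₄ a₆ =
      C (frob2Coeff a₁ a₂ a₃ a₄ a₆ 5) * X ^ 5 + C (frob2Coeff a₁ a₂ a₃ a₄ a₆ 4) * X ^ 4 +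
        C (frob2Coeff a₁ a₂ a₃ a₄ a₆ 3) * X ^ 3 + C (frob2Coeff a₁ a₂ a₃ a₄ a₆ 2) * X ^ 2 +
        C (frob2Coeff a₁ a₂ a₃ a₄ a₆ 1) * X + C (frob2Coeff a₁ a₂ a₃ a₄ a₆ 0) := by
  simp only [frob2Num, frob2Coeff, C_add, C_mul, C_pow, C_sub, C_1, map_ofNat]
  ring

theorem frob2Num_map {S : Type*} [CommRing S] (φ : R →+* S) (a₁ a₂ a₃ a₄ a₆ : R) :
    (frob2Num a₁ a₂ a₃ a₄ a₆).map φ = frob2Num (φ a₁) (φ a₂) (φ a₃) (φ a₄) (φ a₆) := by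
  simp [frob2Num]

theorem frob2Num_eval_zero (a₁ a₂ a₃ a₄ a₆ : R) :
    (frob2Num a₁ a₂ a₃ a₄ a₆).eval 0 = frob2Coeff a₁ a₂ a₃ a₄ a₆ 0 := by
  rw [frob2Num_eq]
  simp

theorem frob2Num_eval_one (a₁ a₂ a₃ a₄ a₆ : R) :
    (frob2Num a₁ a₂ a₃ a₄ a₆).eval 1 =
      frob2Coeff a₁ a₂ a₃ a₄ a₆ 5 + frob2Coeff a₁ a₂ a₃ a₄ a₆ 4 + frob2Coeff a₁ a₂ a₃ a₄ a₆ 3 +
        frob2Coeff a₁ a₂ a₃ a₄ a₆ 2 + frob2Coeff a₁ a₂ a₃ a₄ a₆ 1 +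
        frob2Coeff a₁ a₂ a₃ a₄ a₆ 0 := by
  rw [frob2Num_eq]
  simp

theorem frob2Num_derivative_eval_zero (a₁ a₂ a₃ a₄ a₆ : R) :
    (derivative (frob2Num a₁ a₂ a₃ a₄ a₆)).eval 0 = frob2Coeff a₁ a₂ a₃ a₄ a₆ 1 := by
  rw [frob2Num_eq]
  simp

theorem frob2Num_derivative_eval_one (a₁ a₂ a₃ a₄ a₆ : R) :
    (derivative (frob2Num a₁ a₂ a₃ a₄ a₆)).eval 1 =
      5 * frob2Coeff a₁ a₂ a₃ a₄ a₆ 5 + 4 * frob2Coeff a₁ a₂ a₃ a₄ a₆ 4 +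
        3 * frob2Coeff a₁ a₂ a₃ a₄ a₆ 3 + 2 * frob2Coeff a₁ a₂ a₃ a₄ a₆ 2 +
        frob2Coeff a₁ a₂ a₃ a₄ a₆ 1 := by
  rw [frob2Num_eq]
  simp
  ring

end general

section two

theorem frob2Coeff_five (a₁ a₂ a₃ a₄ a₆ : ZMod 2) : frob2Coeff a₁ a₂ a₃ a₄ a₆ 5 = 1 := by
  revert a₁ a₂ a₃ a₄ a₆
  decide

theorem frob2Num_natDegree (a₁ a₂ a₃ a₄ a₆ : ZMod 2) :
    (frob2Num a₁ a₂ a₃ a₄ a₆).natDegree = 5 := by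
  rw [frob2Num_eq, frob2Coeff_five, C_1, one_mul]
  compute_degree!

end two

end Fermat.Agent.EC
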